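/-
T1B (S44), cell NODE/PHI-R1, brick R1-ASM (helper2, second seat to helper80): A LINE IS DETERMINED BY
ITS FRAMES.

Vocabulary of helper31's `Hol31/Frame.lean` (`frame0 M ε`, `frame1 M ε ⊆ F` for a framing
`ε : M.N01 →ₗ[R01] F`).

* `injective_of_ne_zero` : a nonzero linear map from an invertible module over a ring `R ↪ F` to the
  field `F` is injective (`Module.Invertible.tmul_comm` + projectivity);
* `framing_injective`    : a nonzero framing of a line is injective;
* `isoOfFrames`          : two two-chart modules with injective restriction maps and injective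
  framings with THE SAME frames are isomorphic;
* `nonempty_iso_of_frames_eq` : the same for lines, with nonzero framings only;
* `smulFraming`, `frame0_smulFraming`, `frame1_smulFraming` : scaling a framing by `g ∈ F`;
* `mk_pow_eq_mk_pow_of_frames` : **(GLUE)** if `(frame_j M εM) ^ p = g • (frame_j W εW) ^ p` for
  `j = 0, 1` and ONE `g ≠ 0`, then `[M] ^ p = [W] ^ p` in `LinePic c`.
-/
import Mathlib
import Fermat.Agent.T1B.Hol31.Frame
import Fermat.Agent.Jac.AbelJacobi73.Effective

set_option autoImplicit false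
set_option linter.unusedSectionVars false

universe u v

open TensorProduct

namespace Fermat.Agent.T1B.R1Asm2

open Fermat.Agent.Jac Fermat.Agent.Jac.LineOps39 Fermat.Agent.Jac.JGroup85Pic
open Fermat.Agent.T1B.Hol31.Frame

/-- A nonzero linear map from an invertible module over `R ↪ F` to the field `F` is injective. -/
theorem injective_of_ne_zero {R : Type*} {N : Type*} {F : Type*} [CommRing R] [AddCommGroup N]
    [Module R N] [Module.Invertible R N] [Field F] [Algebra R F]
    (hinj : Function.Injective (algebraMap R F)) (ε : N →ₗ[R] F) (hε : ε ≠ 0) :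
    Function.Injective ε := by
  rw [injective_iff_map_eq_zero]
  intro x hx
  rw [← Module.forall_dual_apply_eq_zero_iff R x]
  intro φ
  obtain ⟨y, hy⟩ : ∃ y, ε y ≠ 0 := by
    by_contra hcon
    push Not at hcon
    exact hε (LinearMap.ext hcon)
  -- the bilinear map `(a, b) ↦ φ a • ε b`
  let B : N →ₗ[R] N →ₗ[R] F := LinearMap.mk₂ R (fun a b => φ a • ε b)
    (fun a a' b => by simp only [map_add, add_smul])
    (fun r a b => by simp only [map_smul, smul_eq_mul, mul_smul])
    (fun a b b' => by simp only [map_add, smul_add])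
    (fun r a b => by simp only [map_smul]; rw [smul_comm])
  have h1 : TensorProduct.lift B (x ⊗ₜ[R] y) = TensorProduct.lift B (y ⊗ₜ[R] x) := by
    rw [Module.Invertible.tmul_comm (m₁ := x) (m₂ := y)]
  rw [TensorProduct.lift.tmul, TensorProduct.lift.tmul] at h1
  change φ x • ε y = φ y • ε x at h1
  rw [hx, smul_zero, Algebra.smul_def] at h1
  have h2 : algebraMap R F (φ x) = 0 := (mul_eq_zero.1 h1).resolve_right hy
  exact hinj (by rw [h2, map_zero])

variable {A R0 R1 R01 : Type u} [CommRing A] [CommRing R0] [CommRing R1] [CommRing R01]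
  [Algebra A R0] [Algebra A R1] [Algebra A R01] [Algebra R0 R01] [Algebra R1 R01]
  [IsScalarTower A R0 R01] [IsScalarTower A R1 R01]
  {F : Type v} [Field F] [Algebra R0 F] [Algebra R1 F] [Algebra R01 F]
  [IsScalarTower R0 R01 F] [IsScalarTower R1 R01 F]

/-- A nonzero framing of a line is injective. -/
theorem framing_injective {M : QC2 A R0 R1 R01} (hM : M.IsLine)
    (hinj : Function.Injective (algebraMap R01 F)) (ε : M.N01 →ₗ[R01] F) (hε : ε ≠ 0) :
    Function.Injective ε := by
  have := hM.inv0
  have : Module.Invertible R01 M.N01 := Module.Invertible.congr M.bc0.equiv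
  exact injective_of_ne_zero hinj ε hε

/-! ### The isomorphism from equal frames -/

section Iso

variable {L M : QC2 A R0 R1 R01} (εL : L.N01 →ₗ[R01] F) (εM : M.N01 →ₗ[R01] F)

/-- The chart-`0` map `N0 → F` of a framing. -/
def phi0 (M : QC2 A R0 R1 R01) (ε : M.N01 →ₗ[R01] F) : M.N0 →ₗ[R0] F :=
  (ε.restrictScalars R0).comp M.r0

/-- The chart-`1` map `N1 → F` of a framing. -/
def phi1 (M : QC2 A R0 R1 R01) (ε : M.N01 →ₗ[R01] F) : M.N1 →ₗ[R1] F :=
  (ε.restrictScalars R1).comp M.r1

theorem phi0_apply (M : QC2 A R0 R1 R01) (ε : M.N01 →ₗ[R01] F) (x : M.N0) :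
    phi0 M ε x = ε (M.r0 x) := rfl

theorem phi1_apply (M : QC2 A R0 R1 R01) (ε : M.N01 →ₗ[R01] F) (x : M.N1) :
    phi1 M ε x = ε (M.r1 x) := rfl

theorem range_phi0 (M : QC2 A R0 R1 R01) (ε : M.N01 →ₗ[R01] F) :
    LinearMap.range (phi0 M ε) = frame0 M ε := rfl

theorem range_phi1 (M : QC2 A R0 R1 R01) (ε : M.N01 →ₗ[R01] F) :
    LinearMap.range (phi1 M ε) = frame1 M ε := rfl

/-- The range of a framing is contained in the range of another one with the same chart-`0`
frame. -/
theorem range_le_of_frame0_le (h0 : frame0 L εL ≤ frame0 M εM) :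
    LinearMap.range εL ≤ LinearMap.range εM := by
  rintro _ ⟨y, rfl⟩
  refine L.bc0.inductionOn y (fun y => εL y ∈ LinearMap.range εM) ?_ ?_ ?_ ?_
  · rw [map_zero]; exact Submodule.zero_mem _
  · intro m
    have hm : εL (L.r0 m) ∈ frame0 M εM := h0 (mem_frame0.mpr ⟨m, rfl⟩)
    obtain ⟨x, hx⟩ := mem_frame0.mp hm
    exact ⟨M.r0 x, hx⟩
  · intro s n hn
    rw [map_smul]
    exact Submodule.smul_mem _ s hn
  · intro n₁ n₂ h₁ h₂
    rw [map_add]
    exact Submodule.add_mem _ h₁ h₂

theorem range_eq_of_frame0_eq (h0 : frame0 L εL = frame0 M εM) :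
    LinearMap.range εL = LinearMap.range εM :=
  le_antisymm (range_le_of_frame0_le εL εM h0.le) (range_le_of_frame0_le εM εL h0.ge)

variable (hεL : Function.Injective εL) (hεM : Function.Injective εM)
  (hL0 : Function.Injective L.r0) (hL1 : Function.Injective L.r1)
  (hM0 : Function.Injective M.r0) (hM1 : Function.Injective M.r1)

include hεL hL0 in
theorem phi0_injective_L : Function.Injective (phi0 L εL) := hεL.comp hL0

/-- **A two-chart module is determined by its frames.** -/
noncomputable def isoOfFrames (h0 : frame0 L εL = frame0 M εM)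
    (h1 : frame1 L εL = frame1 M εM) : QC2.Iso L M where
  e0 := (LinearEquiv.ofInjective (phi0 L εL) (hεL.comp hL0)).trans
    ((LinearEquiv.ofEq _ _ (show LinearMap.range (phi0 L εL) = LinearMap.range (phi0 M εM) from
      h0)).trans (LinearEquiv.ofInjective (phi0 M εM) (hεM.comp hM0)).symm)
  e1 := (LinearEquiv.ofInjective (phi1 L εL) (hεL.comp hL1)).trans
    ((LinearEquiv.ofEq _ _ (show LinearMap.range (phi1 L εL) = LinearMap.range (phi1 M εM) from
      h1)).trans (LinearEquiv.ofInjective (phi1 M εM) (hεM.comp hM1)).symm)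
  e01 := (LinearEquiv.ofInjective εL hεL).trans
    ((LinearEquiv.ofEq _ _ (range_eq_of_frame0_eq εL εM h0)).trans
      (LinearEquiv.ofInjective εM hεM).symm)
  comm0 x := by
    apply hεM
    have e1 : ∀ y : L.N01, εM (((LinearEquiv.ofInjective εL hεL).trans
        ((LinearEquiv.ofEq _ _ (range_eq_of_frame0_eq εL εM h0)).trans
          (LinearEquiv.ofInjective εM hεM).symm)) y) = εL y := by
      intro y
      have := LinearEquiv.ofInjective_apply εM (h := hεM) ((LinearEquiv.ofInjective εM hεM).symm
        (LinearEquiv.ofEq _ _ (range_eq_of_frame0_eq εL εM h0) (LinearEquiv.ofInjective εL hεL y)))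
      rw [LinearEquiv.apply_symm_apply] at this
      exact this.symm
    have e2 : ∀ y : L.N0, phi0 M εM (((LinearEquiv.ofInjective (phi0 L εL) (hεL.comp hL0)).trans
        ((LinearEquiv.ofEq _ _ (show LinearMap.range (phi0 L εL) = LinearMap.range (phi0 M εM) from
          h0)).trans (LinearEquiv.ofInjective (phi0 M εM) (hεM.comp hM0)).symm)) y) =
        phi0 L εL y := by
      intro y
      have := LinearEquiv.ofInjective_apply (phi0 M εM) (h := hεM.comp hM0)
        ((LinearEquiv.ofInjective (phi0 M εM) (hεM.comp hM0)).symm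
        (LinearEquiv.ofEq _ _ (show LinearMap.range (phi0 L εL) = LinearMap.range (phi0 M εM) from
          h0) (LinearEquiv.ofInjective (phi0 L εL) (hεL.comp hL0) y)))
      rw [LinearEquiv.apply_symm_apply] at this
      exact this.symm
    rw [e1, ← phi0_apply M εM, e2, phi0_apply]
  comm1 x := by
    apply hεM
    have e1 : ∀ y : L.N01, εM (((LinearEquiv.ofInjective εL hεL).trans
        ((LinearEquiv.ofEq _ _ (range_eq_of_frame0_eq εL εM h0)).trans
          (LinearEquiv.ofInjective εM hεM).symm)) y) = εL y := by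
      intro y
      have := LinearEquiv.ofInjective_apply εM (h := hεM) ((LinearEquiv.ofInjective εM hεM).symm
        (LinearEquiv.ofEq _ _ (range_eq_of_frame0_eq εL εM h0) (LinearEquiv.ofInjective εL hεL y)))
      rw [LinearEquiv.apply_symm_apply] at this
      exact this.symm
    have e2 : ∀ y : L.N1, phi1 M εM (((LinearEquiv.ofInjective (phi1 L εL) (hεL.comp hL1)).trans
        ((LinearEquiv.ofEq _ _ (show LinearMap.range (phi1 L εL) = LinearMap.range (phi1 M εM) from
          h1)).trans (LinearEquiv.ofInjective (phi1 M εM) (hεM.comp hM1)).symm)) y) =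
        phi1 L εL y := by
      intro y
      have := LinearEquiv.ofInjective_apply (phi1 M εM) (h := hεM.comp hM1)
        ((LinearEquiv.ofInjective (phi1 M εM) (hεM.comp hM1)).symm
        (LinearEquiv.ofEq _ _ (show LinearMap.range (phi1 L εL) = LinearMap.range (phi1 M εM) from
          h1) (LinearEquiv.ofInjective (phi1 L εL) (hεL.comp hL1) y)))
      rw [LinearEquiv.apply_symm_apply] at this
      exact this.symm
    rw [e1, ← phi1_apply M εM, e2, phi1_apply]

end Iso

/-! ### Lines -/

section Lines

variable [IsDomain R0] [IsDomain R1] [IsDomain R01]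

/-- **A line is determined by its frames**: two lines with nonzero framings having the same frames
are isomorphic. -/
theorem nonempty_iso_of_frames_eq (c : TwoChart A R0 R1 R01)
    (hinj : Function.Injective (algebraMap R01 F)) {L M : QC2 A R0 R1 R01}
    (hL : L.IsLine) (hM : M.IsLine) (εL : L.N01 →ₗ[R01] F) (εM : M.N01 →ₗ[R01] F)
    (hεL : εL ≠ 0) (hεM : εM ≠ 0) (h0 : frame0 L εL = frame0 M εM)
    (h1 : frame1 L εL = frame1 M εM) : Nonempty (QC2.Iso L M) :=
  ⟨isoOfFrames εL εM (framing_injective hL hinj εL hεL) (framing_injective hM hinj εM hεM)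
    (Fermat.Agent.Jac.AbelJacobi73.r0_injective c L hL)
    (Fermat.Agent.Jac.AbelJacobi73.r1_injective c L hL)
    (Fermat.Agent.Jac.AbelJacobi73.r0_injective c M hM)
    (Fermat.Agent.Jac.AbelJacobi73.r1_injective c M hM) h0 h1⟩

/-- The class of a line is determined by its frames. -/
theorem mk_eq_mk_of_frames_eq (c : TwoChart A R0 R1 R01)
    (hinj : Function.Injective (algebraMap R01 F)) {L M : QC2 A R0 R1 R01}
    (hL : L.IsLine) (hM : M.IsLine) (εL : L.N01 →ₗ[R01] F) (εM : M.N01 →ₗ[R01] F)
    (hεL : εL ≠ 0) (hεM : εM ≠ 0) (h0 : frame0 L εL = frame0 M εM)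
    (h1 : frame1 L εL = frame1 M εM) : LinePic.mk c L hL = LinePic.mk c M hM :=
  (LinePic.mk_eq_mk_iff hL hM).mpr (nonempty_iso_of_frames_eq c hinj hL hM εL εM hεL hεM h0 h1)

/-- The power framing of a nonzero framing is nonzero. -/
theorem powFraming_ne_zero {M : QC2 A R0 R1 R01} (ε : M.N01 →ₗ[R01] F) (hε : ε ≠ 0) (n : ℕ) :
    powFraming ε n ≠ 0 := by
  obtain ⟨x, hx⟩ : ∃ x, ε x ≠ 0 := by
    by_contra hcon
    push Not at hcon
    exact hε (LinearMap.ext hcon)
  intro h0
  have h1 := powFraming_powElt ε x n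
  rw [h0, LinearMap.zero_apply] at h1
  exact pow_ne_zero n hx h1.symm

/-- **(GLUE)** If the `p`-th powers of the frames of `M` are `g` times the `p`-th powers of the frames
of `W` on both charts (ONE `g ≠ 0`), then `[M] ^ p = [W] ^ p` in the Picard group. -/
theorem mk_pow_eq_mk_pow_of_frames (c : TwoChart A R0 R1 R01)
    (hinj : Function.Injective (algebraMap R01 F)) {M W : QC2 A R0 R1 R01}
    (hM : M.IsLine) (hW : W.IsLine) (εM : M.N01 →ₗ[R01] F) (εW : W.N01 →ₗ[R01] F)
    (hεM : εM ≠ 0) (hεW : εW ≠ 0) (p : ℕ) {g : F} (hg : g ≠ 0)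
    (h0 : frame0 M εM ^ p = frame0 W εW ^ p * Submodule.span R0 {g})
    (h1 : frame1 M εM ^ p = frame1 W εW ^ p * Submodule.span R1 {g}) :
    LinePic.mk c M hM ^ p = LinePic.mk c W hW ^ p := by
  rw [mk_pow c hM p, mk_pow c hW p]
  have hunit : LinePic.mk c (tpow W p) (isLine_tpow hW p) =
      LinePic.mk c (tensor (tpow W p) (QC2.unit : QC2 A R0 R1 R01))
        (isLine_tensor (isLine_tpow hW p) isLine_unit) := by
    rw [← LinePic.mk_mul_mk (c := c) (isLine_tpow hW p) isLine_unit, ← LinePic.one_def, mul_one]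
  rw [hunit]
  refine mk_eq_mk_of_frames_eq c hinj (isLine_tpow hM p)
    (isLine_tensor (isLine_tpow hW p) isLine_unit) (powFraming εM p)
    (tensorFraming (powFraming εW p) (unitFraming (A := A) (R0 := R0) (R1 := R1) g))
    (powFraming_ne_zero εM hεM p) ?_ ?_ ?_
  · -- the tensor framing is nonzero
    obtain ⟨x, hx⟩ : ∃ x, εW x ≠ 0 := by
      by_contra hcon
      push Not at hcon
      exact hεW (LinearMap.ext hcon)
    intro h0'
    have e1 : tensorFraming (powFraming εW p) (unitFraming (A := A) (R0 := R0) (R1 := R1) g)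
        ((powElt x p) ⊗ₜ[R01] (1 : R01)) = powFraming εW p (powElt x p) *
          (unitFraming (A := A) (R0 := R0) (R1 := R1) g : R01 →ₗ[R01] F) (1 : R01) :=
      tensorFraming_tmul _ _ _ _
    rw [h0', LinearMap.zero_apply, powFraming_powElt, unitFraming_apply, one_smul] at e1
    exact mul_ne_zero (pow_ne_zero p hx) hg e1.symm
  · rw [frame0_tpow, frame0_tensor, frame0_tpow, frame0_unit, h0]
  · rw [frame1_tpow, frame1_tensor, frame1_tpow, frame1_unit, h1]

end Lines

end Fermat.Agent.T1B.R1Asm2
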