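/-
T1B (S44), cell NODE/PHI-R1, brick R1-ASM (helper2, second seat to helper80): THE GLUE
"frames ⟶ `PicX` / `P00` / `J0L`" for `ρ_ker` (R1b).

* `mem_P00_of_pow_eq_one` : **torsion-free trick**: `y ^ n = 1` in `LinePic c` (`n ≠ 0`) ⟹ `y ∈ P00`
  (the multidegree takes values in the torsion-free group `ι → ℤ`);
* `map_mem_J0L_of_pow_eq` : hub form: `y w : PicX c0 O`, `w` with trivial generic fibre,
  `y ^ n = w ^ n` ⟹ the generic fibre of `y` lies in `J0L c0 O L (P00 hg X)`;
* `tautFraming`, `frame0_ofIdeals`, `frame1_ofIdeals` : the frames of `O(-D)` under the tautological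
  framing `I01 ⊆ R01 → F` are the chart ideals `D.I0`, `D.I1` (as submodules of `F`);
* `isoUnitOfTop`, `mk_ofIdeals_eq_one_of_top` : `O(-D) ≅ O` if both chart ideals are `⊤`;
* `map_mk_ofIdeals_eq_one_of_vertical` : **a vertical ideal pair has trivial generic fibre**: if a
  nonzero constant `a ∈ O` lies in both chart ideals of `D`, then
  `PicX.map c0 O L [O(-D)] = 1` (`L = Frac O`).
-/
import Mathlib
import Fermat.Agent.T1B.R1Asm2.FrameIso
import Fermat.Agent.T1B.Bal60.Mdeg
import Fermat.Agent.T1B.RedN3.Iface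
import Fermat.Agent.T1.Red68.ExtInj
import Fermat.Agent.T1B.Desc1.FieldBC

set_option autoImplicit false
set_option linter.unusedSectionVars false
set_option linter.style.haveILetI false

universe u v

open TensorProduct

namespace Fermat.Agent.T1B.R1Asm2

open Fermat.Agent.Jac Fermat.Agent.Jac.LineOps39 Fermat.Agent.Jac.JGroup85Pic
open Fermat.Agent.Jac.JSmooth85Alg Fermat.Agent.Jac.BaseChange75
open Fermat.Agent.T1.RedIface75 Fermat.Agent.T1.Red68
open Fermat.Agent.T1B.RedN3 Fermat.Agent.T1B.Bal60 Fermat.Agent.T1B.Desc1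
open Fermat.Agent.T1B.Hol31.Frame
open scoped Fermat.Agent.Jac.BaseChange75

/-! ### The torsion-free trick -/

section Torsion

variable {A R0 R1 R01 : Type u} [CommRing A] [CommRing R0] [CommRing R1] [CommRing R01]
  [Algebra A R0] [Algebra A R1] [Algebra A R01] [Algebra R0 R01] [Algebra R1 R01]
  [IsScalarTower A R0 R01] [IsScalarTower A R1 R01]
  {c : TwoChart A R0 R1 R01} {p : A} {ι : Type} (hg : NodalGood c p ι)
  {K : Type u} [Field K] (X : ∀ i, Comp c (hg.P0 i) (hg.P1 i) K)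

/-- **Torsion-free trick**: a torsion class has multidegree `0`. -/
theorem mem_P00_of_pow_eq_one {y : LinePic c} {n : ℕ} (hn : n ≠ 0) (h : y ^ n = 1) :
    y ∈ P00 hg X := by
  rw [P00_eq_ker, MonoidHom.mem_ker]
  have h' := congrArg (Mdeg hg X) h
  rw [map_pow, map_one] at h'
  funext i
  have hi : (Mdeg hg X y i) ^ n = 1 := congrFun h' i
  have h2 : n • Multiplicative.toAdd (Mdeg hg X y i) = 0 := by
    have := congrArg Multiplicative.toAdd hi
    rwa [toAdd_pow, toAdd_one] at this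
  rw [nsmul_eq_mul] at h2
  have h3 : Multiplicative.toAdd (Mdeg hg X y i) = 0 :=
    (mul_eq_zero.1 h2).resolve_left (Nat.cast_ne_zero.2 hn)
  show Mdeg hg X y i = 1
  rw [← ofAdd_toAdd (Mdeg hg X y i), h3]
  rfl

end Torsion

section Hub

variable {W B0 B1 B01 : Type u} [CommRing W] [CommRing B0] [CommRing B1] [CommRing B01]
  [Algebra W B0] [Algebra W B1] [Algebra W B01] [Algebra B0 B01] [Algebra B1 B01]
  [IsScalarTower W B0 B01] [IsScalarTower W B1 B01]
  (c0 : TwoChart W B0 B1 B01)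
  (O : Type u) [CommRing O] [Algebra W O]
  (L : Type u) [CommRing L] [Algebra W L] [Algebra O L] [IsScalarTower W O L]

/-- **Hub form of the torsion-free trick**: if `y ^ n = w ^ n` with `w` of trivial generic fibre, the
generic fibre of `y` extends to a class of multidegree `0`. -/
theorem map_mem_J0L_of_pow_eq {π : O} {ι : Type} (hg : NodalGood (c0.baseChange O) π ι)
    {K : Type u} [Field K] (X : ∀ i, Comp (c0.baseChange O) (hg.P0 i) (hg.P1 i) K)
    (y w : PicX c0 O) (hw : PicX.map c0 O L w = 1) {n : ℕ} (hn : n ≠ 0) (h : y ^ n = w ^ n) :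
    PicX.map c0 O L y ∈ J0L c0 O L (P00 hg X) := by
  have h1 : (y / w) ^ n = 1 := by rw [div_pow, h, div_self']
  refine ⟨y / w, mem_P00_of_pow_eq_one hg X hn h1, ?_⟩
  rw [map_div, hw, div_one]

end Hub

/-! ### Frames of ideal sheaves -/

section OfIdeals

variable {A R0 R1 R01 : Type u} [CommRing A] [CommRing R0] [CommRing R1] [CommRing R01]
  [Algebra A R0] [Algebra A R1] [Algebra A R01] [Algebra R0 R01] [Algebra R1 R01]
  [IsScalarTower A R0 R01] [IsScalarTower A R1 R01]
  {F : Type v} [Field F] [Algebra R0 F] [Algebra R1 F] [Algebra R01 F]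
  [IsScalarTower R0 R01 F] [IsScalarTower R1 R01 F]

/-- The tautological framing `I01 ⊆ R01 → F` of the ideal sheaf `O(-D)`. -/
def tautFraming (c : TwoChart A R0 R1 R01) (D : IdealPair R0 R1 R01) :
    (ofIdeals c D).N01 →ₗ[R01] F :=
  (Algebra.linearMap R01 F).comp (D.unitSubPair (A := A)).S01.subtype

theorem tautFraming_r0 (c : TwoChart A R0 R1 R01) (D : IdealPair R0 R1 R01) (x : ↥D.I0) :
    tautFraming (F := F) c D ((ofIdeals c D).r0 x) = algebraMap R0 F x.1 := by
  change algebraMap R01 F (algebraMap R0 R01 x.1) = _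
  rw [← IsScalarTower.algebraMap_apply]

theorem tautFraming_r1 (c : TwoChart A R0 R1 R01) (D : IdealPair R0 R1 R01) (x : ↥D.I1) :
    tautFraming (F := F) c D ((ofIdeals c D).r1 x) = algebraMap R1 F x.1 := by
  change algebraMap R01 F (algebraMap R1 R01 x.1) = _
  rw [← IsScalarTower.algebraMap_apply]

/-- The chart-`0` frame of `O(-D)` is `D.I0 ⊆ F`. -/
theorem frame0_ofIdeals (c : TwoChart A R0 R1 R01) (D : IdealPair R0 R1 R01) :
    frame0 (ofIdeals c D) (tautFraming (F := F) c D) =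
      Submodule.map (Algebra.linearMap R0 F) D.I0 := by
  ext z
  rw [mem_frame0, Submodule.mem_map]
  constructor
  · rintro ⟨x, rfl⟩
    have hx := tautFraming_r0 (F := F) c D x
    exact ⟨(x : ↥D.I0).1, (x : ↥D.I0).2, hx.symm⟩
  · rintro ⟨a, ha, rfl⟩
    exact ⟨(⟨a, ha⟩ : ↥D.I0), tautFraming_r0 (F := F) c D ⟨a, ha⟩⟩

/-- The chart-`1` frame of `O(-D)` is `D.I1 ⊆ F`. -/
theorem frame1_ofIdeals (c : TwoChart A R0 R1 R01) (D : IdealPair R0 R1 R01) :
    frame1 (ofIdeals c D) (tautFraming (F := F) c D) =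
      Submodule.map (Algebra.linearMap R1 F) D.I1 := by
  ext z
  rw [mem_frame1, Submodule.mem_map]
  constructor
  · rintro ⟨x, rfl⟩
    have hx := tautFraming_r1 (F := F) c D x
    exact ⟨(x : ↥D.I1).1, (x : ↥D.I1).2, hx.symm⟩
  · rintro ⟨a, ha, rfl⟩
    exact ⟨(⟨a, ha⟩ : ↥D.I1), tautFraming_r1 (F := F) c D ⟨a, ha⟩⟩

/-- The tautological framing is nonzero as soon as `D.I0` contains an element with nonzero image in
`F`. -/
theorem tautFraming_ne_zero (c : TwoChart A R0 R1 R01) (D : IdealPair R0 R1 R01) {a : R0}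
    (ha : a ∈ D.I0) (ha0 : algebraMap R0 F a ≠ 0) : tautFraming (F := F) c D ≠ 0 := by
  intro h0
  have h1 := tautFraming_r0 (F := F) c D ⟨a, ha⟩
  rw [h0, LinearMap.zero_apply] at h1
  exact ha0 h1.symm

/-! ### The unit ideal pair -/

/-- `O(-D) ≅ O` if both chart ideals are the unit ideal. -/
noncomputable def isoUnitOfTop (c : TwoChart A R0 R1 R01) (D : IdealPair R0 R1 R01)
    (h0 : D.I0 = ⊤) (h1 : D.I1 = ⊤) : QC2.Iso (ofIdeals c D) (QC2.unit : QC2 A R0 R1 R01) where
  e0 := LinearEquiv.ofBijective (show ↥D.I0 →ₗ[R0] R0 from D.I0.subtype)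
    ⟨Subtype.val_injective, fun x => ⟨⟨x, h0 ▸ Submodule.mem_top⟩, rfl⟩⟩
  e1 := LinearEquiv.ofBijective (show ↥D.I1 →ₗ[R1] R1 from D.I1.subtype)
    ⟨Subtype.val_injective, fun x => ⟨⟨x, h1 ▸ Submodule.mem_top⟩, rfl⟩⟩
  e01 := LinearEquiv.ofBijective
    (show ↥(D.unitSubPair (A := A)).S01 →ₗ[R01] R01 from (D.unitSubPair (A := A)).S01.subtype)
    ⟨Subtype.val_injective, fun x => ⟨⟨x, by
      rw [unitSubPair_S01]
      show x ∈ D.I0.map (algebraMap R0 R01)
      rw [h0, Ideal.map_top]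
      exact Submodule.mem_top⟩, rfl⟩⟩
  comm0 _ := rfl
  comm1 _ := rfl

theorem mk_ofIdeals_eq_one_of_top (c : TwoChart A R0 R1 R01) (D : IdealPair R0 R1 R01)
    (h0 : D.I0 = ⊤) (h1 : D.I1 = ⊤) (hD : (ofIdeals c D).IsLine) :
    LinePic.mk c (ofIdeals c D) hD = 1 := by
  rw [LinePic.one_def]
  exact LinePic.mk_eq_mk hD isLine_unit (isoUnitOfTop c D h0 h1)

end OfIdeals

/-! ### A vertical ideal pair has trivial generic fibre -/

section Vertical

variable {W B0 B1 B01 : Type u} [CommRing W] [CommRing B0] [CommRing B1] [CommRing B01]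
  [Algebra W B0] [Algebra W B1] [Algebra W B01] [Algebra B0 B01] [Algebra B1 B01]
  [IsScalarTower W B0 B01] [IsScalarTower W B1 B01]
  (c0 : TwoChart W B0 B1 B01)
  (O : Type u) [CommRing O] [IsDomain O] [IsDiscreteValuationRing O] [Algebra W O]
  (L : Type u) [Field L] [Algebra W L] [Algebra O L] [IsScalarTower W O L] [IsFractionRing O L]

/-- `L ⊗[W] B` is flat over `O ⊗[W] B` (a localisation). -/
theorem flat_tensor (B : Type u) [CommRing B] [Algebra W B] :
    Module.Flat (O ⊗[W] B) (L ⊗[W] B) := by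
  have := isLocalization_tensor (W := W) O L B
  exact IsLocalization.flat (L ⊗[W] B)
    (Algebra.algebraMapSubmonoid (O ⊗[W] B) (nonZeroDivisors O))

/-- The extension of an ideal containing a nonzero constant is the unit ideal. -/
theorem map_eq_top_of_const_mem (B : Type u) [CommRing B] [Algebra W B]
    (I : Ideal (O ⊗[W] B)) {a : O} (ha : a ≠ 0) (h : algebraMap O (O ⊗[W] B) a ∈ I) :
    I.map (algebraMap (O ⊗[W] B) (L ⊗[W] B)) = ⊤ := by
  rw [Ideal.eq_top_iff_one]
  have h1 : algebraMap (O ⊗[W] B) (L ⊗[W] B) (algebraMap O (O ⊗[W] B) a) ∈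
      I.map (algebraMap (O ⊗[W] B) (L ⊗[W] B)) := Ideal.mem_map_of_mem _ h
  have h2 : algebraMap (O ⊗[W] B) (L ⊗[W] B) (algebraMap O (O ⊗[W] B) a) =
      (algebraMap O L a) ⊗ₜ[W] (1 : B) := by
    rw [Algebra.TensorProduct.algebraMap_apply, Algebra.algebraMap_self, RingHom.id_apply,
      algebraMap_left_tmul]
  rw [h2] at h1
  have ha' : algebraMap O L a ≠ 0 := by
    intro h0
    exact ha ((IsFractionRing.injective O L) (by rw [h0, map_zero]))
  have h3 : ((algebraMap O L a)⁻¹ ⊗ₜ[W] (1 : B)) * ((algebraMap O L a) ⊗ₜ[W] (1 : B)) =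
      (1 : L ⊗[W] B) := by
    rw [Algebra.TensorProduct.tmul_mul_tmul, inv_mul_cancel₀ ha', mul_one]
    rfl
  rw [← h3]
  exact Ideal.mul_mem_left _ _ h1

/-- **A vertical ideal pair has trivial generic fibre.** -/
theorem map_mk_ofIdeals_eq_one_of_vertical
    (D : IdealPair (O ⊗[W] B0) (O ⊗[W] B1) (O ⊗[W] B01))
    (hD : (ofIdeals (c0.baseChange O) D).IsLine) {a : O} (ha : a ≠ 0)
    (h0 : algebraMap O (O ⊗[W] B0) a ∈ D.I0) (h1 : algebraMap O (O ⊗[W] B1) a ∈ D.I1) :
    PicX.map c0 O L (LinePic.mk (c0.baseChange O) (ofIdeals (c0.baseChange O) D) hD) = 1 := by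
  have hf0 := flat_tensor (W := W) O L B0
  have hf1 := flat_tensor (W := W) O L B1
  have hinj0 : Function.Injective (D.I0.subtype.baseChange (L ⊗[W] B0)) := by
    rw [LinearMap.baseChange_eq_ltensor]
    exact Module.Flat.lTensor_preserves_injective_linearMap _ Subtype.val_injective
  have hinj1 : Function.Injective (D.I1.subtype.baseChange (L ⊗[W] B1)) := by
    rw [LinearMap.baseChange_eq_ltensor]
    exact Module.Flat.lTensor_preserves_injective_linearMap _ Subtype.val_injective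
  have hl : LiftData (ofIdeals (c0.baseChange O) D)
      (ofIdeals (c0.baseChange L) (idealPairBC L D)) :=
    liftDataOfIdeals (square_comm W O L B0 B01) (square_comm W O L B1 B01)
      (c0.baseChange O) (c0.baseChange L) (idealPairBC_isBC L D) hinj0 hinj1
  have e1 : PicX.map c0 O L (LinePic.mk (c0.baseChange O) (ofIdeals (c0.baseChange O) D) hD) =
      LinePic.mk (c0.baseChange L) (ofIdeals (c0.baseChange L) (idealPairBC L D))
        (LiftData.isLine hl hD) :=
    LinePic.bc_mk _ _ _ _ hD hl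
  rw [e1]
  exact mk_ofIdeals_eq_one_of_top (c0.baseChange L) (idealPairBC L D)
    (map_eq_top_of_const_mem O L B0 D.I0 ha h0) (map_eq_top_of_const_mem O L B1 D.I1 ha h1) _

end Vertical

end Fermat.Agent.T1B.R1Asm2
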