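/-
T1B (S44), cell NODE/PHI-R1, brick R1-ASM (helper2, second seat to helper80): **`ρ_ker` (R1b), hub
form**.  From the OUTPUT of helper80's `Hol80.exists_vertical_root_twoChart` (vertical ideals
`W₀ ⊂ O ⊗ B0`, `W₁ ⊂ O ⊗ B1`, invertible, compatible on the overlap, with
`(π ^ n) (frame_j M ε) ^ p = (π ^ a f) W_j ^ p`, `j = 0, 1`) to

  `PicX.map c0 O L [M] ∈ J0L c0 O L (P00 hg X)`   (the generic fibre of `M` extends with multidegree `0`).

* `invertible_of_coeSubmodule_mul_eq_one` : an ideal whose image in `F` is an invertible submodule is an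
  invertible module;
* `map_eq_map_of_overlap` : the elementwise overlap compatibility gives `W₀ R01 = W₁ R01`;
* `pow_eq_of_span_mul_eq` : `(x) I ^ p = (y) W ^ p ⟹ I ^ p = W ^ p (y / x)`;
* `map_mem_J0L_of_vertical_root` : the assembly.
-/
import Mathlib
import Fermat.Agent.T1B.R1Asm2.Glue

set_option autoImplicit false
set_option linter.unusedSectionVars false
set_option linter.style.haveILetI false

universe u v

open TensorProduct

namespace Fermat.Agent.T1B.R1Asm2

open Fermat.Agent.Jac Fermat.Agent.Jac.LineOps39 Fermat.Agent.Jac.JGroup85Pic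
open Fermat.Agent.Jac.JSmooth85Alg Fermat.Agent.Jac.BaseChange75
open Fermat.Agent.T1.RedIface75 Fermat.Agent.T1.Red68
open Fermat.Agent.T1B.RedN3 Fermat.Agent.T1B.Bal60 Fermat.Agent.T1B.Desc1
open Fermat.Agent.T1B.Hol31.Frame
open scoped Fermat.Agent.Jac.BaseChange75

/-- An ideal whose image in the field `F` is an invertible submodule is an invertible module. -/
theorem invertible_of_coeSubmodule_mul_eq_one {R : Type*} {F : Type*} [CommRing R] [Field F]
    [Algebra R F] (hinj : Function.Injective (algebraMap R F)) (W : Ideal R)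
    (h : ∃ Y : Submodule R F, IsLocalization.coeSubmodule F W * Y = 1) :
    Module.Invertible R W := by
  obtain ⟨Y, hY⟩ := h
  have : FaithfulSMul R F := (faithfulSMul_iff_algebraMap_injective R F).mpr hinj
  let U : (Submodule R F)ˣ := Units.mkOfMulEqOne _ _ hY
  have hU : Module.Invertible R (U : Submodule R F) := inferInstance
  have e : W ≃ₗ[R] (IsLocalization.coeSubmodule F W : Submodule R F) :=
    Submodule.equivMapOfInjective (Algebra.linearMap R F) hinj W
  exact Module.Invertible.congr (R := R) (M := ((U : Submodule R F) : Type _)) e.symm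

/-- `(x) I ^ p = (y) W ^ p` gives `I ^ p = W ^ p (y x⁻¹)`. -/
theorem pow_eq_of_span_mul_eq {R : Type*} {F : Type*} [CommRing R] [Field F] [Algebra R F]
    {I W : Submodule R F} {x y : F} (hx : x ≠ 0)
    (h : Submodule.span R {x} * I = Submodule.span R {y} * W) :
    I = W * Submodule.span R {y * x⁻¹} := by
  have h1 : Submodule.span R {x⁻¹} * (Submodule.span R {x} * I) =
      Submodule.span R {x⁻¹} * (Submodule.span R {y} * W) := by rw [h]
  rw [← mul_assoc, ← mul_assoc, Submodule.span_mul_span, Submodule.span_mul_span,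
    Set.singleton_mul_singleton, Set.singleton_mul_singleton, inv_mul_cancel₀ hx,
    ← Submodule.one_eq_span, one_mul] at h1
  rw [h1, mul_comm (Submodule.span R {x⁻¹ * y}) W, mul_comm x⁻¹ y]

section Overlap

variable {A R0 R1 R01 : Type u} [CommRing A] [CommRing R0] [CommRing R1] [CommRing R01]
  [Algebra A R0] [Algebra A R1] [Algebra A R01] [Algebra R0 R01] [Algebra R1 R01]
  [IsScalarTower A R0 R01] [IsScalarTower A R1 R01]
  {F : Type v} [Field F] [Algebra R0 F] [Algebra R1 F] [Algebra R01 F]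
  [IsScalarTower R0 R01 F] [IsScalarTower R1 R01 F]

/-- The elementwise overlap compatibility (shape of `Hol80.exists_vertical_root_twoChart`) gives the
compatibility of an ideal pair. -/
theorem map_eq_map_of_overlap (c : TwoChart A R0 R1 R01)
    (hinj : Function.Injective (algebraMap R01 F)) (W₀ : Ideal R0) (W₁ : Ideal R1)
    (hov₀ : ∀ w ∈ W₁, ∃ (m : ℕ) (w₀ : R0), w₀ ∈ W₀ ∧
      algebraMap R0 F w₀ = algebraMap R0 F c.t ^ m * algebraMap R1 F w)
    (hov₁ : ∀ w ∈ W₀, ∃ (m : ℕ) (w₁ : R1), w₁ ∈ W₁ ∧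
      algebraMap R1 F w₁ = algebraMap R1 F c.s ^ m * algebraMap R0 F w) :
    W₀.map (algebraMap R0 R01) = W₁.map (algebraMap R1 R01) := by
  have hts := c.ts
  have hst : algebraMap R1 R01 c.s * algebraMap R0 R01 c.t = 1 := by rw [mul_comm]; exact hts
  apply le_antisymm
  · rw [Ideal.map_le_iff_le_comap]
    intro w hw
    obtain ⟨m, w₁, hw₁, he⟩ := hov₁ w hw
    rw [Ideal.mem_comap]
    have he' : algebraMap R1 R01 w₁ = algebraMap R1 R01 c.s ^ m * algebraMap R0 R01 w := by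
      apply hinj
      rw [map_mul, map_pow, ← IsScalarTower.algebraMap_apply, ← IsScalarTower.algebraMap_apply,
        ← IsScalarTower.algebraMap_apply]
      exact he
    have h2 : algebraMap R0 R01 w = algebraMap R0 R01 c.t ^ m * algebraMap R1 R01 w₁ := by
      rw [he', ← mul_assoc, ← mul_pow, hts, one_pow, one_mul]
    rw [h2]
    exact Ideal.mul_mem_left _ _ (Ideal.mem_map_of_mem _ hw₁)
  · rw [Ideal.map_le_iff_le_comap]
    intro w hw
    obtain ⟨m, w₀, hw₀, he⟩ := hov₀ w hw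
    rw [Ideal.mem_comap]
    have he' : algebraMap R0 R01 w₀ = algebraMap R0 R01 c.t ^ m * algebraMap R1 R01 w := by
      apply hinj
      rw [map_mul, map_pow, ← IsScalarTower.algebraMap_apply, ← IsScalarTower.algebraMap_apply,
        ← IsScalarTower.algebraMap_apply]
      exact he
    have h2 : algebraMap R1 R01 w = algebraMap R1 R01 c.s ^ m * algebraMap R0 R01 w₀ := by
      rw [he', ← mul_assoc, ← mul_pow, hst, one_pow, one_mul]
    rw [h2]
    exact Ideal.mul_mem_left _ _ (Ideal.mem_map_of_mem _ hw₀)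

end Overlap

/-! ### The assembly -/

section Asm

variable {W B0 B1 B01 : Type u} [CommRing W] [CommRing B0] [CommRing B1] [CommRing B01]
  [Algebra W B0] [Algebra W B1] [Algebra W B01] [Algebra B0 B01] [Algebra B1 B01]
  [IsScalarTower W B0 B01] [IsScalarTower W B1 B01]
  (c0 : TwoChart W B0 B1 B01)
  (O : Type u) [CommRing O] [IsDomain O] [IsDiscreteValuationRing O] [Algebra W O]
  (L : Type u) [Field L] [Algebra W L] [Algebra O L] [IsScalarTower W O L] [IsFractionRing O L]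
  {F : Type v} [Field F] [Algebra (O ⊗[W] B0) F] [Algebra (O ⊗[W] B1) F] [Algebra (O ⊗[W] B01) F]
  [IsScalarTower (O ⊗[W] B0) (O ⊗[W] B01) F] [IsScalarTower (O ⊗[W] B1) (O ⊗[W] B01) F]
  [IsDomain (O ⊗[W] B0)] [IsDomain (O ⊗[W] B1)] [IsDomain (O ⊗[W] B01)]

/-- **`ρ_ker` (R1b), hub form.**  `M` a line on `X_O` with a nonzero framing `ε` into `F`; vertical
ideals `W₀, W₁` (containing a power of `π`), invertible in `F`, compatible on the overlap, with
`(π ^ n) (frame_j M ε) ^ p = (π ^ a f) W_j ^ p` for `j = 0, 1` (the output of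
`Hol80.exists_vertical_root_twoChart`).  Then the generic fibre of `M` extends to a class of
multidegree `0` on `X_O`. -/
theorem map_mem_J0L_of_vertical_root
    (hinj01 : Function.Injective (algebraMap (O ⊗[W] B01) F))
    {π : O} (hπ0 : π ≠ 0) {ι : Type} (hg : NodalGood (c0.baseChange O) π ι)
    {K : Type u} [Field K] (X : ∀ i, Comp (c0.baseChange O) (hg.P0 i) (hg.P1 i) K)
    {M : QC2 O (O ⊗[W] B0) (O ⊗[W] B1) (O ⊗[W] B01)} (hM : M.IsLine)
    (ε : M.N01 →ₗ[O ⊗[W] B01] F) (hε : ε ≠ 0)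
    (p : ℕ) (hp : p ≠ 0) {f : F} (hf : f ≠ 0) (n a Mexp : ℕ)
    (W₀ : Ideal (O ⊗[W] B0)) (W₁ : Ideal (O ⊗[W] B1))
    (hW₀ : algebraMap O (O ⊗[W] B0) π ^ Mexp ∈ W₀)
    (hW₁ : algebraMap O (O ⊗[W] B1) π ^ Mexp ∈ W₁)
    (hid₀ : Submodule.span (O ⊗[W] B0)
        {algebraMap (O ⊗[W] B0) F (algebraMap O (O ⊗[W] B0) π) ^ n} * frame0 M ε ^ p =
      Submodule.span (O ⊗[W] B0)
        {algebraMap (O ⊗[W] B0) F (algebraMap O (O ⊗[W] B0) π) ^ a * f} *
        IsLocalization.coeSubmodule F W₀ ^ p)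
    (hid₁ : Submodule.span (O ⊗[W] B1)
        {algebraMap (O ⊗[W] B1) F (algebraMap O (O ⊗[W] B1) π) ^ n} * frame1 M ε ^ p =
      Submodule.span (O ⊗[W] B1)
        {algebraMap (O ⊗[W] B1) F (algebraMap O (O ⊗[W] B1) π) ^ a * f} *
        IsLocalization.coeSubmodule F W₁ ^ p)
    (hY₀ : ∃ Y₀ : Submodule (O ⊗[W] B0) F, IsLocalization.coeSubmodule F W₀ * Y₀ = 1)
    (hY₁ : ∃ Y₁ : Submodule (O ⊗[W] B1) F, IsLocalization.coeSubmodule F W₁ * Y₁ = 1)
    (hov₀ : ∀ w ∈ W₁, ∃ (m : ℕ) (w₀ : O ⊗[W] B0), w₀ ∈ W₀ ∧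
      algebraMap (O ⊗[W] B0) F w₀ =
        algebraMap (O ⊗[W] B0) F (c0.baseChange O).t ^ m * algebraMap (O ⊗[W] B1) F w)
    (hov₁ : ∀ w ∈ W₀, ∃ (m : ℕ) (w₁ : O ⊗[W] B1), w₁ ∈ W₁ ∧
      algebraMap (O ⊗[W] B1) F w₁ =
        algebraMap (O ⊗[W] B1) F (c0.baseChange O).s ^ m * algebraMap (O ⊗[W] B0) F w) :
    PicX.map c0 O L (LinePic.mk (c0.baseChange O) M hM) ∈ J0L c0 O L (P00 hg X) := by
  -- injectivity of the chart rings in `F`
  have hinj0 : Function.Injective (algebraMap (O ⊗[W] B0) F) := by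
    have h := Fermat.Agent.Jac.AbelJacobi73.r0_injective (c0.baseChange O)
      (QC2.unit : QC2 O (O ⊗[W] B0) (O ⊗[W] B1) (O ⊗[W] B01)) isLine_unit
    rw [IsScalarTower.algebraMap_eq (O ⊗[W] B0) (O ⊗[W] B01) F]
    exact hinj01.comp h
  have hinj1 : Function.Injective (algebraMap (O ⊗[W] B1) F) := by
    have h := Fermat.Agent.Jac.AbelJacobi73.r1_injective (c0.baseChange O)
      (QC2.unit : QC2 O (O ⊗[W] B0) (O ⊗[W] B1) (O ⊗[W] B01)) isLine_unit
    rw [IsScalarTower.algebraMap_eq (O ⊗[W] B1) (O ⊗[W] B01) F]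
    exact hinj01.comp h
  -- the vertical ideal pair
  let D : IdealPair (O ⊗[W] B0) (O ⊗[W] B1) (O ⊗[W] B01) :=
    ⟨W₀, W₁, map_eq_map_of_overlap (c0.baseChange O) hinj01 W₀ W₁ hov₀ hov₁⟩
  have hD : (ofIdeals (c0.baseChange O) D).IsLine :=
    isLine_ofIdeals (c0.baseChange O) D (invertible_of_coeSubmodule_mul_eq_one hinj0 W₀ hY₀)
      (invertible_of_coeSubmodule_mul_eq_one hinj1 W₁ hY₁)
  -- `π ≠ 0` in `F`
  have hπF0 : algebraMap (O ⊗[W] B0) F (algebraMap O (O ⊗[W] B0) π) ≠ 0 := by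
    intro h0
    have : algebraMap O (O ⊗[W] B0) π = 0 := hinj0 (by rw [h0, map_zero])
    have hreg := hg.reg0 1
    rw [this, zero_mul] at hreg
    exact absurd (hreg rfl) one_ne_zero
  have hπF1 : algebraMap (O ⊗[W] B1) F (algebraMap O (O ⊗[W] B1) π) ≠ 0 := by
    intro h0
    have : algebraMap O (O ⊗[W] B1) π = 0 := hinj1 (by rw [h0, map_zero])
    have hreg := hg.reg1 1
    rw [this, zero_mul] at hreg
    exact absurd (hreg rfl) one_ne_zero
  -- the scalar `g`
  set g : F := algebraMap (O ⊗[W] B0) F (algebraMap O (O ⊗[W] B0) π) ^ a * f *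
    (algebraMap (O ⊗[W] B0) F (algebraMap O (O ⊗[W] B0) π) ^ n)⁻¹ with hg_def
  have hπ01 : algebraMap (O ⊗[W] B0) F (algebraMap O (O ⊗[W] B0) π) =
      algebraMap (O ⊗[W] B1) F (algebraMap O (O ⊗[W] B1) π) := by
    rw [IsScalarTower.algebraMap_apply (O ⊗[W] B0) (O ⊗[W] B01) F,
      IsScalarTower.algebraMap_apply (O ⊗[W] B1) (O ⊗[W] B01) F,
      ← IsScalarTower.algebraMap_apply O (O ⊗[W] B0) (O ⊗[W] B01),
      ← IsScalarTower.algebraMap_apply O (O ⊗[W] B1) (O ⊗[W] B01)]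
  have hg0 : g ≠ 0 :=
    mul_ne_zero (mul_ne_zero (pow_ne_zero a hπF0) hf) (inv_ne_zero (pow_ne_zero n hπF0))
  have e0 : frame0 M ε ^ p = frame0 (ofIdeals (c0.baseChange O) D)
      (tautFraming (F := F) (c0.baseChange O) D) ^ p * Submodule.span (O ⊗[W] B0) {g} := by
    rw [frame0_ofIdeals]
    exact pow_eq_of_span_mul_eq (pow_ne_zero n hπF0) hid₀
  have e1 : frame1 M ε ^ p = frame1 (ofIdeals (c0.baseChange O) D)
      (tautFraming (F := F) (c0.baseChange O) D) ^ p * Submodule.span (O ⊗[W] B1) {g} := by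
    rw [frame1_ofIdeals, hg_def, hπ01]
    exact pow_eq_of_span_mul_eq (pow_ne_zero n hπF1) hid₁
  -- the tautological framing is nonzero
  have hτ : tautFraming (F := F) (c0.baseChange O) D ≠ 0 :=
    tautFraming_ne_zero (c0.baseChange O) D (a := algebraMap O (O ⊗[W] B0) π ^ Mexp) hW₀
      (by rw [map_pow]; exact pow_ne_zero Mexp hπF0)
  have hpow : LinePic.mk (c0.baseChange O) M hM ^ p =
      LinePic.mk (c0.baseChange O) (ofIdeals (c0.baseChange O) D) hD ^ p :=
    mk_pow_eq_mk_pow_of_frames (c0.baseChange O) hinj01 hM hD ε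
      (tautFraming (F := F) (c0.baseChange O) D) hε hτ p hg0 e0 e1
  have hvert : PicX.map c0 O L
      (LinePic.mk (c0.baseChange O) (ofIdeals (c0.baseChange O) D) hD) = 1 :=
    map_mk_ofIdeals_eq_one_of_vertical c0 O L D hD (a := π ^ Mexp) (pow_ne_zero Mexp hπ0)
      (by rw [map_pow]; exact hW₀) (by rw [map_pow]; exact hW₁)
  exact map_mem_J0L_of_pow_eq c0 O L hg X _ _ hvert hp hpow

end Asm

end Fermat.Agent.T1B.R1Asm2
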