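/-
T1B (S44), cell NODE/PHI-R1, brick R1-ASM (helper2): **GENERIC `p`-TORSION ⟹ VERTICAL FRAMES**: the
inputs `hIJ`, `h1`, `h2` of helper80's `Hol80.exists_const_residue` / `exists_vertical_root_twoChart`
for the frames of a line `M` on `X_O` whose generic fibre is `p`-torsion.

* `smul_comm_of_invertible` : `φ x • y = φ y • x` in an invertible module;
* `exists_frame_inv` : the frames of a line with a nonzero framing are invertible submodules of `F`
  (`frame_j M ε * J_j = 1`), via `M^∨ ⊗ M ≅ O`;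
* `frames_of_pairing` : sections `σ ∈ H⁰(T)`, `τ ∈ H⁰(T^∨)` with constant pairing `d` give
  `f := η(σ) ∈ frame_j T η` and `d · frame_j T η ⊆ R_j f`;
* `exists_vertical_frames` : **(hub)** if `(PicX.map c0 O L [M]) ^ p = 1` then there are `f ≠ 0` and `n`
  with `π ^ n f ∈ (frame_j M ε) ^ p` and `π ^ n (frame_j M ε) ^ p ⊆ R_j f` for `j = 0, 1`.
-/
import Mathlib
import Fermat.Agent.T1B.R1Asm2.FrameIso
import Fermat.Agent.T1B.RedN3.ExtInj00

set_option autoImplicit false
set_option linter.unusedSectionVars false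
set_option linter.style.haveILetI false

universe u v

open TensorProduct

namespace Fermat.Agent.T1B.R1Asm2

open Fermat.Agent.Jac Fermat.Agent.Jac.LineOps39 Fermat.Agent.Jac.JGroup85Pic
open Fermat.Agent.Jac.JSmooth85Alg Fermat.Agent.Jac.BaseChange75
open Fermat.Agent.T1.RedIface75 Fermat.Agent.T1.Red68
open Fermat.Agent.T1B.RedN3
open Fermat.Agent.T1B.Hol31.Frame
open scoped Fermat.Agent.Jac.BaseChange75

/-- In an invertible module, `φ x • y = φ y • x`. -/
theorem smul_comm_of_invertible {R : Type*} {N : Type*} [CommRing R] [AddCommGroup N]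
    [Module R N] [Module.Invertible R N] (φ : Module.Dual R N) (x y : N) :
    φ x • y = φ y • x := by
  let B : N →ₗ[R] N →ₗ[R] N := LinearMap.mk₂ R (fun a b => φ a • b)
    (fun a a' b => by simp only [map_add, add_smul])
    (fun r a b => by simp only [map_smul, smul_eq_mul, mul_smul])
    (fun a b b' => by simp only [smul_add])
    (fun r a b => by rw [smul_comm])
  have h1 : TensorProduct.lift B (x ⊗ₜ[R] y) = TensorProduct.lift B (y ⊗ₜ[R] x) := by
    rw [Module.Invertible.tmul_comm (m₁ := x) (m₂ := y)]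
  rw [TensorProduct.lift.tmul, TensorProduct.lift.tmul] at h1
  exact h1

variable {A R0 R1 R01 : Type u} [CommRing A] [CommRing R0] [CommRing R1] [CommRing R01]
  [Algebra A R0] [Algebra A R1] [Algebra A R01] [Algebra R0 R01] [Algebra R1 R01]
  [IsScalarTower A R0 R01] [IsScalarTower A R1 R01]
  {F : Type v} [Field F] [Algebra R0 F] [Algebra R1 F] [Algebra R01 F]
  [IsScalarTower R0 R01 F] [IsScalarTower R1 R01 F]

/-! ### Invertibility of the frames -/

/-- **The frames of a line are invertible submodules of `F`.** -/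
theorem exists_frame_inv (c : TwoChart A R0 R1 R01)
    (hinj0 : Function.Injective (algebraMap R0 F)) {M : QC2 A R0 R1 R01} (hM : M.IsLine)
    (ε : M.N01 →ₗ[R01] F) (hε : ε ≠ 0) :
    (∃ J0 : Submodule R0 F, frame0 M ε * J0 = 1) ∧
      (∃ J1 : Submodule R1 F, frame1 M ε * J1 = 1) := by
  have hM' : (dual c M (isVB_of_isLine hM)).IsLine := isLine_dual c hM
  obtain ⟨ε', hε'⟩ := exists_framing_ne_zero (F := F) hM' hinj0
  let ψ : QC2.Iso (QC2.unit : QC2 A R0 R1 R01) (tensor (dual c M (isVB_of_isLine hM)) M) :=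
    isoSymm (dualTensorIso c M hM)
  set θ : (tensor (dual c M (isVB_of_isLine hM)) M).N01 →ₗ[R01] F := tensorFraming ε' ε with hθ
  set θ' : (QC2.unit : QC2 A R0 R1 R01).N01 →ₗ[R01] F := θ.comp ψ.e01.toLinearMap with hθ'
  have hunit := framing_unit_eq θ'
  set g : F := (θ' : R01 →ₗ[R01] F) (1 : R01) with hg_def
  -- `g ≠ 0`
  have hg : g ≠ 0 := by
    obtain ⟨x, hx⟩ : ∃ x, ε x ≠ 0 := by
      by_contra hcon
      push Not at hcon
      exact hε (LinearMap.ext hcon)
    obtain ⟨x', hx'⟩ : ∃ x', ε' x' ≠ 0 := by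
      by_contra hcon
      push Not at hcon
      exact hε' (LinearMap.ext hcon)
    intro hg0
    have h0 : θ' = 0 := by
      rw [hunit, hg0]
      apply LinearMap.ext_ring
      change (unitFraming (A := A) (R0 := R0) (R1 := R1) (0 : F) : R01 →ₗ[R01] F) (1 : R01) = 0
      rw [unitFraming_apply, smul_zero]
    have h1 : θ' (ψ.e01.symm (x' ⊗ₜ[R01] x)) = ε' x' * ε x := by
      rw [hθ']
      change θ (ψ.e01 (ψ.e01.symm (x' ⊗ₜ[R01] x))) = _
      rw [LinearEquiv.apply_symm_apply, hθ]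
      exact tensorFraming_tmul ε' ε x' x
    rw [h0] at h1
    exact mul_ne_zero hx' hx h1.symm
  have h0 : frame0 (dual c M (isVB_of_isLine hM)) ε' * frame0 M ε = Submodule.span R0 {g} := by
    have h := frame0_unit (A := A) (R0 := R0) (R1 := R1) (R01 := R01) g
    rw [← hunit] at h
    rw [← frame0_tensor, ← frame0_iso ψ θ]
    exact h
  have h1 : frame1 (dual c M (isVB_of_isLine hM)) ε' * frame1 M ε = Submodule.span R1 {g} := by
    have h := frame1_unit (A := A) (R0 := R0) (R1 := R1) (R01 := R01) g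
    rw [← hunit] at h
    rw [← frame1_tensor, ← frame1_iso ψ θ]
    exact h
  refine ⟨⟨frame0 (dual c M (isVB_of_isLine hM)) ε' * Submodule.span R0 {g⁻¹}, ?_⟩,
    ⟨frame1 (dual c M (isVB_of_isLine hM)) ε' * Submodule.span R1 {g⁻¹}, ?_⟩⟩
  · rw [← mul_assoc, mul_comm (frame0 M ε), h0, Submodule.span_mul_span,
      Set.singleton_mul_singleton, mul_inv_cancel₀ hg, Submodule.one_eq_span]
  · rw [← mul_assoc, mul_comm (frame1 M ε), h1, Submodule.span_mul_span,
      Set.singleton_mul_singleton, mul_inv_cancel₀ hg, Submodule.one_eq_span]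

/-! ### Frames from a pairing -/

/-- Sections `σ ∈ H⁰(T)`, `τ ∈ H⁰(T^∨)` with constant pairing `d` give `f := η(σ)` in both frames,
with `d · frame_j T η ⊆ R_j f`. -/
theorem frames_of_pairing (c : TwoChart A R0 R1 R01) {T : QC2 A R0 R1 R01} (hT : T.IsLine)
    (η : T.N01 →ₗ[R01] F) (σ : T.H0) (τ : (dual c T (isVB_of_isLine hT)).H0) (d : A)
    (hp0 : pair0 c hT σ τ = algebraMap A R0 d)
    (hinj1 : Function.Injective (algebraMap R1 R01)) :
    η (T.r0 σ.1.1) ∈ frame0 T η ∧ η (T.r0 σ.1.1) ∈ frame1 T η ∧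
      (∀ z ∈ frame0 T η, ∃ r : R0,
        algebraMap R0 F (algebraMap A R0 d) * z = r • η (T.r0 σ.1.1)) ∧
      (∀ z ∈ frame1 T η, ∃ r : R1,
        algebraMap R1 F (algebraMap A R1 d) * z = r • η (T.r0 σ.1.1)) := by
  have hσ := H0_compat T σ
  have hp1 : pair1 c hT σ τ = algebraMap A R1 d := by
    apply hinj1
    rw [← pair_compat c hT σ τ, hp0, ← IsScalarTower.algebraMap_apply,
      ← IsScalarTower.algebraMap_apply]
  refine ⟨mem_frame0.mpr ⟨σ.1.1, rfl⟩, mem_frame1.mpr ⟨σ.1.2, by rw [hσ]⟩, ?_, ?_⟩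
  · intro z hz
    obtain ⟨y, rfl⟩ := mem_frame0.mp hz
    have := hT.inv0
    refine ⟨(show Module.Dual R0 T.N0 from τ.1.1) y, ?_⟩
    have key := smul_comm_of_invertible (show Module.Dual R0 T.N0 from τ.1.1) σ.1.1 y
    have hp0' : (show Module.Dual R0 T.N0 from τ.1.1) σ.1.1 = algebraMap A R0 d := hp0
    rw [hp0'] at key
    have h2 := congrArg (fun w => η (T.r0 w)) key
    simp only [map_smul] at h2
    rw [← algebraMap_smul R01 (algebraMap A R0 d) (T.r0 y),
      ← algebraMap_smul R01 ((show Module.Dual R0 T.N0 from τ.1.1) y) (T.r0 σ.1.1), map_smul,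
      map_smul, Algebra.smul_def, ← IsScalarTower.algebraMap_apply, algebraMap_smul] at h2
    exact h2
  · intro z hz
    obtain ⟨y, rfl⟩ := mem_frame1.mp hz
    have := hT.inv1
    refine ⟨(show Module.Dual R1 T.N1 from τ.1.2) y, ?_⟩
    have key := smul_comm_of_invertible (show Module.Dual R1 T.N1 from τ.1.2) σ.1.2 y
    have hp1' : (show Module.Dual R1 T.N1 from τ.1.2) σ.1.2 = algebraMap A R1 d := hp1
    rw [hp1'] at key
    have h2 := congrArg (fun w => η (T.r1 w)) key
    simp only [map_smul] at h2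
    rw [← algebraMap_smul R01 (algebraMap A R1 d) (T.r1 y),
      ← algebraMap_smul R01 ((show Module.Dual R1 T.N1 from τ.1.2) y) (T.r1 σ.1.2), map_smul,
      map_smul, Algebra.smul_def, ← IsScalarTower.algebraMap_apply, algebraMap_smul, ← hσ] at h2
    exact h2

/-! ### The hub statement -/

section Hub

variable {W B0 B1 B01 : Type u} [CommRing W] [CommRing B0] [CommRing B1] [CommRing B01]
  [Algebra W B0] [Algebra W B1] [Algebra W B01] [Algebra B0 B01] [Algebra B1 B01]
  [IsScalarTower W B0 B01] [IsScalarTower W B1 B01]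
  (c0 : TwoChart W B0 B1 B01)
  (O : Type u) [CommRing O] [IsDomain O] [IsDiscreteValuationRing O] [Algebra W O]
  (L : Type u) [Field L] [Algebra W L] [Algebra O L] [IsScalarTower W O L] [IsFractionRing O L]
  {F' : Type v} [Field F'] [Algebra (O ⊗[W] B0) F'] [Algebra (O ⊗[W] B1) F']
  [Algebra (O ⊗[W] B01) F']
  [IsScalarTower (O ⊗[W] B0) (O ⊗[W] B01) F'] [IsScalarTower (O ⊗[W] B1) (O ⊗[W] B01) F']
  [IsDomain (O ⊗[W] B0)] [IsDomain (O ⊗[W] B1)] [IsDomain (O ⊗[W] B01)]

/-- Scaling a generator relation by a unit of `O`: from `(u π ^ n) z = r • f` to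
`π ^ n z = r' • f`. -/
theorem exists_smul_of_unit_mul {R : Type*} [CommRing R] [Algebra O R] [Algebra R F']
    {π : O} (u : Oˣ) (n : ℕ) {z f : F'} {r : R}
    (h : algebraMap R F' (algebraMap O R ((u : O) * π ^ n)) * z = r • f) :
    ∃ r' : R, algebraMap R F' (algebraMap O R π) ^ n * z = r' • f := by
  refine ⟨algebraMap O R ((u⁻¹ : Oˣ) : O) * r, ?_⟩
  rw [mul_smul, ← h, Algebra.smul_def, ← mul_assoc, ← map_mul, ← map_mul, ← mul_assoc,
    Units.inv_mul, one_mul, map_pow, map_pow]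

/-- **Generic `p`-torsion ⟹ vertical frames (hub form).**  If the generic fibre of the line `M` on
`X_O` is killed by `p`, then the `p`-th powers of its frames are `f · (vertical)` on both charts, for
ONE `f ≠ 0` and ONE `n`: `π ^ n f ∈ (frame_j M ε) ^ p` and `π ^ n (frame_j M ε) ^ p ⊆ R_j f`. -/
theorem exists_vertical_frames
    (hinj01 : Function.Injective (algebraMap (O ⊗[W] B01) F'))
    {π : O} (hπ : Irreducible π) {ι : Type} [Nonempty ι]
    (hg : NodalGood (c0.baseChange O) π ι)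
    {M : QC2 O (O ⊗[W] B0) (O ⊗[W] B1) (O ⊗[W] B01)} (hM : M.IsLine)
    (ε : M.N01 →ₗ[O ⊗[W] B01] F') (hε : ε ≠ 0) (p : ℕ)
    (htors : (PicX.map c0 O L (LinePic.mk (c0.baseChange O) M hM)) ^ p = 1) :
    ∃ (f : F') (n : ℕ), f ≠ 0 ∧
      algebraMap (O ⊗[W] B0) F' (algebraMap O (O ⊗[W] B0) π) ^ n * f ∈ frame0 M ε ^ p ∧
      (∀ z ∈ frame0 M ε ^ p, ∃ r : O ⊗[W] B0,
        algebraMap (O ⊗[W] B0) F' (algebraMap O (O ⊗[W] B0) π) ^ n * z = r • f) ∧
      algebraMap (O ⊗[W] B1) F' (algebraMap O (O ⊗[W] B1) π) ^ n * f ∈ frame1 M ε ^ p ∧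
      (∀ z ∈ frame1 M ε ^ p, ∃ r : O ⊗[W] B1,
        algebraMap (O ⊗[W] B1) F' (algebraMap O (O ⊗[W] B1) π) ^ n * z = r • f) := by
  set c := c0.baseChange O with hc
  have hT : (tpow M p).IsLine := isLine_tpow hM p
  set η := powFraming ε p with hη
  have hη0 : η ≠ 0 := powFraming_ne_zero ε hε p
  have hηinj : Function.Injective η := framing_injective hT hinj01 η hη0
  -- the generic fibre of `T = M^{⊗p}` is trivial
  have htors' : LinePic.bc (square_comm W O L B0 B01) (square_comm W O L B1 B01)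
      (c0.baseChange O) (c0.baseChange L) (LinePic.mk (c0.baseChange O) (tpow M p) hT) =
      LinePic.mk (c0.baseChange L) QC2.unit isLine_unit := by
    have h1 : PicX.map c0 O L (LinePic.mk (c0.baseChange O) M hM ^ p) = 1 := by
      rw [map_pow]; exact htors
    rw [mk_pow (c0.baseChange O) hM p] at h1
    exact h1
  obtain ⟨h⟩ := LinePic.nonempty_liftData_of_bc_eq (square_comm W O L B0 B01)
    (square_comm W O L B1 B01) (c0.baseChange O) (c0.baseChange L) hT isLine_unit htors'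
  obtain ⟨σ, a, ha, hσa⟩ := exists_section' h (square_comm W O L B0 B01)
    (square_comm W O L B1 B01) (isLocalization_tensor O L B0) (isLocalization_tensor O L B1)
    (isLocalization_tensor O L B01) hπ hg hT
  obtain ⟨τ, b, hb, hτb⟩ := exists_cosection' h (square_comm W O L B0 B01)
    (square_comm W O L B1 B01) (isLocalization_tensor O L B0) (isLocalization_tensor O L B1)
    (isLocalization_tensor O L B01) hπ hg hT
  have hl0 := isLocalization_tensor (W := W) O L B0
  have hinjL : Function.Injective (algebraMap (O ⊗[W] B0) (L ⊗[W] B0)) :=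
    IsLocalization.injective (L ⊗[W] B0) (algebraMapSubmonoid_le_nonZeroDivisors hπ hg.reg0)
  have hp0 : pair0 c hT σ τ = algebraMap O (O ⊗[W] B0) (b * a) := by
    apply hinjL
    unfold pair0
    rw [hτb, hσa, ← map_mul, ← map_mul]
  have hd : b * a ≠ 0 := mul_ne_zero hb ha
  obtain ⟨n, u, hu⟩ := IsDiscreteValuationRing.eq_unit_mul_pow_irreducible hd hπ
  have hinj1 : Function.Injective (algebraMap (O ⊗[W] B1) (O ⊗[W] B01)) := by
    have h1 := Fermat.Agent.Jac.AbelJacobi73.r1_injective c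
      (QC2.unit : QC2 O (O ⊗[W] B0) (O ⊗[W] B1) (O ⊗[W] B01)) isLine_unit
    exact h1
  obtain ⟨hf0, hf1, hz0, hz1⟩ := frames_of_pairing (F := F') c hT η σ τ (b * a) hp0 hinj1
  rw [hη, frame0_tpow] at hf0 hz0
  rw [hη, frame1_tpow] at hf1 hz1
  refine ⟨powFraming ε p ((tpow M p).r0 σ.1.1), n, ?_, ?_, ?_, ?_, ?_⟩
  · -- `f ≠ 0`
    intro h0
    have h1 : (tpow M p).r0 σ.1.1 = 0 := hηinj (by rw [hη, h0, map_zero])
    have h2 : σ.1.1 = 0 :=
      Fermat.Agent.Jac.AbelJacobi73.r0_injective c (tpow M p) hT (by rw [h1, map_zero])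
    have h3 : pair0 c hT σ τ = 0 := by
      unfold pair0
      rw [h2, map_zero]
    rw [hp0] at h3
    exact hd (hg.algebraMap_O_R0_eq_zero hπ h3)
  · rw [← map_pow, ← Algebra.smul_def]
    exact Submodule.smul_mem _ _ hf0
  · intro z hz
    obtain ⟨r, hr⟩ := hz0 z hz
    rw [hu] at hr
    exact exists_smul_of_unit_mul O u n hr
  · rw [← map_pow, ← Algebra.smul_def]
    exact Submodule.smul_mem _ _ hf1
  · intro z hz
    obtain ⟨r, hr⟩ := hz1 z hz
    rw [hu] at hr
    exact exists_smul_of_unit_mul O u n hr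

end Hub

end Fermat.Agent.T1B.R1Asm2
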