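/-
T1B (S44), cell NODE/PHI-R1, brick R1-ASM (helper2): the OVERLAP INPUTS of helper80's
`Hol80.exists_vertical_root_twoChart` for a two-chart ring `c : TwoChart A R0 R1 R01` inside a field `F`
and the frames `frame0 M ε`, `frame1 M ε` of a two-chart module.

* `ts_in_field`   : `t s = 1` in `F`;
* `overlap_elt₀/₁`: every element of `R1` (`R0`) becomes an element of `R0` (`R1`) after multiplication
  by a power of `t` (`s`)   [`hov₀`, `hov₁`];
* `overlap_frame₀/₁` : every element of `frame1 M ε` (`frame0 M ε`) lands in `frame0 M ε`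
  (`frame1 M ε`) after multiplication by a power of `t` (`s`)   [`hfr₀`, `hfr₁`].
-/
import Mathlib
import Fermat.Agent.T1B.Hol31.Frame
import Fermat.Agent.Jac.LineOps39.Sub

set_option autoImplicit false
set_option linter.unusedSectionVars false

universe u v

open TensorProduct

namespace Fermat.Agent.T1B.R1Asm2

open Fermat.Agent.Jac Fermat.Agent.Jac.LineOps39
open Fermat.Agent.T1B.Hol31.Frame

variable {A R0 R1 R01 : Type u} [CommRing A] [CommRing R0] [CommRing R1] [CommRing R01]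
  [Algebra A R0] [Algebra A R1] [Algebra A R01] [Algebra R0 R01] [Algebra R1 R01]
  [IsScalarTower A R0 R01] [IsScalarTower A R1 R01]
  {F : Type v} [Field F] [Algebra R0 F] [Algebra R1 F] [Algebra R01 F]
  [IsScalarTower R0 R01 F] [IsScalarTower R1 R01 F]

/-- `t s = 1` in `F`. -/
theorem ts_in_field (c : TwoChart A R0 R1 R01) :
    algebraMap R0 F c.t * algebraMap R1 F c.s = 1 := by
  rw [IsScalarTower.algebraMap_apply R0 R01 F, IsScalarTower.algebraMap_apply R1 R01 F,
    ← map_mul, c.ts, map_one]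

/-- `hov₀`: an element of `R1` times a power of `t` lies in `R0`. -/
theorem overlap_elt₀ (c : TwoChart A R0 R1 R01) (x : R1) :
    ∃ (k : ℕ) (b : R0), algebraMap R0 F b = algebraMap R0 F c.t ^ k * algebraMap R1 F x := by
  have := c.away0
  obtain ⟨⟨b, ⟨_, k, rfl⟩⟩, hb⟩ :=
    IsLocalization.surj (Submonoid.powers c.t) (algebraMap R1 R01 x)
  refine ⟨k, b, ?_⟩
  have h := congrArg (algebraMap R01 F) hb
  rw [map_mul, ← IsScalarTower.algebraMap_apply, ← IsScalarTower.algebraMap_apply,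
    ← IsScalarTower.algebraMap_apply, map_pow] at h
  rw [← h, mul_comm]

/-- `hov₁`: an element of `R0` times a power of `s` lies in `R1`. -/
theorem overlap_elt₁ (c : TwoChart A R0 R1 R01) (x : R0) :
    ∃ (k : ℕ) (b : R1), algebraMap R1 F b = algebraMap R1 F c.s ^ k * algebraMap R0 F x := by
  have := c.away1
  obtain ⟨⟨b, ⟨_, k, rfl⟩⟩, hb⟩ :=
    IsLocalization.surj (Submonoid.powers c.s) (algebraMap R0 R01 x)
  refine ⟨k, b, ?_⟩
  have h := congrArg (algebraMap R01 F) hb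
  rw [map_mul, ← IsScalarTower.algebraMap_apply, ← IsScalarTower.algebraMap_apply,
    ← IsScalarTower.algebraMap_apply, map_pow] at h
  rw [← h, mul_comm]

/-- `hfr₀`: an element of `frame1 M ε` times a power of `t` lies in `frame0 M ε`. -/
theorem overlap_frame₀ (c : TwoChart A R0 R1 R01) (M : QC2 A R0 R1 R01)
    (ε : M.N01 →ₗ[R01] F) {z : F} (hz : z ∈ frame1 M ε) :
    ∃ k : ℕ, algebraMap R0 F c.t ^ k * z ∈ frame0 M ε := by
  obtain ⟨x, rfl⟩ := mem_frame1.mp hz
  have := isLocalizedModule_r0 c M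
  obtain ⟨⟨n0, ⟨_, k, rfl⟩⟩, hn⟩ := IsLocalizedModule.surj (Submonoid.powers c.t) M.r0 (M.r1 x)
  refine ⟨k, mem_frame0.mpr ⟨n0, ?_⟩⟩
  have h1 : (c.t ^ k) • M.r1 x = M.r0 n0 := hn
  rw [← h1, ← algebraMap_smul R01 (c.t ^ k) (M.r1 x), map_smul, Algebra.smul_def,
    ← IsScalarTower.algebraMap_apply, map_pow]

/-- `hfr₁`: an element of `frame0 M ε` times a power of `s` lies in `frame1 M ε`. -/
theorem overlap_frame₁ (c : TwoChart A R0 R1 R01) (M : QC2 A R0 R1 R01)
    (ε : M.N01 →ₗ[R01] F) {z : F} (hz : z ∈ frame0 M ε) :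
    ∃ k : ℕ, algebraMap R1 F c.s ^ k * z ∈ frame1 M ε := by
  obtain ⟨x, rfl⟩ := mem_frame0.mp hz
  have := isLocalizedModule_r1 c M
  obtain ⟨⟨n1, ⟨_, k, rfl⟩⟩, hn⟩ := IsLocalizedModule.surj (Submonoid.powers c.s) M.r1 (M.r0 x)
  refine ⟨k, mem_frame1.mpr ⟨n1, ?_⟩⟩
  have h1 : (c.s ^ k) • M.r0 x = M.r1 n1 := hn
  rw [← h1, ← algebraMap_smul R01 (c.s ^ k) (M.r0 x), map_smul, Algebra.smul_def,
    ← IsScalarTower.algebraMap_apply, map_pow]

end Fermat.Agent.T1B.R1Asm2
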