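/-
T1B (S44), cell NODE/PHI-R1, brick R1-ASM (helper2): **`ρ_ker` AT THE HUB, BUNDLED FORM.**

`rho_ker_hub_bundled` : the same as `R1Asm2.rho_ker_hub`, with the chart-level model facts bundled in
helper80's `Hol80.NodalChartHyp` (one hypothesis per chart) and ONE two-branch maximal ideal `𝔫₀` of
chart `0` carrying the node place `vE e₀'`.

  * `y : PicX c0 O` with `(PicX.map c0 O L y) ^ p = 1`;
  * `hN₀ : NodalChartHyp (π in O ⊗ B0) O₁ O₂ K`, `hN₁ : NodalChartHyp (π in O ⊗ B1) O₁ O₂ K`;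
  * `HP : NodePlaceW ..` at `𝔫₀`, `HR : RhoInputs V₂ res₂ vE C₂` (TOP level), `hπC`;
  * `hlam` : the dictionary (top-level `lam (ψ f) e₀' = 0` for every `(M, ε, f, n)` as in the header
    of `Final.lean`);
  * conclusion `PicX.map c0 O L y ∈ J0L c0 O L (P00 hg X)`.
-/
import Mathlib
import Fermat.Agent.T1B.R1Asm2.Asm
import Fermat.Agent.T1B.R1Asm2.Overlap
import Fermat.Agent.T1B.R1Asm2.GenericTorsion
import Fermat.Agent.T1B.Hol80.NodalChartHyp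

set_option autoImplicit false
set_option linter.unusedSectionVars false
set_option linter.style.haveILetI false

universe u v

open TensorProduct

namespace Fermat.Agent.T1B.R1Asm2

open Fermat.Agent.Jac Fermat.Agent.Jac.LineOps39 Fermat.Agent.Jac.JGroup85Pic
open Fermat.Agent.Jac.JSmooth85Alg Fermat.Agent.Jac.BaseChange75
open Fermat.Agent.T1.RedIface75 Fermat.Agent.T1.Red68
open Fermat.Agent.T1B.RedN3 Fermat.Agent.T1B.Bal60 Fermat.Agent.T1B.Desc1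
open Fermat.Agent.T1B.Hol31.Frame
open AlgebraicCurve Fermat.Agent.T1.Peu37.NodeClassGroup Fermat.Agent.T1B.NodeNF37.Local
  Fermat.Agent.T1B.NodeNF37.UnifOrd Fermat.Agent.T1B.Hol31.Local Fermat.Agent.T1B.Brandt36
  Fermat.Agent.T1B.Hol80
open scoped Fermat.Agent.Jac.BaseChange75

section FinalBundled

variable {W B0 B1 B01 : Type u} [CommRing W] [CommRing B0] [CommRing B1] [CommRing B01]
  [Algebra W B0] [Algebra W B1] [Algebra W B01] [Algebra B0 B01] [Algebra B1 B01]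
  [IsScalarTower W B0 B01] [IsScalarTower W B1 B01]
  (c0 : TwoChart W B0 B1 B01)
  (O : Type u) [CommRing O] [IsDomain O] [IsDiscreteValuationRing O] [Algebra W O]
  (L : Type u) [Field L] [Algebra W L] [Algebra O L] [IsScalarTower W O L] [IsFractionRing O L]
  {F : Type v} [Field F] [Algebra (O ⊗[W] B0) F] [Algebra (O ⊗[W] B1) F] [Algebra (O ⊗[W] B01) F]
  [IsScalarTower (O ⊗[W] B0) (O ⊗[W] B01) F] [IsScalarTower (O ⊗[W] B1) (O ⊗[W] B01) F]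
  [IsDomain (O ⊗[W] B0)] [IsDomain (O ⊗[W] B1)] [IsDomain (O ⊗[W] B01)]
  [IsNoetherianRing (O ⊗[W] B0)] [IsNoetherianRing (O ⊗[W] B1)]
  {F₂ : Type*} [Field F₂] {K₂ : Type*} [Field K₂] [Algebra K₂ F₂]
  {κ k : Type*} [Field κ] [Field k] [Algebra κ k]

/-- **`ρ_ker` at the hub, line form, bundled chart hypotheses.** -/
theorem rho_ker_hub_line_bundled
    (hinj01 : Function.Injective (algebraMap (O ⊗[W] B01) F))
    {π : O} (hπ : Irreducible π) {ι : Type} [Nonempty ι]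
    (hg : NodalGood (c0.baseChange O) π ι)
    {K' : Type u} [Field K'] (X : ∀ i, Comp (c0.baseChange O) (hg.P0 i) (hg.P1 i) K')
    (p : ℕ) [NeZero p]
    -- model facts
    {O₁ O₂ : ValuationSubring F} {K : ℕ}
    (hN₀ : NodalChartHyp (algebraMap O (O ⊗[W] B0) π) O₁ O₂ K)
    (hN₁ : NodalChartHyp (algebraMap O (O ⊗[W] B1) π) O₁ O₂ K)
    -- the top level
    (ψ : F →+* F₂) (V₂ : ValuationSubring F₂) (hO : ∀ z ∈ O₁, ψ z ∈ V₂)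
    (res₂ : ↥V₂ →+* k)
    (hres : ∀ z : ↥O₁, ¬ IsUnit z → (res₂.comp (valHom ψ O₁ V₂ hO)) z = 0)
    {ιE : Type*} (vE : ιE → Place κ k) (e₀' : ιE)
    (𝔫₀ : Ideal (O ⊗[W] B0)) [h𝔫₀ : 𝔫₀.IsMaximal]
    (hoff₁ : ¬ Off (algebraMap O (O ⊗[W] B0) π) O₁ 𝔫₀)
    (hoff₂ : ¬ Off (algebraMap O (O ⊗[W] B0) π) O₂ 𝔫₀)
    (H₁ : BranchHyp (algebraMap (O ⊗[W] B0) F) 𝔫₀ O₁ (algebraMap O (O ⊗[W] B0) π))
    (HP : NodePlaceW (PP (algebraMap (O ⊗[W] B0) F) hN₀.chart.inj 𝔫₀ H₁)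
      ((res₂.comp (valHom ψ O₁ V₂ hO)).comp
        (toO O₁ (iota (algebraMap (O ⊗[W] B0) F) hN₀.chart.inj 𝔫₀)
          (iota_mem (algebraMap (O ⊗[W] B0) F) hN₀.chart.inj 𝔫₀ H₁))) (vE e₀'))
    {C₂ : Subfield F₂} (HR : RhoInputs (K₀ := K₂) V₂ res₂ vE C₂)
    (hπC : ψ (algebraMap (O ⊗[W] B0) F (algebraMap O (O ⊗[W] B0) π)) ∈ C₂)
    -- the line
    {M : QC2 O (O ⊗[W] B0) (O ⊗[W] B1) (O ⊗[W] B01)} (hM : M.IsLine)
    (ε : M.N01 →ₗ[O ⊗[W] B01] F) (hε : ε ≠ 0)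
    (htors : (PicX.map c0 O L (LinePic.mk (c0.baseChange O) M hM)) ^ p = 1)
    -- the dictionary
    (hlam : ∀ (f : F) (n : ℕ), f ≠ 0 →
      algebraMap (O ⊗[W] B0) F (algebraMap O (O ⊗[W] B0) π) ^ n * f ∈ frame0 M ε ^ p →
      (∀ z ∈ frame0 M ε ^ p, ∃ r : O ⊗[W] B0,
        algebraMap (O ⊗[W] B0) F (algebraMap O (O ⊗[W] B0) π) ^ n * z = r • f) →
      algebraMap (O ⊗[W] B1) F (algebraMap O (O ⊗[W] B1) π) ^ n * f ∈ frame1 M ε ^ p →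
      (∀ z ∈ frame1 M ε ^ p, ∃ r : O ⊗[W] B1,
        algebraMap (O ⊗[W] B1) F (algebraMap O (O ⊗[W] B1) π) ^ n * z = r • f) →
      lam V₂ res₂ vE p C₂ (ψ f) e₀' = 0) :
    PicX.map c0 O L (LinePic.mk (c0.baseChange O) M hM) ∈ J0L c0 O L (P00 hg X) := by
  obtain ⟨f, n, hf, h1₀, h2₀, h1₁, h2₁⟩ :=
    exists_vertical_frames c0 O L hinj01 hπ hg hM ε hε p htors
  obtain ⟨⟨J₀, hIJ₀⟩, ⟨J₁, hIJ₁⟩⟩ := exists_frame_inv (c0.baseChange O) hN₀.chart.inj hM ε hε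
  have h0 := hlam f n hf h1₀ h2₀ h1₁ h2₁
  have hπ01 : algebraMap (O ⊗[W] B0) F (algebraMap O (O ⊗[W] B0) π) =
      algebraMap (O ⊗[W] B1) F (algebraMap O (O ⊗[W] B1) π) := by
    rw [IsScalarTower.algebraMap_apply (O ⊗[W] B0) (O ⊗[W] B01) F,
      IsScalarTower.algebraMap_apply (O ⊗[W] B1) (O ⊗[W] B01) F,
      ← IsScalarTower.algebraMap_apply O (O ⊗[W] B0) (O ⊗[W] B01),
      ← IsScalarTower.algebraMap_apply O (O ⊗[W] B1) (O ⊗[W] B01)]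
  obtain ⟨W₀, W₁, a, Mexp, hW₀, hW₁, hid₀, hid₁, hY₀, hY₁, hov₀, hov₁⟩ :=
    exists_vertical_root_twoChart_bundled hN₀ hN₁ ψ V₂ hO res₂ hres vE e₀' 𝔫₀ hoff₁ hoff₂ H₁ HP
      hIJ₀ p hf n h1₀ h2₀ HR hπC h0 hIJ₁ h1₁ h2₁ hπ01
      (c0.baseChange O).t (c0.baseChange O).s (ts_in_field (c0.baseChange O))
      (overlap_elt₀ (c0.baseChange O)) (overlap_elt₁ (c0.baseChange O))
      (fun z hz => overlap_frame₀ (c0.baseChange O) M ε hz)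
      (fun z hz => overlap_frame₁ (c0.baseChange O) M ε hz)
  exact map_mem_J0L_of_vertical_root c0 O L hinj01 hπ.ne_zero hg X hM ε hε p (NeZero.ne p) hf n a
    Mexp W₀ W₁ hW₀ hW₁ hid₀ hid₁ hY₀ hY₁ hov₀ hov₁

/-- **`ρ_ker` at the hub, class form, bundled chart hypotheses.** -/
theorem rho_ker_hub_bundled
    (hinj01 : Function.Injective (algebraMap (O ⊗[W] B01) F))
    {π : O} (hπ : Irreducible π) {ι : Type} [Nonempty ι]
    (hg : NodalGood (c0.baseChange O) π ι)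
    {K' : Type u} [Field K'] (X : ∀ i, Comp (c0.baseChange O) (hg.P0 i) (hg.P1 i) K')
    (p : ℕ) [NeZero p]
    -- model facts
    {O₁ O₂ : ValuationSubring F} {K : ℕ}
    (hN₀ : NodalChartHyp (algebraMap O (O ⊗[W] B0) π) O₁ O₂ K)
    (hN₁ : NodalChartHyp (algebraMap O (O ⊗[W] B1) π) O₁ O₂ K)
    -- the top level
    (ψ : F →+* F₂) (V₂ : ValuationSubring F₂) (hO : ∀ z ∈ O₁, ψ z ∈ V₂)
    (res₂ : ↥V₂ →+* k)
    (hres : ∀ z : ↥O₁, ¬ IsUnit z → (res₂.comp (valHom ψ O₁ V₂ hO)) z = 0)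
    {ιE : Type*} (vE : ιE → Place κ k) (e₀' : ιE)
    (𝔫₀ : Ideal (O ⊗[W] B0)) [h𝔫₀ : 𝔫₀.IsMaximal]
    (hoff₁ : ¬ Off (algebraMap O (O ⊗[W] B0) π) O₁ 𝔫₀)
    (hoff₂ : ¬ Off (algebraMap O (O ⊗[W] B0) π) O₂ 𝔫₀)
    (H₁ : BranchHyp (algebraMap (O ⊗[W] B0) F) 𝔫₀ O₁ (algebraMap O (O ⊗[W] B0) π))
    (HP : NodePlaceW (PP (algebraMap (O ⊗[W] B0) F) hN₀.chart.inj 𝔫₀ H₁)
      ((res₂.comp (valHom ψ O₁ V₂ hO)).comp
        (toO O₁ (iota (algebraMap (O ⊗[W] B0) F) hN₀.chart.inj 𝔫₀)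
          (iota_mem (algebraMap (O ⊗[W] B0) F) hN₀.chart.inj 𝔫₀ H₁))) (vE e₀'))
    {C₂ : Subfield F₂} (HR : RhoInputs (K₀ := K₂) V₂ res₂ vE C₂)
    (hπC : ψ (algebraMap (O ⊗[W] B0) F (algebraMap O (O ⊗[W] B0) π)) ∈ C₂)
    -- the class
    (y : PicX c0 O) (htors : (PicX.map c0 O L y) ^ p = 1)
    -- the dictionary
    (hlam : ∀ (M : QC2 O (O ⊗[W] B0) (O ⊗[W] B1) (O ⊗[W] B01)) (hM : M.IsLine)
      (ε : M.N01 →ₗ[O ⊗[W] B01] F) (f : F) (n : ℕ),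
      y = LinePic.mk (c0.baseChange O) M hM → ε ≠ 0 → f ≠ 0 →
      algebraMap (O ⊗[W] B0) F (algebraMap O (O ⊗[W] B0) π) ^ n * f ∈ frame0 M ε ^ p →
      (∀ z ∈ frame0 M ε ^ p, ∃ r : O ⊗[W] B0,
        algebraMap (O ⊗[W] B0) F (algebraMap O (O ⊗[W] B0) π) ^ n * z = r • f) →
      algebraMap (O ⊗[W] B1) F (algebraMap O (O ⊗[W] B1) π) ^ n * f ∈ frame1 M ε ^ p →
      (∀ z ∈ frame1 M ε ^ p, ∃ r : O ⊗[W] B1,
        algebraMap (O ⊗[W] B1) F (algebraMap O (O ⊗[W] B1) π) ^ n * z = r • f) →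
      lam V₂ res₂ vE p C₂ (ψ f) e₀' = 0) :
    PicX.map c0 O L y ∈ J0L c0 O L (P00 hg X) := by
  obtain ⟨M, hM, rfl⟩ := LinePic.exists_rep y
  obtain ⟨ε, hε⟩ := exists_framing_ne_zero (F := F) hM hN₀.chart.inj
  exact rho_ker_hub_line_bundled c0 O L hinj01 hπ hg X p hN₀ hN₁ ψ V₂ hO res₂ hres vE e₀' 𝔫₀ hoff₁
    hoff₂ H₁ HP HR hπC hM ε hε htors
    (fun f n hf a b c d => hlam M hM ε f n rfl hε hf a b c d)

end FinalBundled

end Fermat.Agent.T1B.R1Asm2
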