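/-
T1B (S44), cell NODE/PHI-R1, brick R1-ASM (helper2): **`ρ_const` AND `ρ_ker` AT THE HUB, DICTIONARY
FORM.**

Setting: `y : PicX c0 O` (a line on `X_O`) with `p`-torsion generic fibre; `hN₀`, `hN₁` helper80's
`Hol80.NodalChartHyp` for the two charts `O ⊗[W] B_j ⊂ F`; the top-level node places `vE e`
(`e : ιE`) lie over two-branch maximal ideals `𝔪 e` of chart `0` (`NodePlaceW`); top-level
`RhoInputs`.

* `lam_const_of_line` : (R1a) for a framed line: every `(f, n)` with `π ^ n f ∈ (frame0 M ε) ^ p`,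
  `π ^ n (frame0 M ε) ^ p ⊆ R_0 f` has `lam (ψ f) = const`;
* `rho_const_hub_bundled` : existence form: `y` has a representative `(M, ε, f, n)` satisfying the frame
  conditions on both charts, and for it `lam (ψ f)` is constant;
* `rho_hub` : **dictionary form**: if `r : ιE → ZMod p` is a vector with `lam (ψ f) = r` for EVERY
  representative `(M, ε, f, n)` of `y` (the dictionary "`ρ x` is computed by any frame generator"),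
  then `r` is constant, and `r e = 0` for one `e` implies
  `PicX.map c0 O L y ∈ J0L c0 O L (P00 hg X)`.
-/
import Mathlib
import Fermat.Agent.T1B.R1Asm2.FinalBundled

set_option autoImplicit false
set_option linter.unusedSectionVars false
set_option linter.style.haveILetI false

universe u v

open TensorProduct

namespace Fermat.Agent.T1B.R1Asm2

open Fermat.Agent.Jac Fermat.Agent.Jac.LineOps39 Fermat.Agent.Jac.JGroup85Pic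
open Fermat.Agent.Jac.JSmooth85Alg Fermat.Agent.Jac.BaseChange75
open Fermat.Agent.T1.RedIface75 Fermat.Agent.T1.Red68
open Fermat.Agent.T1B.RedN3 Fermat.Agent.T1B.Bal60 Fermat.Agent.T1B.Desc1
open Fermat.Agent.T1B.Hol31.Frame
open AlgebraicCurve Fermat.Agent.T1.Peu37.NodeClassGroup Fermat.Agent.T1B.NodeNF37.Local
  Fermat.Agent.T1B.NodeNF37.UnifOrd Fermat.Agent.T1B.Hol31.Local Fermat.Agent.T1B.Brandt36
  Fermat.Agent.T1B.Hol80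
open scoped Fermat.Agent.Jac.BaseChange75

section RhoHub

variable {W B0 B1 B01 : Type u} [CommRing W] [CommRing B0] [CommRing B1] [CommRing B01]
  [Algebra W B0] [Algebra W B1] [Algebra W B01] [Algebra B0 B01] [Algebra B1 B01]
  [IsScalarTower W B0 B01] [IsScalarTower W B1 B01]
  (c0 : TwoChart W B0 B1 B01)
  (O : Type u) [CommRing O] [IsDomain O] [IsDiscreteValuationRing O] [Algebra W O]
  (L : Type u) [Field L] [Algebra W L] [Algebra O L] [IsScalarTower W O L] [IsFractionRing O L]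
  {F : Type v} [Field F] [Algebra (O ⊗[W] B0) F] [Algebra (O ⊗[W] B1) F] [Algebra (O ⊗[W] B01) F]
  [IsScalarTower (O ⊗[W] B0) (O ⊗[W] B01) F] [IsScalarTower (O ⊗[W] B1) (O ⊗[W] B01) F]
  [IsDomain (O ⊗[W] B0)] [IsDomain (O ⊗[W] B1)] [IsDomain (O ⊗[W] B01)]
  [IsNoetherianRing (O ⊗[W] B0)] [IsNoetherianRing (O ⊗[W] B1)]
  {F₂ : Type*} [Field F₂] {K₂ : Type*} [Field K₂] [Algebra K₂ F₂]
  {κ k : Type*} [Field κ] [Field k] [Algebra κ k]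

/-- **(R1a) for a framed line on `X_O`**: `lam (ψ f)` is constant for every generator `f` of the
`p`-th power of the frame on chart `0` up to vertical ideals. -/
theorem lam_const_of_line
    (c : TwoChart O (O ⊗[W] B0) (O ⊗[W] B1) (O ⊗[W] B01))
    {π : O} {O₁ O₂ : ValuationSubring F} {K : ℕ}
    (hN₀ : NodalChartHyp (algebraMap O (O ⊗[W] B0) π) O₁ O₂ K)
    (ψ : F →+* F₂) (V₂ : ValuationSubring F₂) (hO : ∀ z ∈ O₁, ψ z ∈ V₂)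
    (res₂ : ↥V₂ →+* k)
    (hres : ∀ z : ↥O₁, ¬ IsUnit z → (res₂.comp (valHom ψ O₁ V₂ hO)) z = 0)
    {ιE : Type*} (vE : ιE → Place κ k)
    (𝔪 : ιE → Ideal (O ⊗[W] B0)) [h𝔪 : ∀ e, (𝔪 e).IsMaximal]
    (hoff₁ : ∀ e, ¬ Off (algebraMap O (O ⊗[W] B0) π) O₁ (𝔪 e))
    (hoff₂ : ∀ e, ¬ Off (algebraMap O (O ⊗[W] B0) π) O₂ (𝔪 e))
    (H₁ : ∀ e, BranchHyp (algebraMap (O ⊗[W] B0) F) (𝔪 e) O₁ (algebraMap O (O ⊗[W] B0) π))
    (HP : ∀ e, NodePlaceW (PP (algebraMap (O ⊗[W] B0) F) hN₀.chart.inj (𝔪 e) (H₁ e))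
      ((res₂.comp (valHom ψ O₁ V₂ hO)).comp
        (toO O₁ (iota (algebraMap (O ⊗[W] B0) F) hN₀.chart.inj (𝔪 e))
          (iota_mem (algebraMap (O ⊗[W] B0) F) hN₀.chart.inj (𝔪 e) (H₁ e)))) (vE e))
    {C₂ : Subfield F₂} (HR : RhoInputs (K₀ := K₂) V₂ res₂ vE C₂)
    (hπC : ψ (algebraMap (O ⊗[W] B0) F (algebraMap O (O ⊗[W] B0) π)) ∈ C₂)
    {M : QC2 O (O ⊗[W] B0) (O ⊗[W] B1) (O ⊗[W] B01)} (hM : M.IsLine)
    (ε : M.N01 →ₗ[O ⊗[W] B01] F) (hε : ε ≠ 0) (p : ℕ) {f : F} (hf : f ≠ 0) (n : ℕ)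
    (h1 : algebraMap (O ⊗[W] B0) F (algebraMap O (O ⊗[W] B0) π) ^ n * f ∈ frame0 M ε ^ p)
    (h2 : ∀ z ∈ frame0 M ε ^ p, ∃ r : O ⊗[W] B0,
      algebraMap (O ⊗[W] B0) F (algebraMap O (O ⊗[W] B0) π) ^ n * z = r • f) :
    ∃ s : ℤ, lam V₂ res₂ vE p C₂ (ψ f) = fun _ => (s : ZMod p) := by
  obtain ⟨⟨J₀, hIJ₀⟩, -⟩ := exists_frame_inv c hN₀.chart.inj hM ε hε
  exact lam_const_of_frame_bundled hN₀ 𝔪 hoff₁ hoff₂ ψ V₂ hO res₂ hres vE H₁ HP hIJ₀ p hf n h1 h2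
    HR hπC

/-- **`ρ_const` at the hub, existence form.** -/
theorem rho_const_hub_bundled
    (hinj01 : Function.Injective (algebraMap (O ⊗[W] B01) F))
    {π : O} (hπ : Irreducible π) {ι : Type} [Nonempty ι]
    (hg : NodalGood (c0.baseChange O) π ι) (p : ℕ)
    {O₁ O₂ : ValuationSubring F} {K : ℕ}
    (hN₀ : NodalChartHyp (algebraMap O (O ⊗[W] B0) π) O₁ O₂ K)
    (ψ : F →+* F₂) (V₂ : ValuationSubring F₂) (hO : ∀ z ∈ O₁, ψ z ∈ V₂)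
    (res₂ : ↥V₂ →+* k)
    (hres : ∀ z : ↥O₁, ¬ IsUnit z → (res₂.comp (valHom ψ O₁ V₂ hO)) z = 0)
    {ιE : Type*} (vE : ιE → Place κ k)
    (𝔪 : ιE → Ideal (O ⊗[W] B0)) [h𝔪 : ∀ e, (𝔪 e).IsMaximal]
    (hoff₁ : ∀ e, ¬ Off (algebraMap O (O ⊗[W] B0) π) O₁ (𝔪 e))
    (hoff₂ : ∀ e, ¬ Off (algebraMap O (O ⊗[W] B0) π) O₂ (𝔪 e))
    (H₁ : ∀ e, BranchHyp (algebraMap (O ⊗[W] B0) F) (𝔪 e) O₁ (algebraMap O (O ⊗[W] B0) π))
    (HP : ∀ e, NodePlaceW (PP (algebraMap (O ⊗[W] B0) F) hN₀.chart.inj (𝔪 e) (H₁ e))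
      ((res₂.comp (valHom ψ O₁ V₂ hO)).comp
        (toO O₁ (iota (algebraMap (O ⊗[W] B0) F) hN₀.chart.inj (𝔪 e))
          (iota_mem (algebraMap (O ⊗[W] B0) F) hN₀.chart.inj (𝔪 e) (H₁ e)))) (vE e))
    {C₂ : Subfield F₂} (HR : RhoInputs (K₀ := K₂) V₂ res₂ vE C₂)
    (hπC : ψ (algebraMap (O ⊗[W] B0) F (algebraMap O (O ⊗[W] B0) π)) ∈ C₂)
    (y : PicX c0 O) (htors : (PicX.map c0 O L y) ^ p = 1) :
    ∃ (M : QC2 O (O ⊗[W] B0) (O ⊗[W] B1) (O ⊗[W] B01)) (hM : M.IsLine)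
      (ε : M.N01 →ₗ[O ⊗[W] B01] F) (f : F) (n : ℕ),
      y = LinePic.mk (c0.baseChange O) M hM ∧ ε ≠ 0 ∧ f ≠ 0 ∧
      algebraMap (O ⊗[W] B0) F (algebraMap O (O ⊗[W] B0) π) ^ n * f ∈ frame0 M ε ^ p ∧
      (∀ z ∈ frame0 M ε ^ p, ∃ r : O ⊗[W] B0,
        algebraMap (O ⊗[W] B0) F (algebraMap O (O ⊗[W] B0) π) ^ n * z = r • f) ∧
      algebraMap (O ⊗[W] B1) F (algebraMap O (O ⊗[W] B1) π) ^ n * f ∈ frame1 M ε ^ p ∧
      (∀ z ∈ frame1 M ε ^ p, ∃ r : O ⊗[W] B1,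
        algebraMap (O ⊗[W] B1) F (algebraMap O (O ⊗[W] B1) π) ^ n * z = r • f) ∧
      ∃ s : ℤ, lam V₂ res₂ vE p C₂ (ψ f) = fun _ => (s : ZMod p) := by
  obtain ⟨M, hM, rfl⟩ := LinePic.exists_rep y
  obtain ⟨ε, hε⟩ := exists_framing_ne_zero (F := F) hM hN₀.chart.inj
  obtain ⟨f, n, hf, h1₀, h2₀, h1₁, h2₁⟩ :=
    exists_vertical_frames c0 O L hinj01 hπ hg hM ε hε p htors
  exact ⟨M, hM, ε, f, n, rfl, hε, hf, h1₀, h2₀, h1₁, h2₁,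
    lam_const_of_line O (c0.baseChange O) hN₀ ψ V₂ hO res₂ hres vE 𝔪 hoff₁ hoff₂ H₁ HP HR hπC hM ε hε p hf n
      h1₀ h2₀⟩

/-- **`ρ_const` and `ρ_ker` at the hub, dictionary form.**  `r` is the residue vector of the class: it
is computed by ANY frame generator of ANY representative (`hdict`).  Then `r` is constant, and if it
vanishes at one node place the generic fibre of `y` extends to a class of multidegree `0`. -/
theorem rho_hub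
    (hinj01 : Function.Injective (algebraMap (O ⊗[W] B01) F))
    {π : O} (hπ : Irreducible π) {ι : Type} [Nonempty ι]
    (hg : NodalGood (c0.baseChange O) π ι)
    {K' : Type u} [Field K'] (X : ∀ i, Comp (c0.baseChange O) (hg.P0 i) (hg.P1 i) K')
    (p : ℕ) [NeZero p]
    {O₁ O₂ : ValuationSubring F} {K : ℕ}
    (hN₀ : NodalChartHyp (algebraMap O (O ⊗[W] B0) π) O₁ O₂ K)
    (hN₁ : NodalChartHyp (algebraMap O (O ⊗[W] B1) π) O₁ O₂ K)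
    (ψ : F →+* F₂) (V₂ : ValuationSubring F₂) (hO : ∀ z ∈ O₁, ψ z ∈ V₂)
    (res₂ : ↥V₂ →+* k)
    (hres : ∀ z : ↥O₁, ¬ IsUnit z → (res₂.comp (valHom ψ O₁ V₂ hO)) z = 0)
    {ιE : Type*} (vE : ιE → Place κ k)
    (𝔪 : ιE → Ideal (O ⊗[W] B0)) [h𝔪 : ∀ e, (𝔪 e).IsMaximal]
    (hoff₁ : ∀ e, ¬ Off (algebraMap O (O ⊗[W] B0) π) O₁ (𝔪 e))
    (hoff₂ : ∀ e, ¬ Off (algebraMap O (O ⊗[W] B0) π) O₂ (𝔪 e))
    (H₁ : ∀ e, BranchHyp (algebraMap (O ⊗[W] B0) F) (𝔪 e) O₁ (algebraMap O (O ⊗[W] B0) π))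
    (HP : ∀ e, NodePlaceW (PP (algebraMap (O ⊗[W] B0) F) hN₀.chart.inj (𝔪 e) (H₁ e))
      ((res₂.comp (valHom ψ O₁ V₂ hO)).comp
        (toO O₁ (iota (algebraMap (O ⊗[W] B0) F) hN₀.chart.inj (𝔪 e))
          (iota_mem (algebraMap (O ⊗[W] B0) F) hN₀.chart.inj (𝔪 e) (H₁ e)))) (vE e))
    {C₂ : Subfield F₂} (HR : RhoInputs (K₀ := K₂) V₂ res₂ vE C₂)
    (hπC : ψ (algebraMap (O ⊗[W] B0) F (algebraMap O (O ⊗[W] B0) π)) ∈ C₂)
    (y : PicX c0 O) (htors : (PicX.map c0 O L y) ^ p = 1)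
    (r : ιE → ZMod p)
    (hdict : ∀ (M : QC2 O (O ⊗[W] B0) (O ⊗[W] B1) (O ⊗[W] B01)) (hM : M.IsLine)
      (ε : M.N01 →ₗ[O ⊗[W] B01] F) (f : F) (n : ℕ),
      y = LinePic.mk (c0.baseChange O) M hM → ε ≠ 0 → f ≠ 0 →
      algebraMap (O ⊗[W] B0) F (algebraMap O (O ⊗[W] B0) π) ^ n * f ∈ frame0 M ε ^ p →
      (∀ z ∈ frame0 M ε ^ p, ∃ r : O ⊗[W] B0,
        algebraMap (O ⊗[W] B0) F (algebraMap O (O ⊗[W] B0) π) ^ n * z = r • f) →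
      algebraMap (O ⊗[W] B1) F (algebraMap O (O ⊗[W] B1) π) ^ n * f ∈ frame1 M ε ^ p →
      (∀ z ∈ frame1 M ε ^ p, ∃ r : O ⊗[W] B1,
        algebraMap (O ⊗[W] B1) F (algebraMap O (O ⊗[W] B1) π) ^ n * z = r • f) →
      lam V₂ res₂ vE p C₂ (ψ f) = r) :
    (∃ s : ℤ, r = fun _ => (s : ZMod p)) ∧
      ((∃ e, r e = 0) → PicX.map c0 O L y ∈ J0L c0 O L (P00 hg X)) := by
  refine ⟨?_, ?_⟩
  · obtain ⟨M, hM, ε, f, n, hy, hε, hf, h1₀, h2₀, h1₁, h2₁, s, hs⟩ :=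
      rho_const_hub_bundled c0 O L hinj01 hπ hg p hN₀ ψ V₂ hO res₂ hres vE 𝔪 hoff₁ hoff₂ H₁ HP HR
        hπC y htors
    exact ⟨s, by rw [← hdict M hM ε f n hy hε hf h1₀ h2₀ h1₁ h2₁, hs]⟩
  · rintro ⟨e, he⟩
    exact rho_ker_hub_bundled c0 O L hinj01 hπ hg X p hN₀ hN₁ ψ V₂ hO res₂ hres vE e (𝔪 e)
      (hoff₁ e) (hoff₂ e) (H₁ e) (HP e) HR hπC y htors
      (fun M hM ε f n hy hε hf a b c d => by rw [hdict M hM ε f n hy hε hf a b c d]; exact he)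

end RhoHub

end Fermat.Agent.T1B.R1Asm2
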