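/-
T1B (S44), cells R1 / R2-BRANDT, node places (helper2): **THE NODE PLACES ARE LEVEL-INDEPENDENT**
(abstract level transport, on top of helper96's `Brandt96/CentrePkg` and helper55's
`Brandt55/Intrinsic`).

Two charts of the nodal model at two levels: `B ⊂ F` (`Hc : ChartHyp π O₁ O₂`, `res₁ : O₁ →+* k`) and
`B' ⊂ F'` (`Hc'`, `res₁'`), with compatible maps `f : B →+* B'`, `φ : F →+* F'`, `φ (O₁) ⊆ O₁'` and
`res₁' ∘ φ = res₁` on `O₁` (both are restrictions of the ONE top-level residue map).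

* `resChart_map`            : `resChart res₁' (f b) = resChart res₁ b`;
* `hasCentre_of_map`        : `HasCentre Hc' res₁' v → HasCentre Hc res₁ v`;
* `hasCentre_map_of_closure`: the converse, if `B'` is generated as a ring by `f (B)` and a set `S` of
  elements regular at `v` (e.g. constants);
* `closure_tensor_eq_top`   : for `B' = O' ⊗[O] B` one may take `S =` the constants `O'`;
* `hasCentre_map_iff`       : hence `HasCentre Hc' res₁' v ↔ HasCentre Hc res₁ v`;
* `twoBranch_map_iff`       : **`TwoBranch Hc' res₁' v ↔ TwoBranch Hc res₁ v`** (through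
  `Brandt55.twoBranch_iff` at both levels, test element `h0' = f h0`);
* `hP_map`                  : an intrinsic predicate `P` for the level of `B` is one for the level of `B'`.
-/
import Mathlib
import Fermat.Agent.T1B.Brandt55.Intrinsic

set_option autoImplicit false
set_option linter.unusedSectionVars false
set_option linter.unusedVariables false
set_option linter.style.haveILetI false

open TensorProduct

namespace Fermat.Agent.T1B.R1Asm2

open AlgebraicCurve IsLocalRing Fermat.Agent.T1.Peu37.NodeClassGroup Fermat.Agent.T1B.Hol80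
  Fermat.Agent.T1B.NodeNF37.Local Fermat.Agent.T1B.NodeNF37.UnifOrd Fermat.Agent.T1B.Brandt96
  Fermat.Agent.T1B.Brandt55

variable {B F : Type*} [CommRing B] [IsDomain B] [Field F] [Algebra B F]
variable {B' F' : Type*} [CommRing B'] [IsDomain B'] [Field F'] [Algebra B' F']
variable {κ k : Type*} [Field κ] [Field k] [Algebra κ k]

section Map

variable {π : B} {O₁ O₂ : ValuationSubring F} (Hc : ChartHyp π O₁ O₂) (res₁ : ↥O₁ →+* k)
  {π' : B'} {O₁' O₂' : ValuationSubring F'} (Hc' : ChartHyp π' O₁' O₂') (res₁' : ↥O₁' →+* k)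
  (f : B →+* B') (φ : F →+* F')
  (hφ : ∀ b : B, algebraMap B' F' (f b) = φ (algebraMap B F b))
  (hO₁ : ∀ z ∈ O₁, φ z ∈ O₁')
  (hres : ∀ z : ↥O₁, res₁' ⟨φ (z : F), hO₁ _ z.2⟩ = res₁ z)

include hφ hres in
/-- The residue maps of the two charts agree on `B`. -/
theorem resChart_map (b : B) :
    resChart res₁' Hc'.le₁ (f b) = resChart res₁ Hc.le₁ b := by
  show res₁' (toO O₁' (algebraMap B' F') Hc'.le₁ (f b)) = res₁ (toO O₁ (algebraMap B F) Hc.le₁ b)
  rw [← hres]
  congr 1
  exact Subtype.ext (hφ b)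

include hφ hres in
/-- A place with a centre on the chart of the upper level has a centre on the chart of the lower
level. -/
theorem hasCentre_of_map (v : Place κ k) (h : HasCentre Hc' res₁' v) : HasCentre Hc res₁ v := by
  intro b
  rw [← resChart_map Hc res₁ Hc' res₁' f φ hφ hO₁ hres b]
  exact h (f b)

include hφ hres in
/-- The converse, if the upper chart is generated by the lower chart and elements regular at `v`. -/
theorem hasCentre_map_of_closure (v : Place κ k) (S : Set B')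
    (hS : ∀ s ∈ S, resChart res₁' Hc'.le₁ s ∈ v.toValuationSubring)
    (hgen : Subring.closure (Set.range f ∪ S) = ⊤) (h : HasCentre Hc res₁ v) :
    HasCentre Hc' res₁' v := by
  intro b'
  have hb' : b' ∈ Subring.closure (Set.range f ∪ S) := by rw [hgen]; trivial
  induction hb' using Subring.closure_induction with
  | mem x hx =>
    rcases hx with ⟨b, rfl⟩ | hx
    · rw [resChart_map Hc res₁ Hc' res₁' f φ hφ hO₁ hres b]
      exact h b
    · exact hS x hx
  | zero => rw [map_zero]; exact v.toValuationSubring.zero_mem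
  | one => rw [map_one]; exact v.toValuationSubring.one_mem
  | add x y _ _ hx hy => rw [map_add]; exact v.toValuationSubring.add_mem _ _ hx hy
  | neg x _ hx => rw [map_neg]; exact v.toValuationSubring.neg_mem _ hx
  | mul x y _ _ hx hy => rw [map_mul]; exact v.toValuationSubring.mul_mem _ _ hx hy

include hφ hres in
/-- `HasCentre` is level-independent. -/
theorem hasCentre_map_iff (v : Place κ k) (S : Set B')
    (hS : ∀ s ∈ S, resChart res₁' Hc'.le₁ s ∈ v.toValuationSubring)
    (hgen : Subring.closure (Set.range f ∪ S) = ⊤) :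
    HasCentre Hc' res₁' v ↔ HasCentre Hc res₁ v :=
  ⟨hasCentre_of_map Hc res₁ Hc' res₁' f φ hφ hO₁ hres v,
    hasCentre_map_of_closure Hc res₁ Hc' res₁' f φ hφ hO₁ hres v S hS hgen⟩

end Map

section Tensor

variable {O O' S : Type*} [CommRing O] [CommRing O'] [CommRing S] [Algebra O O'] [Algebra O S]

/-- `O' ⊗[O] S` is generated as a ring by `1 ⊗ S` and the constants `O' ⊗ 1`. -/
theorem closure_tensor_eq_top :
    Subring.closure (Set.range (Algebra.TensorProduct.includeRight : S →ₐ[O] O' ⊗[O] S) ∪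
      Set.range (algebraMap O' (O' ⊗[O] S))) = ⊤ := by
  rw [eq_top_iff]
  intro x hx
  clear hx
  induction x using TensorProduct.induction_on with
  | zero => exact Subring.zero_mem _
  | add x y hx hy => exact Subring.add_mem _ hx hy
  | tmul a s =>
    have h1 : (a ⊗ₜ[O] s : O' ⊗[O] S) =
        algebraMap O' (O' ⊗[O] S) a * (Algebra.TensorProduct.includeRight : S →ₐ[O] O' ⊗[O] S) s := by
      rw [Algebra.TensorProduct.algebraMap_apply, Algebra.TensorProduct.includeRight_apply,
        Algebra.TensorProduct.tmul_mul_tmul, mul_one, Algebra.algebraMap_self_apply, one_mul]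
    rw [h1]
    exact Subring.mul_mem _ (Subring.subset_closure (Or.inr ⟨a, rfl⟩))
      (Subring.subset_closure (Or.inl ⟨s, rfl⟩))

end Tensor

section TwoBranch

variable [IsNoetherianRing B] [IsNoetherianRing B']
variable {π : B} {O₁ O₂ : ValuationSubring F} {K : ℕ} (hN : NodalChartHyp π O₁ O₂ K)
  (res₁ : ↥O₁ →+* k) (hres₁ : ∀ z : ↥O₁, ¬ IsUnit z → res₁ z = 0)
  {π' : B'} {O₁' O₂' : ValuationSubring F'} {K' : ℕ} (hN' : NodalChartHyp π' O₁' O₂' K')
  (res₁' : ↥O₁' →+* k) (hres₁' : ∀ z : ↥O₁', ¬ IsUnit z → res₁' z = 0)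
  (p : ℕ) [Fact p.Prime] [Algebra (ZMod p) κ] [Algebra.IsAlgebraic (ZMod p) κ]
  (hdeg : ∀ v : Place κ k, v.deg = 1)
  (hF : ∀ z : F, ∃ b₁ b₂ : B, b₂ ≠ 0 ∧ z * algebraMap B F b₂ = algebraMap B F b₁)
  (htop : IntermediateField.adjoin κ (Set.range res₁) = ⊤)
  (hF' : ∀ z : F', ∃ b₁ b₂ : B', b₂ ≠ 0 ∧ z * algebraMap B' F' b₂ = algebraMap B' F' b₁)
  (htop' : IntermediateField.adjoin κ (Set.range res₁') = ⊤)
  (f : B →+* B') (φ : F →+* F')
  (hφ : ∀ b : B, algebraMap B' F' (f b) = φ (algebraMap B F b))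
  (hO₁ : ∀ z ∈ O₁, φ z ∈ O₁')
  (hres : ∀ z : ↥O₁, res₁' ⟨φ (z : F), hO₁ _ z.2⟩ = res₁ z)

include hN hres₁ hN' hres₁' p hdeg hF htop hF' htop' hφ hres in
/-- **The node places are level-independent.**  Test elements: `h0 * g0 = π ^ n` on the lower chart,
`f h0 * g0' = π' ^ n'` on the upper chart. -/
theorem twoBranch_map_iff {h0 g0 : B} {n : ℕ} (hh : h0 * g0 = π ^ n)
    (hinv : (algebraMap B F h0)⁻¹ ∈ O₁)
    (hO₂ : ord O₂ (algebraMap B F π) (algebraMap B F h0) ≠ 0)
    {g0' : B'} {n' : ℕ} (hh' : f h0 * g0' = π' ^ n')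
    (hinv' : (algebraMap B' F' (f h0))⁻¹ ∈ O₁')
    (hO₂' : ord O₂' (algebraMap B' F' π') (algebraMap B' F' (f h0)) ≠ 0)
    (S : Set B') (hgen : Subring.closure (Set.range f ∪ S) = ⊤) (v : Place κ k)
    (hS : ∀ s ∈ S, resChart res₁' hN'.chart.le₁ s ∈ v.toValuationSubring) :
    TwoBranch hN'.chart res₁' v ↔ TwoBranch hN.chart res₁ v := by
  rw [twoBranch_iff hN res₁ hres₁ p hdeg hF htop hh hinv hO₂ v,
    twoBranch_iff hN' res₁' hres₁' p hdeg hF' htop' hh' hinv' hO₂' v,
    hasCentre_map_iff hN.chart res₁ hN'.chart res₁' f φ hφ hO₁ hres v S hS hgen,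
    resChart_map hN.chart res₁ hN'.chart res₁' f φ hφ hO₁ hres h0]

include hN hres₁ hN' hres₁' p hdeg hF htop hF' htop' hφ hres in
/-- An intrinsic predicate for the lower level is one for the upper level. -/
theorem hP_map {h0 g0 : B} {n : ℕ} (hh : h0 * g0 = π ^ n)
    (hinv : (algebraMap B F h0)⁻¹ ∈ O₁)
    (hO₂ : ord O₂ (algebraMap B F π) (algebraMap B F h0) ≠ 0)
    {g0' : B'} {n' : ℕ} (hh' : f h0 * g0' = π' ^ n')
    (hinv' : (algebraMap B' F' (f h0))⁻¹ ∈ O₁')
    (hO₂' : ord O₂' (algebraMap B' F' π') (algebraMap B' F' (f h0)) ≠ 0)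
    (S : Set B') (hgen : Subring.closure (Set.range f ∪ S) = ⊤)
    (hS : ∀ (v : Place κ k), ∀ s ∈ S, resChart res₁' hN'.chart.le₁ s ∈ v.toValuationSubring)
    {P : Place κ k → Prop} (hP : ∀ v, P v ↔ TwoBranch hN.chart res₁ v) (v : Place κ k) :
    P v ↔ TwoBranch hN'.chart res₁' v := by
  rw [hP v]
  exact (twoBranch_map_iff hN res₁ hres₁ hN' res₁' hres₁' p hdeg hF htop hF' htop' f φ hφ hO₁ hres
    hh hinv hO₂ hh' hinv' hO₂' S hgen v (hS v)).symm

end TwoBranch

end Fermat.Agent.T1B.R1Asm2
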