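/-
T1B (S44), cell NODE/PHI-R1, brick R1-ASM (helper2): **`ρ_ker` AT THE HUB, ONE COMPOSED THEOREM.**

`rho_ker_hub` : `y : PicX c0 O` (a line on `X_O`, `O` a DVR with uniformiser `π`, `L = Frac O`) whose
generic fibre is `p`-torsion.  MODEL FACTS (hypotheses, in the literal shape of helper80's
`Hol80.exists_vertical_root_twoChart_top`): both charts `O ⊗[W] B_j ⊂ F` are nodal charts (`ChartHyp`,
all two-branch maximal ideals nodes of thickness `K`), one node place `vE e₀'` over a node `e₀` of chart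
`0`, the top-level `RhoInputs`.  DICTIONARY (hypothesis `hlam`): for every representative `M` of `y`,
every nonzero framing `ε` and every `f ≠ 0`, `n` with `π ^ n f ∈ (frame_j M ε) ^ p` and
`π ^ n (frame_j M ε) ^ p ⊆ R_j f` (`j = 0, 1`), the top-level residue `lam (ψ f)` vanishes at `e₀'`.
CONCLUSION: the generic fibre of `y` extends to a class of multidegree `0`:
`PicX.map c0 O L y ∈ J0L c0 O L (P00 hg X)`.

Composition: `LinePic.exists_rep` → `Hol31.Frame.exists_framing_ne_zero` →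
`R1Asm2.exists_vertical_frames` → `R1Asm2.exists_frame_inv` → `R1Asm2.overlap_*` →
`Hol80.exists_vertical_root_twoChart_top` → `R1Asm2.map_mem_J0L_of_vertical_root`.
-/
import Mathlib
import Fermat.Agent.T1B.R1Asm2.Asm
import Fermat.Agent.T1B.R1Asm2.Overlap
import Fermat.Agent.T1B.R1Asm2.GenericTorsion
import Fermat.Agent.T1B.Hol80.R1Rho

set_option autoImplicit false
set_option linter.unusedSectionVars false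
set_option linter.style.haveILetI false

universe u v

open TensorProduct

namespace Fermat.Agent.T1B.R1Asm2

open Fermat.Agent.Jac Fermat.Agent.Jac.LineOps39 Fermat.Agent.Jac.JGroup85Pic
open Fermat.Agent.Jac.JSmooth85Alg Fermat.Agent.Jac.BaseChange75
open Fermat.Agent.T1.RedIface75 Fermat.Agent.T1.Red68
open Fermat.Agent.T1B.RedN3 Fermat.Agent.T1B.Bal60 Fermat.Agent.T1B.Desc1
open Fermat.Agent.T1B.Hol31.Frame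
open AlgebraicCurve Fermat.Agent.T1.Peu37.NodeClassGroup Fermat.Agent.T1B.NodeNF37.Local
  Fermat.Agent.T1B.NodeNF37.UnifOrd Fermat.Agent.T1B.Hol31.Local Fermat.Agent.T1B.Brandt36
  Fermat.Agent.T1B.Hol80
open scoped Fermat.Agent.Jac.BaseChange75

section Final

variable {W B0 B1 B01 : Type u} [CommRing W] [CommRing B0] [CommRing B1] [CommRing B01]
  [Algebra W B0] [Algebra W B1] [Algebra W B01] [Algebra B0 B01] [Algebra B1 B01]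
  [IsScalarTower W B0 B01] [IsScalarTower W B1 B01]
  (c0 : TwoChart W B0 B1 B01)
  (O : Type u) [CommRing O] [IsDomain O] [IsDiscreteValuationRing O] [Algebra W O]
  (L : Type u) [Field L] [Algebra W L] [Algebra O L] [IsScalarTower W O L] [IsFractionRing O L]
  {F : Type v} [Field F] [Algebra (O ⊗[W] B0) F] [Algebra (O ⊗[W] B1) F] [Algebra (O ⊗[W] B01) F]
  [IsScalarTower (O ⊗[W] B0) (O ⊗[W] B01) F] [IsScalarTower (O ⊗[W] B1) (O ⊗[W] B01) F]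
  [IsDomain (O ⊗[W] B0)] [IsDomain (O ⊗[W] B1)] [IsDomain (O ⊗[W] B01)]
  [IsNoetherianRing (O ⊗[W] B0)] [IsNoetherianRing (O ⊗[W] B1)]
  {F₂ : Type*} [Field F₂] {K₂ : Type*} [Field K₂] [Algebra K₂ F₂]
  {κ k : Type*} [Field κ] [Field k] [Algebra κ k]

/-- **`ρ_ker` at the hub, line form.**  See the file header. -/
theorem rho_ker_hub_line
    (hinj01 : Function.Injective (algebraMap (O ⊗[W] B01) F))
    {π : O} (hπ : Irreducible π) {ι : Type} [Nonempty ι]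
    (hg : NodalGood (c0.baseChange O) π ι)
    {K' : Type u} [Field K'] (X : ∀ i, Comp (c0.baseChange O) (hg.P0 i) (hg.P1 i) K')
    (p : ℕ) [NeZero p]
    -- chart 0 (model facts)
    (hg₀ : Function.Injective (algebraMap (O ⊗[W] B0) F))
    (O₁ O₂ : ValuationSubring F)
    (Hc₀ : ChartHyp (algebraMap O (O ⊗[W] B0) π) O₁ O₂)
    {E₀ : Type*} (𝔪₀ : E₀ → Ideal (O ⊗[W] B0)) [∀ e, (𝔪₀ e).IsPrime]
    (H₁₀ : ∀ e, BranchHyp (algebraMap (O ⊗[W] B0) F) (𝔪₀ e) O₁ (algebraMap O (O ⊗[W] B0) π))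
    (H₂₀ : ∀ e, BranchHyp (algebraMap (O ⊗[W] B0) F) (𝔪₀ e) O₂ (algebraMap O (O ⊗[W] B0) π))
    (hall₀ : ∀ 𝔫 : Ideal (O ⊗[W] B0), 𝔫.IsMaximal →
      ¬ Off (algebraMap O (O ⊗[W] B0) π) O₁ 𝔫 → ¬ Off (algebraMap O (O ⊗[W] B0) π) O₂ 𝔫 →
      ∃ e, 𝔪₀ e = 𝔫)
    (K : ℕ) (x₀ y₀ : ∀ e, Localization.AtPrime (𝔪₀ e))
    (D₀ : ∀ e, NodeData (Localization.AtPrime (𝔪₀ e))
      (vv (algebraMap (O ⊗[W] B0) F) hg₀ (𝔪₀ e) O₁ (algebraMap O (O ⊗[W] B0) π))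
      (vv (algebraMap (O ⊗[W] B0) F) hg₀ (𝔪₀ e) O₂ (algebraMap O (O ⊗[W] B0) π))
      (PP (algebraMap (O ⊗[W] B0) F) hg₀ (𝔪₀ e) (H₁₀ e))
      (PP (algebraMap (O ⊗[W] B0) F) hg₀ (𝔪₀ e) (H₂₀ e))
      (algebraMap (O ⊗[W] B0) (Localization.AtPrime (𝔪₀ e)) (algebraMap O (O ⊗[W] B0) π))
      (x₀ e) (y₀ e) K)
    -- the top level
    (ψ : F →+* F₂) (V₂ : ValuationSubring F₂) (hO : ∀ z ∈ O₁, ψ z ∈ V₂)
    (res₂ : ↥V₂ →+* k)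
    (hres : ∀ z : ↥O₁, ¬ IsUnit z → (res₂.comp (valHom ψ O₁ V₂ hO)) z = 0)
    {ιE : Type*} (vE : ιE → Place κ k) (e₀' : ιE) (e₀ : E₀)
    (HP : NodePlaceW (PP (algebraMap (O ⊗[W] B0) F) hg₀ (𝔪₀ e₀) (H₁₀ e₀))
      ((res₂.comp (valHom ψ O₁ V₂ hO)).comp
        (toO O₁ (iota (algebraMap (O ⊗[W] B0) F) hg₀ (𝔪₀ e₀))
          (iota_mem (algebraMap (O ⊗[W] B0) F) hg₀ (𝔪₀ e₀) (H₁₀ e₀)))) (vE e₀'))
    {C₂ : Subfield F₂} (HR : RhoInputs (K₀ := K₂) V₂ res₂ vE C₂)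
    (hπC : ψ (algebraMap (O ⊗[W] B0) F (algebraMap O (O ⊗[W] B0) π)) ∈ C₂)
    -- chart 1 (model facts)
    (hg₁ : Function.Injective (algebraMap (O ⊗[W] B1) F))
    (Hc₁ : ChartHyp (algebraMap O (O ⊗[W] B1) π) O₁ O₂)
    {E₁ : Type*} (𝔪₁ : E₁ → Ideal (O ⊗[W] B1)) [∀ e, (𝔪₁ e).IsPrime]
    (H₁₁ : ∀ e, BranchHyp (algebraMap (O ⊗[W] B1) F) (𝔪₁ e) O₁ (algebraMap O (O ⊗[W] B1) π))
    (H₂₁ : ∀ e, BranchHyp (algebraMap (O ⊗[W] B1) F) (𝔪₁ e) O₂ (algebraMap O (O ⊗[W] B1) π))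
    (hall₁ : ∀ 𝔫 : Ideal (O ⊗[W] B1), 𝔫.IsMaximal →
      ¬ Off (algebraMap O (O ⊗[W] B1) π) O₁ 𝔫 → ¬ Off (algebraMap O (O ⊗[W] B1) π) O₂ 𝔫 →
      ∃ e, 𝔪₁ e = 𝔫)
    (x₁ y₁ : ∀ e, Localization.AtPrime (𝔪₁ e))
    (D₁ : ∀ e, NodeData (Localization.AtPrime (𝔪₁ e))
      (vv (algebraMap (O ⊗[W] B1) F) hg₁ (𝔪₁ e) O₁ (algebraMap O (O ⊗[W] B1) π))
      (vv (algebraMap (O ⊗[W] B1) F) hg₁ (𝔪₁ e) O₂ (algebraMap O (O ⊗[W] B1) π))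
      (PP (algebraMap (O ⊗[W] B1) F) hg₁ (𝔪₁ e) (H₁₁ e))
      (PP (algebraMap (O ⊗[W] B1) F) hg₁ (𝔪₁ e) (H₂₁ e))
      (algebraMap (O ⊗[W] B1) (Localization.AtPrime (𝔪₁ e)) (algebraMap O (O ⊗[W] B1) π))
      (x₁ e) (y₁ e) K)
    -- the line
    {M : QC2 O (O ⊗[W] B0) (O ⊗[W] B1) (O ⊗[W] B01)} (hM : M.IsLine)
    (ε : M.N01 →ₗ[O ⊗[W] B01] F) (hε : ε ≠ 0)
    (htors : (PicX.map c0 O L (LinePic.mk (c0.baseChange O) M hM)) ^ p = 1)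
    -- the dictionary
    (hlam : ∀ (f : F) (n : ℕ), f ≠ 0 →
      algebraMap (O ⊗[W] B0) F (algebraMap O (O ⊗[W] B0) π) ^ n * f ∈ frame0 M ε ^ p →
      (∀ z ∈ frame0 M ε ^ p, ∃ r : O ⊗[W] B0,
        algebraMap (O ⊗[W] B0) F (algebraMap O (O ⊗[W] B0) π) ^ n * z = r • f) →
      algebraMap (O ⊗[W] B1) F (algebraMap O (O ⊗[W] B1) π) ^ n * f ∈ frame1 M ε ^ p →
      (∀ z ∈ frame1 M ε ^ p, ∃ r : O ⊗[W] B1,
        algebraMap (O ⊗[W] B1) F (algebraMap O (O ⊗[W] B1) π) ^ n * z = r • f) →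
      lam V₂ res₂ vE p C₂ (ψ f) e₀' = 0) :
    PicX.map c0 O L (LinePic.mk (c0.baseChange O) M hM) ∈ J0L c0 O L (P00 hg X) := by
  obtain ⟨f, n, hf, h1₀, h2₀, h1₁, h2₁⟩ :=
    exists_vertical_frames c0 O L hinj01 hπ hg hM ε hε p htors
  obtain ⟨⟨J₀, hIJ₀⟩, ⟨J₁, hIJ₁⟩⟩ := exists_frame_inv (c0.baseChange O) hg₀ hM ε hε
  have h0 := hlam f n hf h1₀ h2₀ h1₁ h2₁
  have hπ01 : algebraMap (O ⊗[W] B0) F (algebraMap O (O ⊗[W] B0) π) =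
      algebraMap (O ⊗[W] B1) F (algebraMap O (O ⊗[W] B1) π) := by
    rw [IsScalarTower.algebraMap_apply (O ⊗[W] B0) (O ⊗[W] B01) F,
      IsScalarTower.algebraMap_apply (O ⊗[W] B1) (O ⊗[W] B01) F,
      ← IsScalarTower.algebraMap_apply O (O ⊗[W] B0) (O ⊗[W] B01),
      ← IsScalarTower.algebraMap_apply O (O ⊗[W] B1) (O ⊗[W] B01)]
  obtain ⟨W₀, W₁, a, Mexp, hW₀, hW₁, hid₀, hid₁, hY₀, hY₁, hov₀, hov₁⟩ :=
    exists_vertical_root_twoChart_top hg₀ (algebraMap O (O ⊗[W] B0) π) O₁ O₂ Hc₀ 𝔪₀ H₁₀ H₂₀ hall₀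
      K x₀ y₀ D₀ ψ V₂ hO res₂ hres vE e₀' e₀ HP hIJ₀ p hf n h1₀ h2₀ HR hπC h0
      hg₁ (algebraMap O (O ⊗[W] B1) π) Hc₁ 𝔪₁ H₁₁ H₂₁ hall₁ x₁ y₁ D₁ hIJ₁ h1₁ h2₁ hπ01
      (c0.baseChange O).t (c0.baseChange O).s (ts_in_field (c0.baseChange O))
      (overlap_elt₀ (c0.baseChange O)) (overlap_elt₁ (c0.baseChange O))
      (fun z hz => overlap_frame₀ (c0.baseChange O) M ε hz)
      (fun z hz => overlap_frame₁ (c0.baseChange O) M ε hz)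
  exact map_mem_J0L_of_vertical_root c0 O L hinj01 hπ.ne_zero hg X hM ε hε p (NeZero.ne p) hf n a
    Mexp W₀ W₁ hW₀ hW₁ hid₀ hid₁ hY₀ hY₁ hov₀ hov₁

/-- **`ρ_ker` at the hub, class form.**  `y : PicX c0 O` with `p`-torsion generic fibre; the dictionary
`hlam` is asked for every representative `M` of `y`, every nonzero framing and every `(f, n)` with
`π ^ n f ∈ (frame_j M ε) ^ p`, `π ^ n (frame_j M ε) ^ p ⊆ R_j f`. -/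
theorem rho_ker_hub
    (hinj01 : Function.Injective (algebraMap (O ⊗[W] B01) F))
    {π : O} (hπ : Irreducible π) {ι : Type} [Nonempty ι]
    (hg : NodalGood (c0.baseChange O) π ι)
    {K' : Type u} [Field K'] (X : ∀ i, Comp (c0.baseChange O) (hg.P0 i) (hg.P1 i) K')
    (p : ℕ) [NeZero p]
    -- chart 0 (model facts)
    (hg₀ : Function.Injective (algebraMap (O ⊗[W] B0) F))
    (O₁ O₂ : ValuationSubring F)
    (Hc₀ : ChartHyp (algebraMap O (O ⊗[W] B0) π) O₁ O₂)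
    {E₀ : Type*} (𝔪₀ : E₀ → Ideal (O ⊗[W] B0)) [∀ e, (𝔪₀ e).IsPrime]
    (H₁₀ : ∀ e, BranchHyp (algebraMap (O ⊗[W] B0) F) (𝔪₀ e) O₁ (algebraMap O (O ⊗[W] B0) π))
    (H₂₀ : ∀ e, BranchHyp (algebraMap (O ⊗[W] B0) F) (𝔪₀ e) O₂ (algebraMap O (O ⊗[W] B0) π))
    (hall₀ : ∀ 𝔫 : Ideal (O ⊗[W] B0), 𝔫.IsMaximal →
      ¬ Off (algebraMap O (O ⊗[W] B0) π) O₁ 𝔫 → ¬ Off (algebraMap O (O ⊗[W] B0) π) O₂ 𝔫 →
      ∃ e, 𝔪₀ e = 𝔫)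
    (K : ℕ) (x₀ y₀ : ∀ e, Localization.AtPrime (𝔪₀ e))
    (D₀ : ∀ e, NodeData (Localization.AtPrime (𝔪₀ e))
      (vv (algebraMap (O ⊗[W] B0) F) hg₀ (𝔪₀ e) O₁ (algebraMap O (O ⊗[W] B0) π))
      (vv (algebraMap (O ⊗[W] B0) F) hg₀ (𝔪₀ e) O₂ (algebraMap O (O ⊗[W] B0) π))
      (PP (algebraMap (O ⊗[W] B0) F) hg₀ (𝔪₀ e) (H₁₀ e))
      (PP (algebraMap (O ⊗[W] B0) F) hg₀ (𝔪₀ e) (H₂₀ e))
      (algebraMap (O ⊗[W] B0) (Localization.AtPrime (𝔪₀ e)) (algebraMap O (O ⊗[W] B0) π))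
      (x₀ e) (y₀ e) K)
    -- the top level
    (ψ : F →+* F₂) (V₂ : ValuationSubring F₂) (hO : ∀ z ∈ O₁, ψ z ∈ V₂)
    (res₂ : ↥V₂ →+* k)
    (hres : ∀ z : ↥O₁, ¬ IsUnit z → (res₂.comp (valHom ψ O₁ V₂ hO)) z = 0)
    {ιE : Type*} (vE : ιE → Place κ k) (e₀' : ιE) (e₀ : E₀)
    (HP : NodePlaceW (PP (algebraMap (O ⊗[W] B0) F) hg₀ (𝔪₀ e₀) (H₁₀ e₀))
      ((res₂.comp (valHom ψ O₁ V₂ hO)).comp
        (toO O₁ (iota (algebraMap (O ⊗[W] B0) F) hg₀ (𝔪₀ e₀))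
          (iota_mem (algebraMap (O ⊗[W] B0) F) hg₀ (𝔪₀ e₀) (H₁₀ e₀)))) (vE e₀'))
    {C₂ : Subfield F₂} (HR : RhoInputs (K₀ := K₂) V₂ res₂ vE C₂)
    (hπC : ψ (algebraMap (O ⊗[W] B0) F (algebraMap O (O ⊗[W] B0) π)) ∈ C₂)
    -- chart 1 (model facts)
    (hg₁ : Function.Injective (algebraMap (O ⊗[W] B1) F))
    (Hc₁ : ChartHyp (algebraMap O (O ⊗[W] B1) π) O₁ O₂)
    {E₁ : Type*} (𝔪₁ : E₁ → Ideal (O ⊗[W] B1)) [∀ e, (𝔪₁ e).IsPrime]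
    (H₁₁ : ∀ e, BranchHyp (algebraMap (O ⊗[W] B1) F) (𝔪₁ e) O₁ (algebraMap O (O ⊗[W] B1) π))
    (H₂₁ : ∀ e, BranchHyp (algebraMap (O ⊗[W] B1) F) (𝔪₁ e) O₂ (algebraMap O (O ⊗[W] B1) π))
    (hall₁ : ∀ 𝔫 : Ideal (O ⊗[W] B1), 𝔫.IsMaximal →
      ¬ Off (algebraMap O (O ⊗[W] B1) π) O₁ 𝔫 → ¬ Off (algebraMap O (O ⊗[W] B1) π) O₂ 𝔫 →
      ∃ e, 𝔪₁ e = 𝔫)
    (x₁ y₁ : ∀ e, Localization.AtPrime (𝔪₁ e))
    (D₁ : ∀ e, NodeData (Localization.AtPrime (𝔪₁ e))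
      (vv (algebraMap (O ⊗[W] B1) F) hg₁ (𝔪₁ e) O₁ (algebraMap O (O ⊗[W] B1) π))
      (vv (algebraMap (O ⊗[W] B1) F) hg₁ (𝔪₁ e) O₂ (algebraMap O (O ⊗[W] B1) π))
      (PP (algebraMap (O ⊗[W] B1) F) hg₁ (𝔪₁ e) (H₁₁ e))
      (PP (algebraMap (O ⊗[W] B1) F) hg₁ (𝔪₁ e) (H₂₁ e))
      (algebraMap (O ⊗[W] B1) (Localization.AtPrime (𝔪₁ e)) (algebraMap O (O ⊗[W] B1) π))
      (x₁ e) (y₁ e) K)
    -- the class
    (y : PicX c0 O) (htors : (PicX.map c0 O L y) ^ p = 1)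
    -- the dictionary
    (hlam : ∀ (M : QC2 O (O ⊗[W] B0) (O ⊗[W] B1) (O ⊗[W] B01)) (hM : M.IsLine)
      (ε : M.N01 →ₗ[O ⊗[W] B01] F) (f : F) (n : ℕ),
      y = LinePic.mk (c0.baseChange O) M hM → ε ≠ 0 → f ≠ 0 →
      algebraMap (O ⊗[W] B0) F (algebraMap O (O ⊗[W] B0) π) ^ n * f ∈ frame0 M ε ^ p →
      (∀ z ∈ frame0 M ε ^ p, ∃ r : O ⊗[W] B0,
        algebraMap (O ⊗[W] B0) F (algebraMap O (O ⊗[W] B0) π) ^ n * z = r • f) →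
      algebraMap (O ⊗[W] B1) F (algebraMap O (O ⊗[W] B1) π) ^ n * f ∈ frame1 M ε ^ p →
      (∀ z ∈ frame1 M ε ^ p, ∃ r : O ⊗[W] B1,
        algebraMap (O ⊗[W] B1) F (algebraMap O (O ⊗[W] B1) π) ^ n * z = r • f) →
      lam V₂ res₂ vE p C₂ (ψ f) e₀' = 0) :
    PicX.map c0 O L y ∈ J0L c0 O L (P00 hg X) := by
  obtain ⟨M, hM, rfl⟩ := LinePic.exists_rep y
  obtain ⟨ε, hε⟩ := exists_framing_ne_zero (F := F) hM hg₀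
  exact rho_ker_hub_line c0 O L hinj01 hπ hg X p hg₀ O₁ O₂ Hc₀ 𝔪₀ H₁₀ H₂₀ hall₀ K x₀ y₀ D₀ ψ V₂ hO
    res₂ hres vE e₀' e₀ HP HR hπC hg₁ Hc₁ 𝔪₁ H₁₁ H₂₁ hall₁ x₁ y₁ D₁ hM ε hε htors
    (fun f n hf a b c d => hlam M hM ε f n rfl hε hf a b c d)

end Final

end Fermat.Agent.T1B.R1Asm2
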