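/-
T1B (S44), cell NODE/PHI-R1, brick R1-ASM (helper2): TRANSPORT OF THE VERTICAL-FRAME CONDITIONS along a
field map `ι : F → F̂` (on top of helper21's `AD21.FrameMap.mapFraming`).

For a framed two-chart module `(M, ε : M.N01 → F)` and `ι : F →+* F̂` compatible with the `R01`-algebra
structures:

* `algHom0`, `algHom1` : `ι` as an `R_j`-algebra map;
* `frame0_mapFraming_eq_map`, `frame1_mapFraming_eq_map` : `frame_j M (ι ∘ ε) = ι (frame_j M ε)`;
* `frame0_mapFraming_pow`, `frame1_mapFraming_pow` : `(frame_j M (ι ∘ ε)) ^ p = ι ((frame_j M ε) ^ p)`;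
* `mem_pow_map₀/₁`, `exists_smul_map₀/₁` : the two conditions `π ^ n f ∈ (frame_j) ^ p`,
  `π ^ n (frame_j) ^ p ⊆ R_j f` are transported to `ι f`.
-/
import Mathlib
import Fermat.Agent.T1B.AD21.FrameMap

set_option autoImplicit false
set_option linter.unusedSectionVars false

universe u v w

namespace Fermat.Agent.T1B.R1Asm2

open Fermat.Agent.Jac Fermat.Agent.T1B.Hol31.Frame Fermat.Agent.T1B.AD21.FrameMap

variable {A R0 R1 R01 : Type u} [CommRing A] [CommRing R0] [CommRing R1] [CommRing R01]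
  [Algebra A R0] [Algebra A R1] [Algebra A R01] [Algebra R0 R01] [Algebra R1 R01]
  [IsScalarTower A R0 R01] [IsScalarTower A R1 R01]
  {F : Type v} [Field F] [Algebra R0 F] [Algebra R1 F] [Algebra R01 F]
  [IsScalarTower R0 R01 F] [IsScalarTower R1 R01 F]
  {Fh : Type w} [Field Fh] [Algebra R0 Fh] [Algebra R1 Fh] [Algebra R01 Fh]
  [IsScalarTower R0 R01 Fh] [IsScalarTower R1 R01 Fh]

theorem map_algebraMap₀ (ι : F →+* Fh)
    (hι : ∀ r : R01, ι (algebraMap R01 F r) = algebraMap R01 Fh r) (r : R0) :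
    ι (algebraMap R0 F r) = algebraMap R0 Fh r := by
  rw [IsScalarTower.algebraMap_apply R0 R01 F, hι, ← IsScalarTower.algebraMap_apply R0 R01 Fh]

theorem map_algebraMap₁ (ι : F →+* Fh)
    (hι : ∀ r : R01, ι (algebraMap R01 F r) = algebraMap R01 Fh r) (r : R1) :
    ι (algebraMap R1 F r) = algebraMap R1 Fh r := by
  rw [IsScalarTower.algebraMap_apply R1 R01 F, hι, ← IsScalarTower.algebraMap_apply R1 R01 Fh]

/-- `ι` as an `R0`-algebra map. -/
def algHom0 (ι : F →+* Fh) (hι : ∀ r : R01, ι (algebraMap R01 F r) = algebraMap R01 Fh r) :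
    F →ₐ[R0] Fh :=
  { ι with commutes' := map_algebraMap₀ ι hι }

/-- `ι` as an `R1`-algebra map. -/
def algHom1 (ι : F →+* Fh) (hι : ∀ r : R01, ι (algebraMap R01 F r) = algebraMap R01 Fh r) :
    F →ₐ[R1] Fh :=
  { ι with commutes' := map_algebraMap₁ ι hι }

@[simp] theorem algHom0_apply (ι : F →+* Fh)
    (hι : ∀ r : R01, ι (algebraMap R01 F r) = algebraMap R01 Fh r) (x : F) :
    algHom0 (R0 := R0) ι hι x = ι x := rfl

@[simp] theorem algHom1_apply (ι : F →+* Fh)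
    (hι : ∀ r : R01, ι (algebraMap R01 F r) = algebraMap R01 Fh r) (x : F) :
    algHom1 (R1 := R1) ι hι x = ι x := rfl

theorem frame0_mapFraming_eq_map {M : QC2 A R0 R1 R01} (ε : M.N01 →ₗ[R01] F) (ι : F →+* Fh)
    (hι : ∀ r : R01, ι (algebraMap R01 F r) = algebraMap R01 Fh r) :
    frame0 M (mapFraming ε ι hι) = Submodule.map (algHom0 (R0 := R0) ι hι).toLinearMap
      (frame0 M ε) := by
  ext z
  rw [mem_frame0_mapFraming, Submodule.mem_map]
  rfl

theorem frame1_mapFraming_eq_map {M : QC2 A R0 R1 R01} (ε : M.N01 →ₗ[R01] F) (ι : F →+* Fh)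
    (hι : ∀ r : R01, ι (algebraMap R01 F r) = algebraMap R01 Fh r) :
    frame1 M (mapFraming ε ι hι) = Submodule.map (algHom1 (R1 := R1) ι hι).toLinearMap
      (frame1 M ε) := by
  ext z
  rw [mem_frame1_mapFraming, Submodule.mem_map]
  rfl

theorem frame0_mapFraming_pow {M : QC2 A R0 R1 R01} (ε : M.N01 →ₗ[R01] F) (ι : F →+* Fh)
    (hι : ∀ r : R01, ι (algebraMap R01 F r) = algebraMap R01 Fh r) (p : ℕ) :
    frame0 M (mapFraming ε ι hι) ^ p = Submodule.map (algHom0 (R0 := R0) ι hι).toLinearMap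
      (frame0 M ε ^ p) := by
  rw [frame0_mapFraming_eq_map, Submodule.map_pow]

theorem frame1_mapFraming_pow {M : QC2 A R0 R1 R01} (ε : M.N01 →ₗ[R01] F) (ι : F →+* Fh)
    (hι : ∀ r : R01, ι (algebraMap R01 F r) = algebraMap R01 Fh r) (p : ℕ) :
    frame1 M (mapFraming ε ι hι) ^ p = Submodule.map (algHom1 (R1 := R1) ι hι).toLinearMap
      (frame1 M ε ^ p) := by
  rw [frame1_mapFraming_eq_map, Submodule.map_pow]

/-- `π ^ n f ∈ (frame0 M ε) ^ p` is transported along `ι`. -/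
theorem mem_pow_map₀ {M : QC2 A R0 R1 R01} (ε : M.N01 →ₗ[R01] F) (ι : F →+* Fh)
    (hι : ∀ r : R01, ι (algebraMap R01 F r) = algebraMap R01 Fh r) {p n : ℕ} {π : R0} {f : F}
    (h : algebraMap R0 F π ^ n * f ∈ frame0 M ε ^ p) :
    algebraMap R0 Fh π ^ n * ι f ∈ frame0 M (mapFraming ε ι hι) ^ p := by
  rw [frame0_mapFraming_pow]
  refine ⟨_, h, ?_⟩
  show ι (algebraMap R0 F π ^ n * f) = _
  rw [map_mul, map_pow, map_algebraMap₀ ι hι]

/-- `π ^ n f ∈ (frame1 M ε) ^ p` is transported along `ι`. -/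
theorem mem_pow_map₁ {M : QC2 A R0 R1 R01} (ε : M.N01 →ₗ[R01] F) (ι : F →+* Fh)
    (hι : ∀ r : R01, ι (algebraMap R01 F r) = algebraMap R01 Fh r) {p n : ℕ} {π : R1} {f : F}
    (h : algebraMap R1 F π ^ n * f ∈ frame1 M ε ^ p) :
    algebraMap R1 Fh π ^ n * ι f ∈ frame1 M (mapFraming ε ι hι) ^ p := by
  rw [frame1_mapFraming_pow]
  refine ⟨_, h, ?_⟩
  show ι (algebraMap R1 F π ^ n * f) = _
  rw [map_mul, map_pow, map_algebraMap₁ ι hι]

/-- `π ^ n (frame0 M ε) ^ p ⊆ R0 f` is transported along `ι`. -/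
theorem exists_smul_map₀ {M : QC2 A R0 R1 R01} (ε : M.N01 →ₗ[R01] F) (ι : F →+* Fh)
    (hι : ∀ r : R01, ι (algebraMap R01 F r) = algebraMap R01 Fh r) {p n : ℕ} {π : R0} {f : F}
    (h : ∀ z ∈ frame0 M ε ^ p, ∃ r : R0, algebraMap R0 F π ^ n * z = r • f) :
    ∀ z ∈ frame0 M (mapFraming ε ι hι) ^ p, ∃ r : R0, algebraMap R0 Fh π ^ n * z = r • ι f := by
  intro z hz
  rw [frame0_mapFraming_pow] at hz
  obtain ⟨z₀, hz₀, rfl⟩ := hz
  obtain ⟨r, hr⟩ := h z₀ hz₀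
  refine ⟨r, ?_⟩
  show algebraMap R0 Fh π ^ n * ι z₀ = r • ι f
  rw [← map_algebraMap₀ ι hι, ← map_pow, ← map_mul, hr, Algebra.smul_def, map_mul,
    map_algebraMap₀ ι hι, Algebra.smul_def]

/-- `π ^ n (frame1 M ε) ^ p ⊆ R1 f` is transported along `ι`. -/
theorem exists_smul_map₁ {M : QC2 A R0 R1 R01} (ε : M.N01 →ₗ[R01] F) (ι : F →+* Fh)
    (hι : ∀ r : R01, ι (algebraMap R01 F r) = algebraMap R01 Fh r) {p n : ℕ} {π : R1} {f : F}
    (h : ∀ z ∈ frame1 M ε ^ p, ∃ r : R1, algebraMap R1 F π ^ n * z = r • f) :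
    ∀ z ∈ frame1 M (mapFraming ε ι hι) ^ p, ∃ r : R1, algebraMap R1 Fh π ^ n * z = r • ι f := by
  intro z hz
  rw [frame1_mapFraming_pow] at hz
  obtain ⟨z₀, hz₀, rfl⟩ := hz
  obtain ⟨r, hr⟩ := h z₀ hz₀
  refine ⟨r, ?_⟩
  show algebraMap R1 Fh π ^ n * ι z₀ = r • ι f
  rw [← map_algebraMap₁ ι hι, ← map_pow, ← map_mul, hr, Algebra.smul_def, map_mul,
    map_algebraMap₁ ι hι, Algebra.smul_def]

end Fermat.Agent.T1B.R1Asm2
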