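/-
T1B (S44), cell NODE/PHI-R1, brick R1-ASM / RHO-DICT-GLUE (helper2): the restriction of a framing of the
generic fibre to the integral model, for an ARBITRARY compatible `R01`-algebra structure on the level
field `F₁` (helper31's `FrameBC.restrictLin` is the same map for the instance `algI01 E`).

* `restrictFraming E hσ01 ld φ : Mo.N01 →ₗ[R01] F₁`, `x ↦ φ (ld.e01 (1 ⊗ x))`;
* `restrictFraming_ne_zero`;
* `mapFraming_restrictFraming` : `ψ ∘ restrictFraming = FrameInt.framingInt E ψ hρ01 ld φ`.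
-/
import Mathlib
import Fermat.Agent.T1B.Hol31.FrameInt
import Fermat.Agent.T1B.AD21.FrameMap

set_option autoImplicit false
set_option linter.unusedSectionVars false
set_option linter.style.haveILetI false

universe u v w

open TensorProduct

namespace Fermat.Agent.T1B.R1Asm2

open Fermat.Agent.Jac Fermat.Agent.Jac.LineOps39 Fermat.Agent.Jac.JGroup85Pic
open Fermat.Agent.Jac.JSmooth85Alg
open Fermat.Agent.T1.Dict59 Fermat.Agent.T1.Adapt96 Fermat.Agent.T1B.Hol31.DictExt
open Fermat.Agent.T1B.Hol31.FrameBC Fermat.Agent.T1B.AD21.FrameMap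

variable {O R0 R1 R01 : Type u} [CommRing O] [CommRing R0] [CommRing R1] [CommRing R01]
  [Algebra O R0] [Algebra O R1] [Algebra O R01] [Algebra R0 R01] [Algebra R1 R01]
  [IsScalarTower O R0 R01] [IsScalarTower O R1 R01]
  {K S0 S1 S01 : Type u} [Field K] [CommRing S0] [CommRing S1] [CommRing S01]
  [Algebra K S0] [Algebra K S1] [Algebra K S01] [Algebra S0 S01] [Algebra S1 S01]
  [IsScalarTower K S0 S01] [IsScalarTower K S1 S01]
  [Algebra R0 S0] [Algebra R1 S1] [Algebra R01 S01]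
  {F₁ : Type v} [Field F₁] [Algebra K F₁]
  {c' : TwoChart K S0 S1 S01} {t : F₁} (E : ChartIso c' t)
  [Algebra R01 F₁]
  {Mo : QC2 O R0 R1 R01} {N : QC2 K S0 S1 S01}

/-- The framing of the integral model with values in the level field `F₁`:
`x ↦ φ (ld.e01 (1 ⊗ x))`. -/
noncomputable def restrictFraming
    (hσ01 : ∀ r : R01, algebraMap R01 F₁ r = E.e01 (algebraMap R01 S01 r))
    (ld : LiftData Mo N) (φ : Framing E N) : Mo.N01 →ₗ[R01] F₁ where
  toFun x := φ (ld.e01 ((1 : S01) ⊗ₜ[R01] x))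
  map_add' x y := by rw [TensorProduct.tmul_add, _root_.map_add, φ.map_add]
  map_smul' r x := by
    have h1 : ((1 : S01) ⊗ₜ[R01] (r • x)) =
        (algebraMap R01 S01 r) • ((1 : S01) ⊗ₜ[R01] x) := by
      rw [TensorProduct.smul_tmul', smul_eq_mul, mul_one, ← TensorProduct.smul_tmul,
        Algebra.smul_def, mul_one]
    rw [h1, _root_.map_smul, φ.map_smul, ← hσ01, RingHom.id_apply, Algebra.smul_def]

theorem restrictFraming_apply
    (hσ01 : ∀ r : R01, algebraMap R01 F₁ r = E.e01 (algebraMap R01 S01 r))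
    (ld : LiftData Mo N) (φ : Framing E N) (x : Mo.N01) :
    restrictFraming E hσ01 ld φ x = φ (ld.e01 ((1 : S01) ⊗ₜ[R01] x)) := rfl

theorem restrictFraming_ne_zero
    (hσ01 : ∀ r : R01, algebraMap R01 F₁ r = E.e01 (algebraMap R01 S01 r))
    (ld : LiftData Mo N) (φ : Framing E N) : restrictFraming E hσ01 ld φ ≠ 0 := by
  intro h0
  obtain ⟨y, hy⟩ := φ.exists_ne
  apply hy
  clear hy
  have hx : ∀ x : Mo.N01, φ (ld.e01 ((1 : S01) ⊗ₜ[R01] x)) = 0 := by
    intro x
    have := restrictFraming_apply E hσ01 ld φ x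
    rw [h0] at this
    exact this.symm
  have hw : ∀ w : S01 ⊗[R01] Mo.N01, φ (ld.e01 w) = 0 := by
    intro w
    induction w using TensorProduct.induction_on with
    | zero => rw [_root_.map_zero, φ.map_zero]
    | tmul s x => rw [framing_e01_tmul, hx, mul_zero]
    | add a b ha hb => rw [_root_.map_add, φ.map_add, ha, hb, add_zero]
  obtain ⟨w, rfl⟩ := ld.e01.surjective y
  exact hw w

variable {F₂ : Type w} [Field F₂] (ψ : F₁ →+* F₂)
  [Algebra R0 F₁] [Algebra R1 F₁] [IsScalarTower R0 R01 F₁] [IsScalarTower R1 R01 F₁]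
  [Algebra R0 F₂] [Algebra R1 F₂] [Algebra R01 F₂]
  [IsScalarTower R0 R01 F₂] [IsScalarTower R1 R01 F₂]

/-- `ψ ∘ restrictFraming` is helper31's `framingInt`. -/
theorem mapFraming_restrictFraming
    (hσ01 : ∀ r : R01, algebraMap R01 F₁ r = E.e01 (algebraMap R01 S01 r))
    (hρ01 : ∀ r : R01, algebraMap R01 F₂ r = ψ (E.e01 (algebraMap R01 S01 r)))
    (hψ : ∀ r : R01, ψ (algebraMap R01 F₁ r) = algebraMap R01 F₂ r)
    (ld : LiftData Mo N) (φ : Framing E N) :
    mapFraming (restrictFraming E hσ01 ld φ) ψ hψ =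
      Fermat.Agent.T1B.Hol31.FrameInt.framingInt E ψ hρ01 ld φ := by
  apply LinearMap.ext
  intro y
  rfl

end Fermat.Agent.T1B.R1Asm2
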