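/-
T1B (S44), cell NODE/PHI-R1, brick R1-ASM (helper2): **`ρ_const` AND `ρ_ker` AT THE HUB, DICTIONARY
FORM FOR ONE CHOSEN FRAMED REPRESENTATIVE.**

`rho_hub_of_framing` : as `R1Asm2.rho_hub`, but the dictionary is only asked for ONE framed line
`(M, ε)` chosen by the consumer (e.g. helper31's `FrameInt.framingInt`): if `lam (ψ f) = r` for every
`(f, n)` with `π ^ n f ∈ (frame_j M ε) ^ p`, `π ^ n (frame_j M ε) ^ p ⊆ R_j f` (`j = 0, 1`), and the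
generic fibre of `M` is `p`-torsion, then `r` is constant, and if `r e = 0` for one `e` then
`PicX.map c0 O L [M] ∈ J0L c0 O L (P00 hg X)`.

`lam_inv` : `lam (f⁻¹) = - lam f`.
-/
import Mathlib
import Fermat.Agent.T1B.R1Asm2.RhoHub

set_option autoImplicit false
set_option linter.unusedSectionVars false
set_option linter.style.haveILetI false

universe u v

open TensorProduct

namespace Fermat.Agent.T1B.R1Asm2

open Fermat.Agent.Jac Fermat.Agent.Jac.LineOps39 Fermat.Agent.Jac.JGroup85Pic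
open Fermat.Agent.Jac.JSmooth85Alg Fermat.Agent.Jac.BaseChange75
open Fermat.Agent.T1.RedIface75 Fermat.Agent.T1.Red68
open Fermat.Agent.T1B.RedN3 Fermat.Agent.T1B.Bal60 Fermat.Agent.T1B.Desc1
open Fermat.Agent.T1B.Hol31.Frame
open AlgebraicCurve Fermat.Agent.T1.Peu37.NodeClassGroup Fermat.Agent.T1B.NodeNF37.Local
  Fermat.Agent.T1B.NodeNF37.UnifOrd Fermat.Agent.T1B.Hol31.Local Fermat.Agent.T1B.Brandt36
  Fermat.Agent.T1B.Hol80
open scoped Fermat.Agent.Jac.BaseChange75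

section LamInv

variable {K₀ F₀ : Type*} [Field K₀] [Field F₀] [Algebra K₀ F₀]
variable {V : ValuationSubring F₀} {κ k : Type*} [Field κ] [Field k] [Algebra κ k]
  {res : ↥V →+* k} {ι : Type*} {vE : ι → Place κ k} {p : ℕ} {C : Subfield F₀}

/-- `lam (f⁻¹) = - lam f`. -/
theorem lam_inv (H : RhoInputs (K₀ := K₀) V res vE C) {f : F₀} (hf : f ≠ 0) :
    lam V res vE p C f⁻¹ = - lam V res vE p C f := by
  have h := lam_mul (p := p) H hf (inv_ne_zero hf)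
  rw [mul_inv_cancel₀ hf, lam_const H (one_mem C) one_ne_zero] at h
  exact eq_neg_of_add_eq_zero_right h.symm

end LamInv

section RhoHubFraming

variable {W B0 B1 B01 : Type u} [CommRing W] [CommRing B0] [CommRing B1] [CommRing B01]
  [Algebra W B0] [Algebra W B1] [Algebra W B01] [Algebra B0 B01] [Algebra B1 B01]
  [IsScalarTower W B0 B01] [IsScalarTower W B1 B01]
  (c0 : TwoChart W B0 B1 B01)
  (O : Type u) [CommRing O] [IsDomain O] [IsDiscreteValuationRing O] [Algebra W O]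
  (L : Type u) [Field L] [Algebra W L] [Algebra O L] [IsScalarTower W O L] [IsFractionRing O L]
  {F : Type v} [Field F] [Algebra (O ⊗[W] B0) F] [Algebra (O ⊗[W] B1) F] [Algebra (O ⊗[W] B01) F]
  [IsScalarTower (O ⊗[W] B0) (O ⊗[W] B01) F] [IsScalarTower (O ⊗[W] B1) (O ⊗[W] B01) F]
  [IsDomain (O ⊗[W] B0)] [IsDomain (O ⊗[W] B1)] [IsDomain (O ⊗[W] B01)]
  [IsNoetherianRing (O ⊗[W] B0)] [IsNoetherianRing (O ⊗[W] B1)]
  {F₂ : Type*} [Field F₂] {K₂ : Type*} [Field K₂] [Algebra K₂ F₂]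
  {κ k : Type*} [Field κ] [Field k] [Algebra κ k]

/-- **`ρ_const` and `ρ_ker` at the hub, dictionary form for one chosen framed representative.** -/
theorem rho_hub_of_framing
    (hinj01 : Function.Injective (algebraMap (O ⊗[W] B01) F))
    {π : O} (hπ : Irreducible π) {ι : Type} [Nonempty ι]
    (hg : NodalGood (c0.baseChange O) π ι)
    {K' : Type u} [Field K'] (X : ∀ i, Comp (c0.baseChange O) (hg.P0 i) (hg.P1 i) K')
    (p : ℕ) [NeZero p]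
    {O₁ O₂ : ValuationSubring F} {K : ℕ}
    (hN₀ : NodalChartHyp (algebraMap O (O ⊗[W] B0) π) O₁ O₂ K)
    (hN₁ : NodalChartHyp (algebraMap O (O ⊗[W] B1) π) O₁ O₂ K)
    (ψ : F →+* F₂) (V₂ : ValuationSubring F₂) (hO : ∀ z ∈ O₁, ψ z ∈ V₂)
    (res₂ : ↥V₂ →+* k)
    (hres : ∀ z : ↥O₁, ¬ IsUnit z → (res₂.comp (valHom ψ O₁ V₂ hO)) z = 0)
    {ιE : Type*} (vE : ιE → Place κ k)
    (𝔪 : ιE → Ideal (O ⊗[W] B0)) [h𝔪 : ∀ e, (𝔪 e).IsMaximal]
    (hoff₁ : ∀ e, ¬ Off (algebraMap O (O ⊗[W] B0) π) O₁ (𝔪 e))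
    (hoff₂ : ∀ e, ¬ Off (algebraMap O (O ⊗[W] B0) π) O₂ (𝔪 e))
    (H₁ : ∀ e, BranchHyp (algebraMap (O ⊗[W] B0) F) (𝔪 e) O₁ (algebraMap O (O ⊗[W] B0) π))
    (HP : ∀ e, NodePlaceW (PP (algebraMap (O ⊗[W] B0) F) hN₀.chart.inj (𝔪 e) (H₁ e))
      ((res₂.comp (valHom ψ O₁ V₂ hO)).comp
        (toO O₁ (iota (algebraMap (O ⊗[W] B0) F) hN₀.chart.inj (𝔪 e))
          (iota_mem (algebraMap (O ⊗[W] B0) F) hN₀.chart.inj (𝔪 e) (H₁ e)))) (vE e))
    {C₂ : Subfield F₂} (HR : RhoInputs (K₀ := K₂) V₂ res₂ vE C₂)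
    (hπC : ψ (algebraMap (O ⊗[W] B0) F (algebraMap O (O ⊗[W] B0) π)) ∈ C₂)
    {M : QC2 O (O ⊗[W] B0) (O ⊗[W] B1) (O ⊗[W] B01)} (hM : M.IsLine)
    (ε : M.N01 →ₗ[O ⊗[W] B01] F) (hε : ε ≠ 0)
    (htors : (PicX.map c0 O L (LinePic.mk (c0.baseChange O) M hM)) ^ p = 1)
    (r : ιE → ZMod p)
    (hdict : ∀ (f : F) (n : ℕ), f ≠ 0 →
      algebraMap (O ⊗[W] B0) F (algebraMap O (O ⊗[W] B0) π) ^ n * f ∈ frame0 M ε ^ p →
      (∀ z ∈ frame0 M ε ^ p, ∃ r : O ⊗[W] B0,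
        algebraMap (O ⊗[W] B0) F (algebraMap O (O ⊗[W] B0) π) ^ n * z = r • f) →
      algebraMap (O ⊗[W] B1) F (algebraMap O (O ⊗[W] B1) π) ^ n * f ∈ frame1 M ε ^ p →
      (∀ z ∈ frame1 M ε ^ p, ∃ r : O ⊗[W] B1,
        algebraMap (O ⊗[W] B1) F (algebraMap O (O ⊗[W] B1) π) ^ n * z = r • f) →
      lam V₂ res₂ vE p C₂ (ψ f) = r) :
    (∃ s : ℤ, r = fun _ => (s : ZMod p)) ∧
      ((∃ e, r e = 0) →
        PicX.map c0 O L (LinePic.mk (c0.baseChange O) M hM) ∈ J0L c0 O L (P00 hg X)) := by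
  refine ⟨?_, ?_⟩
  · obtain ⟨f, n, hf, h1₀, h2₀, h1₁, h2₁⟩ :=
      exists_vertical_frames c0 O L hinj01 hπ hg hM ε hε p htors
    obtain ⟨s, hs⟩ := lam_const_of_line O (c0.baseChange O) hN₀ ψ V₂ hO res₂ hres vE 𝔪 hoff₁ hoff₂
      H₁ HP HR hπC hM ε hε p hf n h1₀ h2₀
    exact ⟨s, by rw [← hdict f n hf h1₀ h2₀ h1₁ h2₁, hs]⟩
  · rintro ⟨e, he⟩
    exact rho_ker_hub_line_bundled c0 O L hinj01 hπ hg X p hN₀ hN₁ ψ V₂ hO res₂ hres vE e (𝔪 e)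
      (hoff₁ e) (hoff₂ e) (H₁ e) (HP e) HR hπC hM ε hε htors
      (fun f n hf a b c d => by rw [hdict f n hf a b c d]; exact he)

end RhoHubFraming

end Fermat.Agent.T1B.R1Asm2
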