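/-
T1B (S44), cell NODE/PHI-R1, brick R1-ASM / RHO-DICT-GLUE (helper2), abstract layer:
**`ρ_const` AND `ρ_ker` FOR `Brandt36.rho` FROM A PRESENTATION DICTIONARY.**

Setting of `R1Asm2.rho_hub_of_framing` (framed line `(M, ε)` on `X_O` with `p`-torsion generic fibre,
frames in a discrete-level field `F`, `ψ : F →+* F₂` the map to the top-level function field `F₂ / K₂`).
In addition `F₂` is an algebra over the chart rings (compatibly with `ψ`), so that `ψ ∘ ε` is a framing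
with values in `F₂` (`AD21.FrameMap.mapFraming`).

`rho_hub_of_isPData` : let `x` be a `p`-torsion class of `Pic0 K₂ F₂` such that every generator `f` of the
`p`-th powers of the `F₂`-frames up to vertical ideals presents `x` (`hP : … → ∃ D, IsPData p x D f⁻¹`;
this is helper31's `FrameGenDiv.exists_isPData_of_generic_frames` + JSpec-F).  Then
`rho HR x` is constant, and if it vanishes at one node place then
`PicX.map c0 O L [M] ∈ J0L c0 O L (P00 hg X)`.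
-/
import Mathlib
import Fermat.Agent.T1B.R1Asm2.RhoHubFraming
import Fermat.Agent.T1B.R1Asm2.FrameMapPow

set_option autoImplicit false
set_option linter.unusedSectionVars false
set_option linter.style.haveILetI false

universe u v

open TensorProduct

namespace Fermat.Agent.T1B.R1Asm2

open Fermat.Agent.Jac Fermat.Agent.Jac.LineOps39 Fermat.Agent.Jac.JGroup85Pic
open Fermat.Agent.Jac.JSmooth85Alg Fermat.Agent.Jac.BaseChange75
open Fermat.Agent.T1.RedIface75 Fermat.Agent.T1.Red68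
open Fermat.Agent.T1B.RedN3 Fermat.Agent.T1B.Bal60 Fermat.Agent.T1B.Desc1
open Fermat.Agent.T1B.Hol31.Frame Fermat.Agent.T1B.AD21.FrameMap
open AlgebraicCurve Fermat.Agent.T1.Peu37.NodeClassGroup Fermat.Agent.T1B.NodeNF37.Local
  Fermat.Agent.T1B.NodeNF37.UnifOrd Fermat.Agent.T1B.Hol31.Local Fermat.Agent.T1B.Brandt36
  Fermat.Agent.T1B.Hol80 Fermat.Agent.T1B.Hecke3
open scoped Fermat.Agent.Jac.BaseChange75

section RhoDictAbs

variable {W B0 B1 B01 : Type u} [CommRing W] [CommRing B0] [CommRing B1] [CommRing B01]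
  [Algebra W B0] [Algebra W B1] [Algebra W B01] [Algebra B0 B01] [Algebra B1 B01]
  [IsScalarTower W B0 B01] [IsScalarTower W B1 B01]
  (c0 : TwoChart W B0 B1 B01)
  (O : Type u) [CommRing O] [IsDomain O] [IsDiscreteValuationRing O] [Algebra W O]
  (L : Type u) [Field L] [Algebra W L] [Algebra O L] [IsScalarTower W O L] [IsFractionRing O L]
  {F : Type v} [Field F] [Algebra (O ⊗[W] B0) F] [Algebra (O ⊗[W] B1) F] [Algebra (O ⊗[W] B01) F]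
  [IsScalarTower (O ⊗[W] B0) (O ⊗[W] B01) F] [IsScalarTower (O ⊗[W] B1) (O ⊗[W] B01) F]
  [IsDomain (O ⊗[W] B0)] [IsDomain (O ⊗[W] B1)] [IsDomain (O ⊗[W] B01)]
  [IsNoetherianRing (O ⊗[W] B0)] [IsNoetherianRing (O ⊗[W] B1)]
  {F₂ : Type*} [Field F₂] {K₂ : Type*} [Field K₂] [Algebra K₂ F₂]
  [Algebra (O ⊗[W] B0) F₂] [Algebra (O ⊗[W] B1) F₂] [Algebra (O ⊗[W] B01) F₂]
  [IsScalarTower (O ⊗[W] B0) (O ⊗[W] B01) F₂] [IsScalarTower (O ⊗[W] B1) (O ⊗[W] B01) F₂]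
  {κ k : Type*} [Field κ] [Field k] [Algebra κ k]

/-- **`ρ_const` and `ρ_ker` for `Brandt36.rho` from a presentation dictionary.** -/
theorem rho_hub_of_isPData
    (hinj01 : Function.Injective (algebraMap (O ⊗[W] B01) F))
    {π : O} (hπ : Irreducible π) {ι : Type} [Nonempty ι]
    (hg : NodalGood (c0.baseChange O) π ι)
    {K' : Type u} [Field K'] (X : ∀ i, Comp (c0.baseChange O) (hg.P0 i) (hg.P1 i) K')
    (p : ℕ) [NeZero p]
    {O₁ O₂ : ValuationSubring F} {K : ℕ}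
    (hN₀ : NodalChartHyp (algebraMap O (O ⊗[W] B0) π) O₁ O₂ K)
    (hN₁ : NodalChartHyp (algebraMap O (O ⊗[W] B1) π) O₁ O₂ K)
    (ψ : F →+* F₂)
    (hψ : ∀ r : O ⊗[W] B01, ψ (algebraMap (O ⊗[W] B01) F r) = algebraMap (O ⊗[W] B01) F₂ r)
    (V₂ : ValuationSubring F₂) (hO : ∀ z ∈ O₁, ψ z ∈ V₂)
    (res₂ : ↥V₂ →+* k)
    (hres : ∀ z : ↥O₁, ¬ IsUnit z → (res₂.comp (valHom ψ O₁ V₂ hO)) z = 0)
    {ιE : Type*} (vE : ιE → Place κ k)
    (𝔪 : ιE → Ideal (O ⊗[W] B0)) [h𝔪 : ∀ e, (𝔪 e).IsMaximal]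
    (hoff₁ : ∀ e, ¬ Off (algebraMap O (O ⊗[W] B0) π) O₁ (𝔪 e))
    (hoff₂ : ∀ e, ¬ Off (algebraMap O (O ⊗[W] B0) π) O₂ (𝔪 e))
    (H₁ : ∀ e, BranchHyp (algebraMap (O ⊗[W] B0) F) (𝔪 e) O₁ (algebraMap O (O ⊗[W] B0) π))
    (HP : ∀ e, NodePlaceW (PP (algebraMap (O ⊗[W] B0) F) hN₀.chart.inj (𝔪 e) (H₁ e))
      ((res₂.comp (valHom ψ O₁ V₂ hO)).comp
        (toO O₁ (iota (algebraMap (O ⊗[W] B0) F) hN₀.chart.inj (𝔪 e))
          (iota_mem (algebraMap (O ⊗[W] B0) F) hN₀.chart.inj (𝔪 e) (H₁ e)))) (vE e))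
    {C₂ : Subfield F₂} (HR : RhoInputs (K₀ := K₂) V₂ res₂ vE C₂)
    (hπC : ψ (algebraMap (O ⊗[W] B0) F (algebraMap O (O ⊗[W] B0) π)) ∈ C₂)
    {M : QC2 O (O ⊗[W] B0) (O ⊗[W] B1) (O ⊗[W] B01)} (hM : M.IsLine)
    (ε : M.N01 →ₗ[O ⊗[W] B01] F) (hε : ε ≠ 0)
    (htors : (PicX.map c0 O L (LinePic.mk (c0.baseChange O) M hM)) ^ p = 1)
    (x : Pic0.torsion K₂ F₂ p)
    (hP : ∀ (f : F₂) (n : ℕ), f ≠ 0 →
      algebraMap (O ⊗[W] B0) F₂ (algebraMap O (O ⊗[W] B0) π) ^ n * f ∈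
        frame0 M (mapFraming ε ψ hψ) ^ p →
      (∀ z ∈ frame0 M (mapFraming ε ψ hψ) ^ p, ∃ r : O ⊗[W] B0,
        algebraMap (O ⊗[W] B0) F₂ (algebraMap O (O ⊗[W] B0) π) ^ n * z = r • f) →
      algebraMap (O ⊗[W] B1) F₂ (algebraMap O (O ⊗[W] B1) π) ^ n * f ∈
        frame1 M (mapFraming ε ψ hψ) ^ p →
      (∀ z ∈ frame1 M (mapFraming ε ψ hψ) ^ p, ∃ r : O ⊗[W] B1,
        algebraMap (O ⊗[W] B1) F₂ (algebraMap O (O ⊗[W] B1) π) ^ n * z = r • f) →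
      ∃ D, IsPData (K := K₂) p (x : Pic0 K₂ F₂) D f⁻¹) :
    (∃ s : ℤ, rho V₂ res₂ vE p C₂ HR x = fun _ => (s : ZMod p)) ∧
      ((∃ e, rho V₂ res₂ vE p C₂ HR x e = 0) →
        PicX.map c0 O L (LinePic.mk (c0.baseChange O) M hM) ∈ J0L c0 O L (P00 hg X)) := by
  have key := rho_hub_of_framing c0 O L hinj01 hπ hg X p hN₀ hN₁ ψ V₂ hO res₂ hres vE 𝔪 hoff₁
    hoff₂ H₁ HP HR hπC hM ε hε htors (- rho V₂ res₂ vE p C₂ HR x)
    (fun f n hf a b c d => by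
      have hf' : ψ f ≠ 0 := (map_ne_zero ψ).2 hf
      obtain ⟨D, hD⟩ := hP (ψ f) n hf' (mem_pow_map₀ ε ψ hψ a) (exists_smul_map₀ ε ψ hψ b)
        (mem_pow_map₁ ε ψ hψ c) (exists_smul_map₁ ε ψ hψ d)
      rw [rho_eq_lam HR x hD, lam_inv HR hf', neg_neg])
  obtain ⟨⟨s, hs⟩, h2⟩ := key
  refine ⟨⟨-s, ?_⟩, ?_⟩
  · have h3 : rho V₂ res₂ vE p C₂ HR x = - (fun _ => (s : ZMod p) : ιE → ZMod p) := by
      rw [← hs, neg_neg]
    rw [h3]
    funext e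
    simp
  · rintro ⟨e, he⟩
    exact h2 ⟨e, by rw [Pi.neg_apply, he, neg_zero]⟩

end RhoDictAbs

end Fermat.Agent.T1B.R1Asm2
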