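/-
T1B (S44), cell NODE/PHI-R1, brick R1-ASM / RHO-DICT-GLUE (helper2), concrete layer:
**`ρ_const` AND `ρ_ker` FOR `Brandt36.rho` AT A FINITE LEVEL.**

Hub vocabulary of helper31's `Hol31.HubAsmDiv`: `c0 : TwoChart W B0 B1 B01`, `O` a DVR over `W` with
fraction field the number field `L ⊆ ℚ̄`, `E : ChartIso (c0.baseChange L) t`; the level function field
`FK M L` and the top-level function field `Fbar M` are algebras over the integral chart rings
`O ⊗[W] B_j` (ANY instances, compatible with `E` resp. `cL M L ∘ E`: `hσ_j`, `hρ_j`).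

`rho_hub_dict` : `Mo` a line on `X_O`, `N` its generic fibre (`ld : LiftData Mo N`), `φ` ANY framing of
`N`, `x` a `p`-torsion class of `Pic0 ℚ̄ (Fbar M)` with `cls (framePair E hN φ) = x` (JSpec-F), the
generic fibre of `Mo` `p`-torsion, + the model facts of `R1Asm2.rho_hub` (with `F := FK M L`,
`ψ := cL M L`).  Then `Brandt36.rho HR x` is constant, and if it vanishes at one node place then
`PicX.map c0 O L [Mo] ∈ J0L c0 O L (P00 hg X)`.

Composition: `R1Asm2.rho_hub_of_isPData` + helper31's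
`Hol31.FrameGenDiv.exists_isPData_of_generic_frames`.
-/
import Mathlib
import Fermat.Agent.T1B.R1Asm2.RhoDictAbs
import Fermat.Agent.T1B.Hol31.FrameGenDiv
import Fermat.Agent.T1B.R1Asm2.RestrictFraming

set_option autoImplicit false
set_option linter.unusedSectionVars false
set_option linter.style.haveILetI false

open TensorProduct

namespace Fermat.Agent.T1B.R1Asm2

open Fermat.Agent.Jac Fermat.Agent.Jac.LineOps39 Fermat.Agent.Jac.JGroup85Pic
open Fermat.Agent.Jac.JSmooth85Alg Fermat.Agent.Jac.BaseChange75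
open Fermat.Agent.T1.RedIface75 Fermat.Agent.T1.Red68
open Fermat.Agent.T1B.RedN3 Fermat.Agent.T1B.Bal60 Fermat.Agent.T1B.Desc1
open Fermat.Agent.T1B.Hol31.Frame Fermat.Agent.T1B.AD21.FrameMap
open Fermat.Agent.T1.Dict59 Fermat.Agent.T1.Adapt96 Fermat.Agent.T1B.Hol31.DictExt
open HahnSeries AlgebraicCurve ModularCurve IntermediateField
open Fermat.Agent.RED.Interface4 Fermat.Agent.T1B.Hecke3
open Fermat.Agent.T1.Peu37.NodeClassGroup Fermat.Agent.T1B.NodeNF37.Local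
  Fermat.Agent.T1B.NodeNF37.UnifOrd Fermat.Agent.T1B.Hol31.Local Fermat.Agent.T1B.Brandt36
  Fermat.Agent.T1B.Hol80
open scoped Fermat.Agent.Jac.BaseChange75

set_option synthInstance.maxHeartbeats 400000
set_option maxHeartbeats 1000000

section Unit

variable {W O L' B : Type} [CommRing W] [CommRing O] [IsDomain O] [Field L'] [CommRing B]
  [Algebra W O] [Algebra W L'] [Algebra O L'] [IsScalarTower W O L'] [IsFractionRing O L']
  [Algebra W B]

/-- a nonzero constant of `O` is a unit on the generic charts. -/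
theorem isUnit_algebraMap_left {a : O} (ha : a ≠ 0) :
    IsUnit (algebraMap (O ⊗[W] B) (L' ⊗[W] B) (algebraMap O (O ⊗[W] B) a)) := by
  have h1 : algebraMap (O ⊗[W] B) (L' ⊗[W] B) (algebraMap O (O ⊗[W] B) a) =
      algebraMap L' (L' ⊗[W] B) (algebraMap O L' a) := by
    rw [Algebra.TensorProduct.algebraMap_apply, Algebra.TensorProduct.algebraMap_apply,
      algebraMap_left_tmul]
    rfl
  rw [h1]
  have h2 : IsUnit (algebraMap O L' a) := by
    have : algebraMap O L' a ≠ 0 := by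
      intro h0
      exact ha (IsFractionRing.injective O L' (by rw [h0, map_zero]))
    exact this.isUnit
  exact h2.map _

end Unit

section RhoDict

variable {M : ℕ} [NeZero M] {L : IntermediateField ℚ Qbar} {t : FK M L}
  {W B0 B1 B01 : Type} [CommRing W] [CommRing B0] [CommRing B1] [CommRing B01]
  [Algebra W B0] [Algebra W B1] [Algebra W B01] [Algebra B0 B01] [Algebra B1 B01]
  [IsScalarTower W B0 B01] [IsScalarTower W B1 B01]
  (c0 : TwoChart W B0 B1 B01)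
  (O : Type) [CommRing O] [IsDomain O] [IsDiscreteValuationRing O] [Algebra W O]
  [Algebra W L] [Algebra O L] [IsScalarTower W O L] [IsFractionRing O L]
  (E : ChartIso (c0.baseChange ↥L) t)
  [Algebra (O ⊗[W] B0) (FK M L)] [Algebra (O ⊗[W] B1) (FK M L)] [Algebra (O ⊗[W] B01) (FK M L)]
  [IsScalarTower (O ⊗[W] B0) (O ⊗[W] B01) (FK M L)]
  [IsScalarTower (O ⊗[W] B1) (O ⊗[W] B01) (FK M L)]
  [Algebra (O ⊗[W] B0) (Fbar M)] [Algebra (O ⊗[W] B1) (Fbar M)] [Algebra (O ⊗[W] B01) (Fbar M)]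
  [IsScalarTower (O ⊗[W] B0) (O ⊗[W] B01) (Fbar M)]
  [IsScalarTower (O ⊗[W] B1) (O ⊗[W] B01) (Fbar M)]
  [IsDomain (O ⊗[W] B0)] [IsDomain (O ⊗[W] B1)] [IsDomain (O ⊗[W] B01)]
  [IsNoetherianRing (O ⊗[W] B0)] [IsNoetherianRing (O ⊗[W] B1)]
  {κ k : Type*} [Field κ] [Field k] [Algebra κ k]

/-- **`ρ_const` and `ρ_ker` for `Brandt36.rho` at a finite level.**  See the file header. -/
theorem rho_hub_dict
    (hσ01 : ∀ r : O ⊗[W] B01, algebraMap (O ⊗[W] B01) (FK M L) r =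
      E.e01 (algebraMap (O ⊗[W] B01) (↥L ⊗[W] B01) r))
    (hρ0 : ∀ r : O ⊗[W] B0, algebraMap (O ⊗[W] B0) (Fbar M) r =
      cL M L (E.ι0 (algebraMap (O ⊗[W] B0) (↥L ⊗[W] B0) r)))
    (hρ1 : ∀ r : O ⊗[W] B1, algebraMap (O ⊗[W] B1) (Fbar M) r =
      cL M L (E.ι1 (algebraMap (O ⊗[W] B1) (↥L ⊗[W] B1) r)))
    (hρ01 : ∀ r : O ⊗[W] B01, algebraMap (O ⊗[W] B01) (Fbar M) r =
      cL M L (E.e01 (algebraMap (O ⊗[W] B01) (↥L ⊗[W] B01) r)))
    (ht : NonConst M t)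
    (hinj01 : Function.Injective (algebraMap (O ⊗[W] B01) (FK M L)))
    {π : O} (hπ : Irreducible π) {ι : Type} [Nonempty ι]
    (hg : NodalGood (c0.baseChange O) π ι)
    {K' : Type} [Field K'] (X : ∀ i, Comp (c0.baseChange O) (hg.P0 i) (hg.P1 i) K')
    (p : ℕ) [NeZero p]
    {O₁ O₂ : ValuationSubring (FK M L)} {K : ℕ}
    (hN₀ : NodalChartHyp (algebraMap O (O ⊗[W] B0) π) O₁ O₂ K)
    (hN₁ : NodalChartHyp (algebraMap O (O ⊗[W] B1) π) O₁ O₂ K)
    (V₂ : ValuationSubring (Fbar M)) (hO : ∀ z ∈ O₁, (cL M L : FK M L →+* Fbar M) z ∈ V₂)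
    (res₂ : ↥V₂ →+* k)
    (hres : ∀ z : ↥O₁, ¬ IsUnit z →
      (res₂.comp (valHom (cL M L : FK M L →+* Fbar M) O₁ V₂ hO)) z = 0)
    {ιE : Type*} (vE : ιE → Place κ k)
    (𝔪 : ιE → Ideal (O ⊗[W] B0)) [h𝔪 : ∀ e, (𝔪 e).IsMaximal]
    (hoff₁ : ∀ e, ¬ Off (algebraMap O (O ⊗[W] B0) π) O₁ (𝔪 e))
    (hoff₂ : ∀ e, ¬ Off (algebraMap O (O ⊗[W] B0) π) O₂ (𝔪 e))
    (H₁ : ∀ e, BranchHyp (algebraMap (O ⊗[W] B0) (FK M L)) (𝔪 e) O₁
      (algebraMap O (O ⊗[W] B0) π))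
    (HP : ∀ e, NodePlaceW (PP (algebraMap (O ⊗[W] B0) (FK M L)) hN₀.chart.inj (𝔪 e) (H₁ e))
      ((res₂.comp (valHom (cL M L : FK M L →+* Fbar M) O₁ V₂ hO)).comp
        (toO O₁ (iota (algebraMap (O ⊗[W] B0) (FK M L)) hN₀.chart.inj (𝔪 e))
          (iota_mem (algebraMap (O ⊗[W] B0) (FK M L)) hN₀.chart.inj (𝔪 e) (H₁ e)))) (vE e))
    {C₂ : Subfield (Fbar M)} (HR : RhoInputs (K₀ := Qbar) V₂ res₂ vE C₂)
    (hπC : (cL M L : FK M L →+* Fbar M)
      (algebraMap (O ⊗[W] B0) (FK M L) (algebraMap O (O ⊗[W] B0) π)) ∈ C₂)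
    {Mo : QC2 O (O ⊗[W] B0) (O ⊗[W] B1) (O ⊗[W] B01)} (hMo : Mo.IsLine)
    {N : QC2 ↥L (↥L ⊗[W] B0) (↥L ⊗[W] B1) (↥L ⊗[W] B01)} (hN : N.IsLine)
    (ld : LiftData Mo N) (φ : Framing E N)
    (htors : (PicX.map c0 O ↥L (LinePic.mk (c0.baseChange O) Mo hMo)) ^ p = 1)
    (x : Pic0.torsion Qbar (Fbar M) p)
    (hJ : LinePair.cls (framePair E hN φ) = (x : Pic0 Qbar (Fbar M))) :
    (∃ s : ℤ, rho V₂ res₂ vE p C₂ HR x = fun _ => (s : ZMod p)) ∧
      ((∃ e, rho V₂ res₂ vE p C₂ HR x e = 0) →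
        PicX.map c0 O ↥L (LinePic.mk (c0.baseChange O) Mo hMo) ∈
          J0L c0 O ↥L (P00 hg X)) := by
  have hψ : ∀ r : O ⊗[W] B01, (cL M L : FK M L →+* Fbar M)
      (algebraMap (O ⊗[W] B01) (FK M L) r) = algebraMap (O ⊗[W] B01) (Fbar M) r := by
    intro r
    rw [hσ01, hρ01]
  have hfr : mapFraming (restrictFraming E hσ01 ld φ) (cL M L : FK M L →+* Fbar M) hψ =
      Fermat.Agent.T1B.Hol31.FrameInt.framingInt E (cL M L) hρ01 ld φ :=
    mapFraming_restrictFraming E (cL M L : FK M L →+* Fbar M) hσ01 hρ01 hψ ld φ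
  refine rho_hub_of_isPData c0 O ↥L hinj01 hπ hg X p hN₀ hN₁ (cL M L : FK M L →+* Fbar M) hψ V₂ hO
    res₂ hres vE 𝔪 hoff₁ hoff₂ H₁ HP HR hπC hMo (restrictFraming E hσ01 ld φ)
    (restrictFraming_ne_zero E hσ01 ld φ) htors x ?_
  intro f n hf h10 h20 h11 h21
  rw [hfr] at h10 h20 h11 h21
  obtain ⟨hdeg, g, -, -, -, hP⟩ :=
    Fermat.Agent.T1B.Hol31.FrameGenDiv.exists_isPData_of_generic_frames E
      (square_comm W O ↥L B0 B01) (square_comm W O ↥L B1 B01) hρ0 hρ1 hρ01 ht hN ld φ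
      (NeZero.ne p) (algebraMap O (O ⊗[W] B0) π) (algebraMap O (O ⊗[W] B1) π)
      (isUnit_algebraMap_left hπ.ne_zero) (isUnit_algebraMap_left hπ.ne_zero) hf n n
      h10 h20 h11 h21
  rw [hJ] at hP
  exact ⟨_, hP⟩

end RhoDict

end Fermat.Agent.T1B.R1Asm2
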