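/-
T1B (S44), cell NODE/PHI-R1, brick R1-ASM / RHO-DICT-GLUE (helper2): **`ρ_const` AND `ρ_ker` AT ONE
FINITE LEVEL, CLASS FORM** (the `ρ`-side twin of helper31's `Hol31.LevelHol.holLog_delta_of_level'`).

Hub vocabulary of `R1Asm2.rho_hub_dict`.  `y : PicX c0 O` an extension of the dictionary image
`z : PicX c0 L` of a `p`-torsion class `x` of `J₀(M)(ℚ̄)` (`PicX.map c0 O L y = z`, `z ^ p = 1`; JSpec-F as
the hypothesis `hJ`, in the shape of `Hol31.LevelHol`).  Then `Brandt36.rho HR x` is constant, and if it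
vanishes at one node place then `z ∈ J0L c0 O L (P00 hg X)`.
-/
import Mathlib
import Fermat.Agent.T1B.R1Asm2.RhoDict

set_option autoImplicit false
set_option linter.unusedSectionVars false
set_option linter.style.haveILetI false

open TensorProduct

namespace Fermat.Agent.T1B.R1Asm2

open Fermat.Agent.Jac Fermat.Agent.Jac.LineOps39 Fermat.Agent.Jac.JGroup85Pic
open Fermat.Agent.Jac.JSmooth85Alg Fermat.Agent.Jac.BaseChange75
open Fermat.Agent.T1.RedIface75 Fermat.Agent.T1.Red68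
open Fermat.Agent.T1B.RedN3 Fermat.Agent.T1B.Bal60 Fermat.Agent.T1B.Desc1
open Fermat.Agent.T1B.Hol31.Frame Fermat.Agent.T1B.AD21.FrameMap
open Fermat.Agent.T1.Dict59 Fermat.Agent.T1.Adapt96 Fermat.Agent.T1B.Hol31.DictExt
open HahnSeries AlgebraicCurve ModularCurve IntermediateField
open Fermat.Agent.RED.Interface4 Fermat.Agent.T1B.Hecke3
open Fermat.Agent.T1.Peu37.NodeClassGroup Fermat.Agent.T1B.NodeNF37.Local
  Fermat.Agent.T1B.NodeNF37.UnifOrd Fermat.Agent.T1B.Hol31.Local Fermat.Agent.T1B.Brandt36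
  Fermat.Agent.T1B.Hol80
open scoped Fermat.Agent.Jac.BaseChange75

set_option synthInstance.maxHeartbeats 400000
set_option maxHeartbeats 1000000

section RhoLevel

variable {M : ℕ} [NeZero M] {L : IntermediateField ℚ Qbar} {t : FK M L}
  {W B0 B1 B01 : Type} [CommRing W] [CommRing B0] [CommRing B1] [CommRing B01]
  [Algebra W B0] [Algebra W B1] [Algebra W B01] [Algebra B0 B01] [Algebra B1 B01]
  [IsScalarTower W B0 B01] [IsScalarTower W B1 B01]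
  (c0 : TwoChart W B0 B1 B01)
  (O : Type) [CommRing O] [IsDomain O] [IsDiscreteValuationRing O] [Algebra W O]
  [Algebra W L] [Algebra O L] [IsScalarTower W O L] [IsFractionRing O L]
  (E : ChartIso (c0.baseChange ↥L) t)
  [Algebra (O ⊗[W] B0) (FK M L)] [Algebra (O ⊗[W] B1) (FK M L)] [Algebra (O ⊗[W] B01) (FK M L)]
  [IsScalarTower (O ⊗[W] B0) (O ⊗[W] B01) (FK M L)]
  [IsScalarTower (O ⊗[W] B1) (O ⊗[W] B01) (FK M L)]
  [Algebra (O ⊗[W] B0) (Fbar M)] [Algebra (O ⊗[W] B1) (Fbar M)] [Algebra (O ⊗[W] B01) (Fbar M)]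
  [IsScalarTower (O ⊗[W] B0) (O ⊗[W] B01) (Fbar M)]
  [IsScalarTower (O ⊗[W] B1) (O ⊗[W] B01) (Fbar M)]
  [IsDomain (O ⊗[W] B0)] [IsDomain (O ⊗[W] B1)] [IsDomain (O ⊗[W] B01)]
  [IsNoetherianRing (O ⊗[W] B0)] [IsNoetherianRing (O ⊗[W] B1)]
  {κ k : Type*} [Field κ] [Field k] [Algebra κ k]

/-- **`ρ_const` and `ρ_ker` at one finite level, class form.** -/
theorem rho_of_level
    (hσ01 : ∀ r : O ⊗[W] B01, algebraMap (O ⊗[W] B01) (FK M L) r =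
      E.e01 (algebraMap (O ⊗[W] B01) (↥L ⊗[W] B01) r))
    (hρ0 : ∀ r : O ⊗[W] B0, algebraMap (O ⊗[W] B0) (Fbar M) r =
      cL M L (E.ι0 (algebraMap (O ⊗[W] B0) (↥L ⊗[W] B0) r)))
    (hρ1 : ∀ r : O ⊗[W] B1, algebraMap (O ⊗[W] B1) (Fbar M) r =
      cL M L (E.ι1 (algebraMap (O ⊗[W] B1) (↥L ⊗[W] B1) r)))
    (hρ01 : ∀ r : O ⊗[W] B01, algebraMap (O ⊗[W] B01) (Fbar M) r =
      cL M L (E.e01 (algebraMap (O ⊗[W] B01) (↥L ⊗[W] B01) r)))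
    (ht : NonConst M t)
    (hinj01 : Function.Injective (algebraMap (O ⊗[W] B01) (FK M L)))
    {π : O} (hπ : Irreducible π) {ι : Type} [Nonempty ι]
    (hg : NodalGood (c0.baseChange O) π ι)
    {K' : Type} [Field K'] (X : ∀ i, Comp (c0.baseChange O) (hg.P0 i) (hg.P1 i) K')
    (p : ℕ) [NeZero p]
    {O₁ O₂ : ValuationSubring (FK M L)} {K : ℕ}
    (hN₀ : NodalChartHyp (algebraMap O (O ⊗[W] B0) π) O₁ O₂ K)
    (hN₁ : NodalChartHyp (algebraMap O (O ⊗[W] B1) π) O₁ O₂ K)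
    (V₂ : ValuationSubring (Fbar M)) (hO : ∀ z ∈ O₁, (cL M L : FK M L →+* Fbar M) z ∈ V₂)
    (res₂ : ↥V₂ →+* k)
    (hres : ∀ z : ↥O₁, ¬ IsUnit z →
      (res₂.comp (valHom (cL M L : FK M L →+* Fbar M) O₁ V₂ hO)) z = 0)
    {ιE : Type*} (vE : ιE → Place κ k)
    (𝔪 : ιE → Ideal (O ⊗[W] B0)) [h𝔪 : ∀ e, (𝔪 e).IsMaximal]
    (hoff₁ : ∀ e, ¬ Off (algebraMap O (O ⊗[W] B0) π) O₁ (𝔪 e))
    (hoff₂ : ∀ e, ¬ Off (algebraMap O (O ⊗[W] B0) π) O₂ (𝔪 e))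
    (H₁ : ∀ e, BranchHyp (algebraMap (O ⊗[W] B0) (FK M L)) (𝔪 e) O₁
      (algebraMap O (O ⊗[W] B0) π))
    (HP : ∀ e, NodePlaceW (PP (algebraMap (O ⊗[W] B0) (FK M L)) hN₀.chart.inj (𝔪 e) (H₁ e))
      ((res₂.comp (valHom (cL M L : FK M L →+* Fbar M) O₁ V₂ hO)).comp
        (toO O₁ (iota (algebraMap (O ⊗[W] B0) (FK M L)) hN₀.chart.inj (𝔪 e))
          (iota_mem (algebraMap (O ⊗[W] B0) (FK M L)) hN₀.chart.inj (𝔪 e) (H₁ e)))) (vE e))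
    {C₂ : Subfield (Fbar M)} (HR : RhoInputs (K₀ := Qbar) V₂ res₂ vE C₂)
    (hπC : (cL M L : FK M L →+* Fbar M)
      (algebraMap (O ⊗[W] B0) (FK M L) (algebraMap O (O ⊗[W] B0) π)) ∈ C₂)
    (y : PicX c0 O) {z : PicX c0 ↥L} (hyz : PicX.map c0 O ↥L y = z) (hzp : z ^ p = 1)
    (x : Pic0.torsion Qbar (Fbar M) p)
    (hJ : ∀ (N : QC2 ↥L (↥L ⊗[W] B0) (↥L ⊗[W] B1) (↥L ⊗[W] B01)) (hN : N.IsLine)
      (φ : Framing E N), LinePic.mk (c0.baseChange ↥L) N hN = z →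
        LinePair.cls (framePair E hN φ) = (x : Pic0 Qbar (Fbar M))) :
    (∃ s : ℤ, rho V₂ res₂ vE p C₂ HR x = fun _ => (s : ZMod p)) ∧
      ((∃ e, rho V₂ res₂ vE p C₂ HR x e = 0) → z ∈ J0L c0 O ↥L (P00 hg X)) := by
  obtain ⟨Mo, hMo, rfl⟩ := LinePic.exists_rep y
  obtain ⟨N, hN, rfl⟩ := LinePic.exists_rep z
  obtain ⟨ld⟩ := LinePic.nonempty_liftData_of_bc_eq (square_comm W O ↥L B0 B01)
    (square_comm W O ↥L B1 B01) (c0.baseChange O) (c0.baseChange ↥L) hMo hN hyz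
  obtain ⟨φ⟩ := nonempty_framing E hN
  have htors : (PicX.map c0 O ↥L (LinePic.mk (c0.baseChange O) Mo hMo)) ^ p = 1 := by
    rw [hyz]; exact hzp
  have key := rho_hub_dict c0 O E hσ01 hρ0 hρ1 hρ01 ht hinj01 hπ hg X p hN₀ hN₁ V₂ hO res₂ hres
    vE 𝔪 hoff₁ hoff₂ H₁ HP HR hπC hMo hN ld φ htors x (hJ N hN φ rfl)
  rw [hyz] at key
  exact key

end RhoLevel

end Fermat.Agent.T1B.R1Asm2
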