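/-
T1B (S44), cell NODE/PHI-R1 (helper2): **THE `LocalGeom` FIELDS `ρ_const`, `ρ_ker` IN THE GLUE-v2 SHAPE**
(`Local66.Glue.localGeom_of_fields` after helper45's ruling `C := JextTop c0`):

  `ρ_const : ∀ x, j x ∈ JextTop c0 → ∃ s : ℤ, ρ x = s • one`,
  `ρ_ker   : ∀ x, j x ∈ JextTop c0 → ρ x = 0 → j x ∈ J0top c0 P00 hPP`,

with `ρ := Brandt36.rho V₂ res₂ vE q C₂ HR`, `one := fun _ => 1`; corollary of
`R1Asm2.rho_fields_of_levels` (`C := JextTop c0`, `hC := le_rfl`).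
-/
import Mathlib
import Fermat.Agent.T1B.R1Asm2.RhoFields

set_option autoImplicit false
set_option linter.unusedSectionVars false
set_option linter.style.haveILetI false

open TensorProduct

namespace Fermat.Agent.T1B.R1Asm2

open Fermat.Agent.Jac Fermat.Agent.Jac.LineOps39 Fermat.Agent.Jac.JGroup85Pic
open Fermat.Agent.Jac.JSmooth85Alg Fermat.Agent.Jac.BaseChange75
open Fermat.Agent.T1.RedIface75 Fermat.Agent.T1.Red68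
open Fermat.Agent.T1B.RedN3 Fermat.Agent.T1B.Bal60 Fermat.Agent.T1B.Desc1
open Fermat.Agent.T1.Dict59 Fermat.Agent.T1.Adapt96 Fermat.Agent.T1B.Hol31.DictExt
open HahnSeries AlgebraicCurve ModularCurve IntermediateField
open Fermat.Agent.RED.Interface4 Fermat.Agent.T1B.Hecke3
open Fermat.Agent.T1.Peu37.NodeClassGroup Fermat.Agent.T1B.NodeNF37.Local
  Fermat.Agent.T1B.NodeNF37.UnifOrd Fermat.Agent.T1B.Hol31.Local Fermat.Agent.T1B.Brandt36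
  Fermat.Agent.T1B.Hol80
open Fermat.Agent.T1B.AD74.J0a
open Fermat.Agent.T1B.Local66.Union Fermat.Agent.T1B.Local66.LocalBase
open Fermat.Agent.T1B.Local66.Objects Fermat.Agent.T1B.ADPe93
open scoped Fermat.Agent.Jac.BaseChange75

set_option synthInstance.maxHeartbeats 400000
set_option maxHeartbeats 1000000

section RhoFieldsExt

variable {q : ℕ} [Fact q.Prime] {K : IntermediateField ℚ Qbar} [Nonempty (NLevel q K)]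
  {B0 B1 B01 : Type} [CommRing B0] [CommRing B1] [CommRing B01]
  [Algebra (Wb q K) B0] [Algebra (Wb q K) B1] [Algebra (Wb q K) B01] [Algebra B0 B01]
  [Algebra B1 B01] [IsScalarTower (Wb q K) B0 B01] [IsScalarTower (Wb q K) B1 B01]
  {c0 : TwoChart (Wb q K) B0 B1 B01}
  {M : ℕ} [NeZero M]
  {ι : Type} [Preorder ι] [IsDirected ι (· ≤ ·)] [Nonempty ι]
  {O : ι → Type} [∀ i, CommRing (O i)] [∀ i, IsDomain (O i)]
  [∀ i, IsDiscreteValuationRing (O i)] [∀ i, Algebra (Wb q K) (O i)]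
  {Lf : ι → IntermediateField ℚ Qbar}
  [∀ i, Algebra (Wb q K) ↥(Lf i)] [∀ i, Algebra (O i) ↥(Lf i)]
  [∀ i, IsScalarTower (Wb q K) (O i) ↥(Lf i)] [∀ i, IsFractionRing (O i) ↥(Lf i)]
  {D : Levels (G := ↥(Pic0.torsion Qbar (Fbar M) q)) c0 O (fun i => ↥(Lf i))}
  {j : ↥(Pic0.torsion Qbar (Fbar M) q) →+ Atop q K c0} (Cm : Completion D j)
  (hinjE : ∀ E : NLevel q K, Function.Injective (bcE c0 E))
  (P00 : ∀ E : NLevel q K, Subgroup (PicO c0 E)) (hPP : Compatible c0 P00)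
  -- the level package
  {t : ∀ i, FK M (Lf i)} (E : ∀ i, ChartIso (c0.baseChange ↥(Lf i)) (t i))
  [∀ i, Algebra (O i ⊗[Wb q K] B0) (FK M (Lf i))] [∀ i, Algebra (O i ⊗[Wb q K] B1) (FK M (Lf i))]
  [∀ i, Algebra (O i ⊗[Wb q K] B01) (FK M (Lf i))]
  [∀ i, IsScalarTower (O i ⊗[Wb q K] B0) (O i ⊗[Wb q K] B01) (FK M (Lf i))]
  [∀ i, IsScalarTower (O i ⊗[Wb q K] B1) (O i ⊗[Wb q K] B01) (FK M (Lf i))]
  [∀ i, Algebra (O i ⊗[Wb q K] B0) (Fbar M)] [∀ i, Algebra (O i ⊗[Wb q K] B1) (Fbar M)]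
  [∀ i, Algebra (O i ⊗[Wb q K] B01) (Fbar M)]
  [∀ i, IsScalarTower (O i ⊗[Wb q K] B0) (O i ⊗[Wb q K] B01) (Fbar M)]
  [∀ i, IsScalarTower (O i ⊗[Wb q K] B1) (O i ⊗[Wb q K] B01) (Fbar M)]
  [∀ i, IsDomain (O i ⊗[Wb q K] B0)] [∀ i, IsDomain (O i ⊗[Wb q K] B1)]
  [∀ i, IsDomain (O i ⊗[Wb q K] B01)]
  [∀ i, IsNoetherianRing (O i ⊗[Wb q K] B0)] [∀ i, IsNoetherianRing (O i ⊗[Wb q K] B1)]
  {κ k : Type*} [Field κ] [Field k] [Algebra κ k]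

include Cm hinjE in
/-- **`LocalGeom.ρ_const` and `LocalGeom.ρ_ker`, Glue-v2 shape** (`j x ∈ JextTop c0`). -/
theorem rho_fields_of_levels_ext
    (hσ01 : ∀ i, ∀ r : O i ⊗[Wb q K] B01, algebraMap (O i ⊗[Wb q K] B01) (FK M (Lf i)) r =
      (E i).e01 (algebraMap (O i ⊗[Wb q K] B01) (↥(Lf i) ⊗[Wb q K] B01) r))
    (hρ0 : ∀ i, ∀ r : O i ⊗[Wb q K] B0, algebraMap (O i ⊗[Wb q K] B0) (Fbar M) r =
      cL M (Lf i) ((E i).ι0 (algebraMap (O i ⊗[Wb q K] B0) (↥(Lf i) ⊗[Wb q K] B0) r)))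
    (hρ1 : ∀ i, ∀ r : O i ⊗[Wb q K] B1, algebraMap (O i ⊗[Wb q K] B1) (Fbar M) r =
      cL M (Lf i) ((E i).ι1 (algebraMap (O i ⊗[Wb q K] B1) (↥(Lf i) ⊗[Wb q K] B1) r)))
    (hρ01 : ∀ i, ∀ r : O i ⊗[Wb q K] B01, algebraMap (O i ⊗[Wb q K] B01) (Fbar M) r =
      cL M (Lf i) ((E i).e01 (algebraMap (O i ⊗[Wb q K] B01) (↥(Lf i) ⊗[Wb q K] B01) r)))
    (ht : ∀ i, NonConst M (t i))
    (hinj01 : ∀ i, Function.Injective (algebraMap (O i ⊗[Wb q K] B01) (FK M (Lf i))))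
    {π : ∀ i, O i} (hπ : ∀ i, Irreducible (π i)) {ιN : Type} [Nonempty ιN]
    (hg : ∀ i, NodalGood (c0.baseChange (O i)) (π i) ιN)
    {K' : ι → Type} [∀ i, Field (K' i)]
    (X : ∀ i, ∀ n, Comp (c0.baseChange (O i)) ((hg i).P0 n) ((hg i).P1 n) (K' i))
    (hP00 : ∀ i, D.P00 i = Bal60.P00 (hg i) (X i))
    {O₁ O₂ : ∀ i, ValuationSubring (FK M (Lf i))} {Kth : ι → ℕ}
    (hN₀ : ∀ i, NodalChartHyp (algebraMap (O i) (O i ⊗[Wb q K] B0) (π i)) (O₁ i) (O₂ i) (Kth i))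
    (hN₁ : ∀ i, NodalChartHyp (algebraMap (O i) (O i ⊗[Wb q K] B1) (π i)) (O₁ i) (O₂ i) (Kth i))
    (V₂ : ValuationSubring (Fbar M))
    (hO : ∀ i, ∀ z ∈ O₁ i, (cL M (Lf i) : FK M (Lf i) →+* Fbar M) z ∈ V₂)
    (res₂ : ↥V₂ →+* k)
    (hres : ∀ i, ∀ z : ↥(O₁ i), ¬ IsUnit z →
      (res₂.comp (valHom (cL M (Lf i) : FK M (Lf i) →+* Fbar M) (O₁ i) V₂ (hO i))) z = 0)
    {ιE : Type*} [Nonempty ιE] (vE : ιE → Place κ k)
    (𝔪 : ∀ i, ιE → Ideal (O i ⊗[Wb q K] B0)) [h𝔪 : ∀ i e, (𝔪 i e).IsMaximal]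
    (hoff₁ : ∀ i e, ¬ Off (algebraMap (O i) (O i ⊗[Wb q K] B0) (π i)) (O₁ i) (𝔪 i e))
    (hoff₂ : ∀ i e, ¬ Off (algebraMap (O i) (O i ⊗[Wb q K] B0) (π i)) (O₂ i) (𝔪 i e))
    (H₁ : ∀ i e, BranchHyp (algebraMap (O i ⊗[Wb q K] B0) (FK M (Lf i))) (𝔪 i e) (O₁ i)
      (algebraMap (O i) (O i ⊗[Wb q K] B0) (π i)))
    (HP : ∀ i e, NodePlaceW
      (PP (algebraMap (O i ⊗[Wb q K] B0) (FK M (Lf i))) (hN₀ i).chart.inj (𝔪 i e) (H₁ i e))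
      ((res₂.comp (valHom (cL M (Lf i) : FK M (Lf i) →+* Fbar M) (O₁ i) V₂ (hO i))).comp
        (toO (O₁ i) (iota (algebraMap (O i ⊗[Wb q K] B0) (FK M (Lf i))) (hN₀ i).chart.inj (𝔪 i e))
          (iota_mem (algebraMap (O i ⊗[Wb q K] B0) (FK M (Lf i))) (hN₀ i).chart.inj (𝔪 i e)
            (H₁ i e)))) (vE e))
    {C₂ : Subfield (Fbar M)} (HR : RhoInputs (K₀ := Qbar) V₂ res₂ vE C₂)
    (hπC : ∀ i, (cL M (Lf i) : FK M (Lf i) →+* Fbar M)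
      (algebraMap (O i ⊗[Wb q K] B0) (FK M (Lf i))
        (algebraMap (O i) (O i ⊗[Wb q K] B0) (π i))) ∈ C₂)
    (hJ : ∀ i (x : ↥(Pic0.torsion Qbar (Fbar M) q))
      (N : QC2 ↥(Lf i) (↥(Lf i) ⊗[Wb q K] B0) (↥(Lf i) ⊗[Wb q K] B1) (↥(Lf i) ⊗[Wb q K] B01))
      (hN : N.IsLine) (φ : Framing (E i) N),
      LinePic.mk (c0.baseChange ↥(Lf i)) N hN = D.d i x →
        LinePair.cls (framePair (E i) hN φ) = (x : Pic0 Qbar (Fbar M)))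
    (hmap : ∀ i (y : PicX c0 (O i)), y ∈ D.P00 i → Cm.toO i y ∈ P00 (Cm.Ehat i)) :
    (∀ x : ↥(Pic0.torsion Qbar (Fbar M) q),
      j x ∈ Fermat.Agent.T1B.Local66.Objects.JextTop c0 →
      ∃ s : ℤ, rho V₂ res₂ vE q C₂ HR x = s • (fun _ : ιE => (1 : ZMod q))) ∧
    (∀ x : ↥(Pic0.torsion Qbar (Fbar M) q),
      j x ∈ Fermat.Agent.T1B.Local66.Objects.JextTop c0 →
      rho V₂ res₂ vE q C₂ HR x = 0 → j x ∈ J0top c0 P00 hPP) := by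
  obtain ⟨h1, h2⟩ := rho_fields_of_levels Cm hinjE P00 hPP E hσ01 hρ0 hρ1 hρ01 ht hinj01 hπ hg X
    hP00 hN₀ hN₁ V₂ hO res₂ hres vE 𝔪 hoff₁ hoff₂ H₁ HP HR hπC hJ
    (Fermat.Agent.T1B.Local66.Objects.JextTop c0) le_rfl hmap
  have hex : ∀ x : ↥(Pic0.torsion Qbar (Fbar M) q),
      j x ∈ Fermat.Agent.T1B.Local66.Objects.JextTop c0 →
      ∃ z ∈ Fermat.Agent.T1B.Local66.Objects.JextTop c0, j x - z ∈ J0top c0 P00 hPP :=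
    fun x hx => ⟨j x, hx, by rw [sub_self]; exact zero_mem _⟩
  exact ⟨fun x hx => h1 x (hex x hx), fun x hx h0 => h2 x (hex x hx) h0⟩

end RhoFieldsExt

end Fermat.Agent.T1B.R1Asm2
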